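import Fermat.Agent.CFT.Local.Norms

/-!
Unramified extensions of finite extensions of `ℚ_q`: the Frobenius exponent and norms.

The extension of degree `m` of `F` generated by roots of unity of order prime to `q` (`unramRoot`,
`unramField`): a Galois element fixing `F` acts on them through a power of Frobenius, whose exponent
`frobExp` gives the character `unramChar`, of kernel the group of the extension (`ker_unramChar`)
and with value one at `frob`.
Residues are raised to that power (`res_apply_pow`), and elements close to one are `n`-th powers in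
the field (`exists_root_of_dist`), by the distances to the roots of unity.
-/

set_option autoImplicit false

noncomputable section

open scoped Classical
open IntermediateField Polynomial

namespace FermatAgent.CFT.Local

open Coh

variable {q : ℕ} [hq : Fact q.Prime]

/-- Roots of unity have norm one. -/
lemma norm_eq_one_of_pow_eq_one {x : PadicAlgCl q} {n : ℕ} (hn : n ≠ 0) (h : x ^ n = 1) : ‖x‖ = 1 :=
  (pow_eq_one_iff_of_nonneg (norm_nonneg x) hn).mp (by rw [← norm_pow, h, norm_one])

/-- Roots of unity prime to `q` are determined by their residues. -/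
lemma eq_of_res_eq {n : ℕ} (hn : ¬ q ∣ n) {a b : PadicAlgCl q} (ha : a ^ n = 1) (hb : b ^ n = 1)
    (h : res a = res b) : a = b := by
  have hn0 : n ≠ 0 := fun h => hn (h ▸ dvd_zero q)
  have na := norm_eq_one_of_pow_eq_one hn0 ha
  have nb := norm_eq_one_of_pow_eq_one hn0 hb
  have hb0 : b ≠ 0 := norm_pos_iff.mp (nb ▸ one_pos)
  set t := a / b
  have ht : t ^ n = 1 := by rw [div_pow, ha, hb, div_one]
  have nt : ‖t‖ ≤ 1 := (norm_eq_one_of_pow_eq_one hn0 ht).le
  have ht1 : res t = 1 := by
    rw [← res_one, res_eq_res_iff nt norm_one.le,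
      show t - 1 = (a - b) / b by rw [sub_div, div_self hb0], norm_div, nb, div_one]
    exact (res_eq_res_iff na.le nb.le).mp h
  suffices ht' : t = 1 by rwa [div_eq_one_iff_eq hb0] at ht'
  by_contra hne
  have hsum : ∑ i ∈ Finset.range n, t ^ i = 0 := by
    have := geom_sum_mul t n
    rw [ht, sub_self] at this
    exact (mul_eq_zero.mp this).resolve_right (sub_ne_zero.mpr hne)
  have hres : ∀ k, res (∑ i ∈ Finset.range k, t ^ i) = (k : Res' q) ∧
      ‖∑ i ∈ Finset.range k, t ^ i‖ ≤ 1 := by
    intro k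
    induction k with
    | zero => simp
    | succ k ih =>
      have hp : ‖t ^ k‖ ≤ 1 := by rw [norm_pow]; exact pow_le_one₀ (norm_nonneg t) nt
      rw [Finset.sum_range_succ]
      refine ⟨?_, (IsUltrametricDist.norm_add_le_max _ _).trans (max_le ih.2 hp)⟩
      rw [res_add ih.2 hp, ih.1, res_pow nt, ht1, one_pow, Nat.cast_succ]
  have h0 := (hres n).1
  rw [hsum, res_zero, eq_comm, CharP.cast_eq_zero_iff (Res' q) q] at h0
  exact hn h0

variable (F : IntermediateField ℚ_[q] (PadicAlgCl q)) [FiniteDimensional ℚ_[q] F] (m : ℕ) [NeZero m]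

/-- The order of the roots of unity of the unramified extension of degree `m`. -/
def unramOrder : ℕ := resCard F ^ m - 1

/-- The residue count of the extension exceeds one. -/
lemma one_lt_resCard_pow : 1 < resCard F ^ m := Nat.one_lt_pow (NeZero.ne m) (one_lt_resCard F)

/-- The order of the root is positive. -/
lemma unramOrder_pos : 0 < unramOrder F m := Nat.sub_pos_of_lt (one_lt_resCard_pow F m)

/-- The order of the root is prime to `q`. -/
lemma not_dvd_unramOrder : ¬ q ∣ unramOrder F m := by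
  intro h
  obtain ⟨f, hf, hN⟩ := exists_resCard_eq_pow F
  have h1 : q ∣ resCard F ^ m := by
    rw [hN, ← pow_mul]
    exact dvd_pow_self q (Nat.mul_ne_zero hf.ne' (NeZero.ne m))
  have h2 : q ∣ resCard F ^ m - (resCard F ^ m - 1) := Nat.dvd_sub h1 h
  rw [Nat.sub_sub_self (one_lt_resCard_pow F m).le, Nat.dvd_one] at h2
  exact hq.out.one_lt.ne' h2

/-- A primitive root of unity generating the unramified extension. -/
def unramRoot : PadicAlgCl q :=
  haveI : NeZero (unramOrder F m : PadicAlgCl q) :=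
    ⟨Nat.cast_ne_zero.mpr (unramOrder_pos F m).ne'⟩
  (HasEnoughRootsOfUnity.exists_primitiveRoot (PadicAlgCl q) (unramOrder F m)).choose

/-- The unramified root is primitive. -/
lemma unramRoot_spec : IsPrimitiveRoot (unramRoot F m) (unramOrder F m) :=
  haveI : NeZero (unramOrder F m : PadicAlgCl q) :=
    ⟨Nat.cast_ne_zero.mpr (unramOrder_pos F m).ne'⟩
  (HasEnoughRootsOfUnity.exists_primitiveRoot (PadicAlgCl q) (unramOrder F m)).choose_spec

/-- The unramified root has norm one. -/
lemma norm_unramRoot : ‖unramRoot F m‖ = 1 :=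
  norm_eq_one_of_pow_eq_one (unramOrder_pos F m).ne' (unramRoot_spec F m).pow_eq_one

/-- The residue of the unramified root is primitive. -/
lemma res_unramRoot_spec : IsPrimitiveRoot (res (unramRoot F m)) (unramOrder F m) := by
  refine ⟨?_, fun l hl => ?_⟩
  · rw [← res_pow (norm_unramRoot F m).le, (unramRoot_spec F m).pow_eq_one, res_one]
  · refine (unramRoot_spec F m).dvd_of_pow_eq_one l (eq_of_res_eq (not_dvd_unramOrder F m) ?_
      (one_pow _) ?_)
    · rw [← pow_mul, mul_comm, pow_mul, (unramRoot_spec F m).pow_eq_one, one_pow]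
    · rw [res_pow (norm_unramRoot F m).le, hl, res_one]

lemma unramRoot_pow_resCard_pow : unramRoot F m ^ resCard F ^ m = unramRoot F m := by
  conv_lhs => rw [← Nat.sub_add_cancel (one_lt_resCard_pow F m).le]
  rw [pow_succ, ← unramOrder, (unramRoot_spec F m).pow_eq_one, one_mul]

/-- Roots of unity of its order are its powers. -/
lemma exists_pow_eq {ω : PadicAlgCl q} (h : ω ^ unramOrder F m = 1) :
    ∃ j, unramRoot F m ^ j = ω := by
  have : NeZero (unramOrder F m) := ⟨(unramOrder_pos F m).ne'⟩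
  obtain ⟨j, -, hj⟩ := (unramRoot_spec F m).eq_pow_of_pow_eq_one h
  exact ⟨j, hj⟩

lemma pow_mem_range_of_pow_eq_one {ω : PadicAlgCl q} (h : ω ^ unramOrder F m = 1) :
    ω ∈ (Finset.range (unramOrder F m)).image (unramRoot F m ^ ·) := by
  have : NeZero (unramOrder F m) := ⟨(unramOrder_pos F m).ne'⟩
  obtain ⟨j, hj, hje⟩ := (unramRoot_spec F m).eq_pow_of_pow_eq_one h
  exact Finset.mem_image.mpr ⟨j, Finset.mem_range.mpr hj, hje⟩

omit [FiniteDimensional ℚ_[q] F] in
/-- Elements fixed by the group of the field lie in it. -/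
lemma exists_apply_eq_of_mem {x : PadicAlgCl q}
    (h : ∀ σ ∈ F.fixingSubgroup, σ x = x) : x ∈ F := by
  rw [← InfiniteGalois.fixedField_fixingSubgroup F]
  exact fun σ => h σ.1 σ.2

/-- Frobenius on residues is the identity on the residue field of `F`. -/
lemma iterateFrobenius_res {f : ℕ} (hf : resCard F = q ^ f) {x : PadicAlgCl q} (hx : x ∈ F)
    (h1 : ‖x‖ ≤ 1) : iterateFrobenius (Res' q) q f (res x) = res x := by
  rw [iterateFrobenius_def, ← hf]
  exact (mem_resField_iff F).mp (res_mem_resField F hx h1)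

/-- Frobenius is realised on the generating root. -/
lemma exists_frobenius : ∃ σ ∈ F.fixingSubgroup, σ (unramRoot F m) = unramRoot F m ^ resCard F := by
  set ζ := unramRoot F m
  set O := ((Finset.range (unramOrder F m)).image (ζ ^ ·)).filter
    (fun r => ∃ σ ∈ F.fixingSubgroup, σ ζ = r)
  have hO : ∀ σ ∈ F.fixingSubgroup, σ ζ ∈ O := fun σ hσ => Finset.mem_filter.mpr
    ⟨pow_mem_range_of_pow_eq_one F m (by rw [← map_pow, (unramRoot_spec F m).pow_eq_one, map_one]),
      σ, hσ, rfl⟩
  have hOnorm : ∀ r ∈ O, r ∈ intRing q := fun r hr => by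
    obtain ⟨σ, -, rfl⟩ := (Finset.mem_filter.mp hr).2
    exact mem_intRing.mpr (by rw [norm_apply]; exact (norm_unramRoot F m).le)
  set P₀ : (intRing q)[X] := ∏ r ∈ O.attach, (X - C ⟨r.1, hOnorm r.1 r.2⟩)
  set P : (PadicAlgCl q)[X] := ∏ r ∈ O, (X - C r)
  have hPmap : P₀.map (intRing q).subtype = P := by
    simp only [P₀, P, Polynomial.map_prod, Polynomial.map_sub, map_X, map_C]
    exact Finset.prod_attach O (fun r => X - C r)
  have hPF : ∀ j, P.coeff j ∈ F := fun j => exists_apply_eq_of_mem F fun σ hσ => by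
    have hinv : P.map (σ : PadicAlgCl q →+* PadicAlgCl q) = P := by
      simp only [P, Polynomial.map_prod, Polynomial.map_sub, map_X, map_C]
      refine Finset.prod_nbij σ (fun r hr => ?_) (fun a _ b _ h => σ.injective h) ?_
        (fun r _ => rfl)
      · obtain ⟨τ, hτ, rfl⟩ := (Finset.mem_filter.mp hr).2
        exact hO (σ * τ) (mul_mem hσ hτ)
      · intro r hr
        obtain ⟨τ, hτ, rfl⟩ := (Finset.mem_filter.mp (Finset.mem_coe.mp hr)).2
        exact ⟨(σ⁻¹ * τ) ζ, Finset.mem_coe.mpr (hO _ (mul_mem (inv_mem hσ) hτ)),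
          σ.apply_symm_apply (τ ζ)⟩
    conv_rhs => rw [← hinv, coeff_map]
    rfl
  obtain ⟨f, -, hf⟩ := exists_resCard_eq_pow F
  set φ := iterateFrobenius (Res' q) q f
  set Pb := P₀.map (IsLocalRing.residue (intRing q))
  have hfix : Pb.map φ = Pb := by
    ext j
    rw [coeff_map, coeff_map, ← res_def (P₀.coeff j).2]
    refine iterateFrobenius_res F hf ?_ (mem_intRing.mp (P₀.coeff j).2)
    have := hPF j
    rw [← hPmap, coeff_map] at this
    exact this
  have hroot : Pb.eval (res ζ) = 0 := by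
    simp only [Pb, P₀, Polynomial.map_prod, eval_prod]
    refine Finset.prod_eq_zero (Finset.mem_attach O ⟨ζ, by simpa using hO 1 (one_mem _)⟩) ?_
    rw [Polynomial.map_sub, map_X, map_C, eval_sub, eval_X, eval_C, ← res_def, sub_self]
  have hroot' : Pb.eval (φ (res ζ)) = 0 := by
    conv_lhs => rw [← hfix]
    rw [eval_map_apply, hroot, map_zero]
  rw [show φ (res ζ) = res ζ ^ resCard F by rw [iterateFrobenius_def, ← hf]] at hroot'
  simp only [Pb, P₀, Polynomial.map_prod, eval_prod, Finset.prod_eq_zero_iff] at hroot'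
  obtain ⟨⟨r, hr⟩, -, hr0⟩ := hroot'
  rw [Polynomial.map_sub, map_X, map_C, eval_sub, eval_X, eval_C, ← res_def, sub_eq_zero] at hr0
  obtain ⟨σ, hσ, rfl⟩ := (Finset.mem_filter.mp hr).2
  refine ⟨σ, hσ, eq_of_res_eq (not_dvd_unramOrder F m) ?_ ?_ ?_⟩
  · rw [← map_pow, (unramRoot_spec F m).pow_eq_one, map_one]
  · rw [← pow_mul, mul_comm, pow_mul, (unramRoot_spec F m).pow_eq_one, one_pow]
  · rw [res_pow (norm_unramRoot F m).le, hr0]

/-- Every element fixing `F` acts on the root through a power of Frobenius. -/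
lemma exists_exponent {σ : Gal' q} (hσ : σ ∈ F.fixingSubgroup) :
    ∃ i : ℕ, σ (unramRoot F m) = unramRoot F m ^ resCard F ^ i := by
  set ζ := unramRoot F m
  set N := resCard F
  obtain ⟨f, -, hf⟩ := exists_resCard_eq_pow F
  set φ := iterateFrobenius (Res' q) q f
  have hφ : ∀ c, φ c = c ^ N := fun c => by rw [iterateFrobenius_def, ← hf]
  set Q : (Res' q)[X] := ∏ i ∈ Finset.range m, (X - C (res ζ ^ N ^ i))
  have hQ : Q.map φ = Q := by
    simp only [Q, Polynomial.map_prod, Polynomial.map_sub, map_X, map_C, hφ, ← pow_mul, ← pow_succ]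
    obtain ⟨m', hm'⟩ : ∃ m', m = m' + 1 := ⟨m - 1, (Nat.sub_add_cancel (NeZero.one_le)).symm⟩
    have hlast : res ζ ^ N ^ (m' + 1) = res ζ := by
      rw [← res_pow (norm_unramRoot F m).le, ← hm']
      exact congrArg res (unramRoot_pow_resCard_pow F m)
    rw [hm', Finset.prod_range_succ, Finset.prod_range_succ' (fun i => X - C (res ζ ^ N ^ i)),
      hlast, pow_zero, pow_one]
  have hcoef : ∀ j, ∃ a ∈ F, ‖a‖ ≤ 1 ∧ res a = Q.coeff j := fun j => by
    refine (mem_resField_iff F).mpr ?_
    rw [← hφ, ← coeff_map, hQ]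
  choose a haF ha1 hares using hcoef
  have hev : ∀ z : PadicAlgCl q, ‖z‖ ≤ 1 →
      res (∑ j ∈ Finset.range (Q.natDegree + 1), a j * z ^ j) = Q.eval (res z) ∧
        ‖∑ j ∈ Finset.range (Q.natDegree + 1), a j * z ^ j‖ ≤ 1 := by
    intro z hz
    rw [eval_eq_sum_range]
    induction Q.natDegree + 1 with
    | zero => simp
    | succ k ih =>
      have hp : ‖a k * z ^ k‖ ≤ 1 := by
        rw [norm_mul, norm_pow]
        exact mul_le_one₀ (ha1 k) (pow_nonneg (norm_nonneg z) k) (pow_le_one₀ (norm_nonneg z) hz)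
      rw [Finset.sum_range_succ, Finset.sum_range_succ]
      refine ⟨?_, (IsUltrametricDist.norm_add_le_max _ _).trans (max_le ih.2 hp)⟩
      rw [res_add ih.2 hp, ih.1, res_mul (ha1 k)
        (by rw [norm_pow]; exact pow_le_one₀ (norm_nonneg z) hz), res_pow hz, hares]
  have hζ : ‖σ ζ‖ ≤ 1 := by rw [norm_apply]; exact (norm_unramRoot F m).le
  have h0 : Q.eval (res ζ) = 0 := by
    rw [eval_prod]
    exact Finset.prod_eq_zero (Finset.mem_range.mpr (Nat.pos_of_ne_zero (NeZero.ne m))) (by simp)
  have h1 := hev ζ (norm_unramRoot F m).le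
  rw [h0, res_eq_zero_iff h1.2, ← norm_apply σ, map_sum] at h1
  simp only [map_mul, map_pow, (IntermediateField.mem_fixingSubgroup_iff F σ).mp hσ _ (haF _)] at h1
  have h2 := hev (σ ζ) hζ
  rw [(res_eq_zero_iff h2.2).mpr h1.1, eq_comm, eval_prod, Finset.prod_eq_zero_iff] at h2
  obtain ⟨⟨i, -, hi⟩, -⟩ := h2
  rw [eval_sub, eval_X, eval_C, sub_eq_zero] at hi
  refine ⟨i, eq_of_res_eq (not_dvd_unramOrder F m) ?_ ?_ ?_⟩
  · rw [← map_pow, (unramRoot_spec F m).pow_eq_one, map_one]
  · rw [← pow_mul, mul_comm, pow_mul, (unramRoot_spec F m).pow_eq_one, one_pow]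
  · rw [res_pow (norm_unramRoot F m).le, hi]

lemma pow_resCard_pow_mul {ω : PadicAlgCl q} (h : ω ^ unramOrder F m = 1) (r i : ℕ) :
    ω ^ resCard F ^ (m * r + i) = ω ^ resCard F ^ i := by
  induction r with
  | zero => simp
  | succ r ih =>
    rw [show m * (r + 1) + i = m + (m * r + i) by ring, pow_add (resCard F) m, pow_mul,
      ← Nat.sub_add_cancel (one_lt_resCard_pow F m).le, pow_succ, ← unramOrder, h, one_mul, ih]

/-- Exponents only matter modulo the degree. -/
lemma pow_resCard_pow_mod {ω : PadicAlgCl q} (h : ω ^ unramOrder F m = 1) (i : ℕ) :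
    ω ^ resCard F ^ (i % m) = ω ^ resCard F ^ i := by
  conv_rhs => rw [← Nat.div_add_mod i m]
  rw [pow_resCard_pow_mul F m h]

/-- The Frobenius exponent is unique. -/
lemma exponent_unique {i j : ℕ}
    (h : unramRoot F m ^ resCard F ^ i = unramRoot F m ^ resCard F ^ j) : (i : ZMod m) = j := by
  have h1 := (unramRoot_spec F m).pow_eq_one
  rw [← pow_resCard_pow_mod F m h1 i, ← pow_resCard_pow_mod F m h1 j] at h
  rcases Nat.lt_or_ge m 2 with hm | hm
  · obtain rfl : m = 1 := by have := NeZero.ne m; omega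
    exact Subsingleton.elim _ _
  have hlt : ∀ k, resCard F ^ (k % m) < unramOrder F m := fun k => by
    have hk : k % m ≤ m - 1 := by have := Nat.mod_lt k (show m > 0 by omega); omega
    have hp := Nat.pow_le_pow_right (show resCard F > 0 by have := one_lt_resCard F; omega) hk
    have h3 : 2 * resCard F ^ (m - 1) ≤ resCard F ^ m := by
      conv_rhs => rw [← Nat.sub_add_cancel (show 1 ≤ m by omega), pow_succ']
      exact Nat.mul_le_mul_right _ (one_lt_resCard F)
    have h4 : 1 < resCard F ^ (m - 1) := Nat.one_lt_pow (by omega) (one_lt_resCard F)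
    show _ < resCard F ^ m - 1
    omega
  have := Nat.pow_right_injective (one_lt_resCard F)
    ((unramRoot_spec F m).pow_inj (hlt i) (hlt j) h)
  rwa [ZMod.natCast_eq_natCast_iff']

/-- The exponent of Frobenius through which an element acts. -/
def frobExp (σ : Gal' q) : ZMod m :=
  if h : ∃ i : ℕ, σ (unramRoot F m) = unramRoot F m ^ resCard F ^ i then (h.choose : ZMod m) else 0

/-- The exponent is computed on the root. -/
lemma frobExp_eq {σ : Gal' q} {i : ℕ} (h : σ (unramRoot F m) = unramRoot F m ^ resCard F ^ i) :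
    frobExp F m σ = i := by
  have hex : ∃ i : ℕ, σ (unramRoot F m) = unramRoot F m ^ resCard F ^ i := ⟨i, h⟩
  rw [frobExp, dif_pos hex]
  exact exponent_unique F m (hex.choose_spec.symm.trans h)

/-- The action on roots of unity through the exponent. -/
lemma apply_root {σ : Gal' q} (hσ : σ ∈ F.fixingSubgroup) {ω : PadicAlgCl q}
    (h : ω ^ unramOrder F m = 1) : σ ω = ω ^ resCard F ^ (frobExp F m σ).val := by
  obtain ⟨i, hi⟩ := exists_exponent F m hσ
  obtain ⟨j, rfl⟩ := exists_pow_eq F m h
  rw [frobExp_eq F m hi, ZMod.val_natCast, map_pow, hi, ← pow_mul, ← pow_mul, mul_comm j,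
    pow_mul _ _ j, pow_mul _ _ j, pow_resCard_pow_mod F m (unramRoot_spec F m).pow_eq_one]

/-- The unramified character of `F` of order `m`. -/
def unramChar : CycChar (galLevels ℚ_[q] (PadicAlgCl q)) F.fixingSubgroup m where
  toFun := frobExp F m
  map_mul' g hg h hh := by
    obtain ⟨i, hi⟩ := exists_exponent F m hg
    obtain ⟨j, hj⟩ := exists_exponent F m hh
    rw [frobExp_eq F m hi, frobExp_eq F m hj, ← Nat.cast_add]
    refine frobExp_eq F m ?_
    rw [AlgEquiv.mul_apply, hj, map_pow, hi, ← pow_mul, ← pow_add]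
  const' := by
    have := adjoin.finiteDimensional (K := ℚ_[q]) (Algebra.IsIntegral.isIntegral (unramRoot F m))
    refine ⟨_, fixingSubgroup_mem_galLevels ℚ_[q]⟮unramRoot F m⟯, fun g _ s hs => ?_⟩
    have : (g * s) (unramRoot F m) = g (unramRoot F m) := by
      rw [AlgEquiv.mul_apply,
        (IntermediateField.mem_fixingSubgroup_iff _ s).mp hs.2 _ (mem_adjoin_simple_self ℚ_[q] _)]
    simp only [frobExp, this]

/-- The values of the unramified character. -/
@[simp] lemma unramChar_apply (σ : Gal' q) : unramChar F m σ = frobExp F m σ := rfl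

/-- A Frobenius element. -/
def frob : Gal' q := (exists_frobenius F m).choose

/-- Frobenius fixes the field. -/
lemma frob_mem : frob F m ∈ F.fixingSubgroup := (exists_frobenius F m).choose_spec.1

/-- Frobenius has exponent one. -/
lemma frobExp_frob : frobExp F m (frob F m) = 1 := by
  have h : frob F m (unramRoot F m) = unramRoot F m ^ resCard F ^ 1 := by
    rw [pow_one]; exact (exists_frobenius F m).choose_spec.2
  rw [frobExp_eq F m h, Nat.cast_one]

/-- Exponents are compatible between degrees. -/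
lemma frobExp_cast (m' : ℕ) [NeZero m'] (hdvd : m ∣ m') {σ : Gal' q} (hσ : σ ∈ F.fixingSubgroup) :
    frobExp F m σ = ((frobExp F m' σ).val : ZMod m) := by
  refine frobExp_eq F m (apply_root F m' hσ ?_)
  obtain ⟨r, hr⟩ : unramOrder F m ∣ unramOrder F m' := Nat.pow_sub_one_dvd_pow_sub_one _ hdvd
  rw [hr, pow_mul, (unramRoot_spec F m).pow_eq_one, one_pow]

/-- The unramified extension of degree `m`. -/
def unramField : IntermediateField ℚ_[q] (PadicAlgCl q) := F ⊔ ℚ_[q]⟮unramRoot F m⟯

instance : FiniteDimensional ℚ_[q] (unramField F m) :=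
  haveI := adjoin.finiteDimensional (K := ℚ_[q]) (Algebra.IsIntegral.isIntegral (unramRoot F m))
  IntermediateField.finiteDimensional_sup F _

/-- The root lies in the extension. -/
lemma unramRoot_mem : unramRoot F m ∈ unramField F m :=
  (le_sup_right : _ ≤ unramField F m) (mem_adjoin_simple_self ℚ_[q] _)

/-- The field lies in the extension. -/
lemma le_unramField : F ≤ unramField F m := le_sup_left

/-- The group of the extension is the kernel. -/
lemma ker_unramChar : (unramChar F m).ker = (unramField F m).fixingSubgroup := by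
  rw [unramField, fixingSubgroup_sup]
  ext σ
  rw [CycChar.mem_ker, unramChar_apply, Subgroup.mem_inf]
  refine and_congr_right fun hσ => ⟨fun h => ?_, fun h => ?_⟩
  · rw [IntermediateField.mem_fixingSubgroup_iff]
    have hfix : σ (unramRoot F m) = unramRoot F m := by
      rw [apply_root F m hσ (unramRoot_spec F m).pow_eq_one, h, ZMod.val_zero,
        pow_zero, pow_one]
    intro x hx
    exact (AlgHom.congr_fun (adjoin_algHom_ext (F := ℚ_[q]) (φ₁ := (σ.toAlgHom.comp (val _)))
      (φ₂ := val _) (fun y hy => by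
        rw [Set.mem_singleton_iff] at hy
        subst hy; exact hfix)) ⟨x, hx⟩ : _)
  · have := (IntermediateField.mem_fixingSubgroup_iff _ σ).mp h _ (mem_adjoin_simple_self ℚ_[q] _)
    rw [frobExp_eq F m (i := 0) (by rw [this, pow_zero, pow_one]), Nat.cast_zero]

/-- The residual action of an element with a given exponent. -/
lemma res_apply_pow {F E : IntermediateField ℚ_[q] (PadicAlgCl q)}
    [FiniteDimensional ℚ_[q] F] [FiniteDimensional ℚ_[q] E] {m : ℕ} [NeZero m] {f : ℕ} (hfm : f ∣ m)
    (hf : resCard E = resCard F ^ f) {d : Gal' q} (hd : d ∈ F.fixingSubgroup)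
    {y : PadicAlgCl q} (hy : y ∈ E) (h1 : ‖y‖ ≤ 1) :
    res (d y) = res y ^ resCard F ^ (frobExp F m d).val := by
  have hd1 : ‖d y‖ ≤ 1 := by rwa [norm_apply]
  rcases h1.lt_or_eq with hlt | hy1
  · rw [(res_eq_zero_iff h1).2 hlt, (res_eq_zero_iff hd1).2 (by rwa [norm_apply]),
      zero_pow (pow_ne_zero _ (zero_lt_one.trans (one_lt_resCard F)).ne')]
  have hres : res y ^ unramOrder F m = 1 := by
    obtain ⟨k, rfl⟩ := hfm
    have h2 := (mem_resField_iff E).mp (res_mem_resField E hy h1)
    rw [hf] at h2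
    have h3 : res y ^ (resCard F ^ f) ^ k = res y := by
      induction k with
      | zero => simp
      | succ k ih => rw [pow_succ, pow_mul, ih, h2]
    rw [← pow_mul, ← Nat.sub_add_cancel (one_lt_resCard_pow F (f * k)).le, pow_succ] at h3
    refine (mul_eq_right₀ ?_).mp h3
    rw [Ne, res_eq_zero_iff h1, hy1]
    exact lt_irrefl 1
  have : NeZero (unramOrder F m) := ⟨(unramOrder_pos F m).ne'⟩
  obtain ⟨j, -, hj⟩ := (res_unramRoot_spec F m).eq_pow_of_pow_eq_one hres
  rw [← res_pow (norm_unramRoot F m).le] at hj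
  have hρ1 : ‖unramRoot F m ^ j‖ ≤ 1 := by rw [norm_pow, norm_unramRoot, one_pow]
  have hρroot : (unramRoot F m ^ j) ^ unramOrder F m = 1 := by
    rw [← pow_mul, mul_comm, pow_mul, (unramRoot_spec F m).pow_eq_one, one_pow]
  have hρ := apply_root F m hd hρroot
  rw [← hj, ← res_pow hρ1, ← hρ, res_eq_res_iff hd1 (by rwa [norm_apply]), ← map_sub, norm_apply,
    ← res_eq_res_iff h1 hρ1]
  exact hj.symm

/-- Elements close to one are powers. -/
lemma exists_root_of_dist {F : IntermediateField ℚ_[q] (PadicAlgCl q)} {n : ℕ} [NeZero n]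
    {D : ℝ} (hD0 : 0 < D) (hD1 : D ≤ 1)
    (hD : ∀ z : PadicAlgCl q, z ^ n = 1 → z ≠ 1 → D ≤ ‖z - 1‖) {e : PadicAlgCl q} (he : e ∈ F)
    (h : ‖e - 1‖ < D ^ n) : ∃ w ∈ F, w ^ n = e := by
  have : NeZero (n : PadicAlgCl q) := ⟨Nat.cast_ne_zero.mpr (NeZero.ne n)⟩
  obtain ⟨ζ, hζ⟩ := HasEnoughRootsOfUnity.exists_primitiveRoot (PadicAlgCl q) n
  obtain ⟨w₀, hw₀⟩ := IsAlgClosed.exists_pow_nat_eq e (n := n) (Nat.pos_of_ne_zero (NeZero.ne n))
  obtain ⟨i, -, hi⟩ := (Finset.range n).exists_min_image (fun i => ‖ζ ^ i * w₀ - 1‖)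
    ⟨0, Finset.mem_range.mpr (Nat.pos_of_ne_zero (NeZero.ne n))⟩
  set w := ζ ^ i * w₀
  have hw : w ^ n = e := by
    rw [mul_pow, ← pow_mul, mul_comm i, pow_mul, hζ.pow_eq_one, one_pow, one_mul, hw₀]
  -- the product of the distances
  have hprod : ‖e - 1‖ = ∏ j ∈ Finset.range n, ‖ζ ^ j * w₀ - 1‖ := by
    have hroots := X_pow_sub_C_eq_prod hζ (Nat.pos_of_ne_zero (NeZero.ne n)) hw₀
    have h2 := congrArg (Polynomial.eval 1) hroots
    simp only [Polynomial.eval_sub, Polynomial.eval_pow, Polynomial.eval_X, Polynomial.eval_C,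
      one_pow, Polynomial.eval_prod] at h2
    rw [norm_sub_rev, h2, norm_prod]
    exact Finset.prod_congr rfl fun j _ => norm_sub_rev _ _
  have hlt : ‖w - 1‖ < D := by
    refine lt_of_pow_lt_pow_left₀ n hD0.le (lt_of_le_of_lt ?_ h)
    rw [hprod]
    calc ‖w - 1‖ ^ n = ∏ _j ∈ Finset.range n, ‖w - 1‖ := by
          rw [Finset.prod_const, Finset.card_range]
      _ ≤ _ := Finset.prod_le_prod (fun _ _ => norm_nonneg _) hi
  refine ⟨w, exists_apply_eq_of_mem F fun d hd => ?_, hw⟩
  by_contra hne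
  have hw1 : ‖w‖ = 1 := by
    have h2 := IsUltrametricDist.norm_add_eq_max_of_norm_ne_norm (x := w - 1) (y := 1)
      (by rw [norm_one]; exact (hlt.trans_le hD1).ne)
    rwa [sub_add_cancel, norm_one, max_eq_right (hlt.le.trans hD1)] at h2
  have hw0 : w ≠ 0 := norm_pos_iff.mp (hw1.symm ▸ one_pos)
  have hz : (d w / w) ^ n = 1 := by
    rw [div_pow, ← map_pow, hw, (IntermediateField.mem_fixingSubgroup_iff F d).mp hd e he, ← hw,
      div_self (pow_ne_zero _ hw0)]
  have hle := hD _ hz fun h1 => hne ((div_eq_one_iff_eq hw0).mp h1)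
  rw [div_sub_one hw0, norm_div, hw1, div_one] at hle
  refine absurd hle (not_le.mpr ?_)
  rw [show d w - w = (d w - 1) + -(w - 1) by ring]
  refine (IsUltrametricDist.norm_add_le_max _ _).trans_lt (max_lt ?_ (by rwa [norm_neg]))
  rwa [← map_one d, ← map_sub, norm_apply]

end FermatAgent.CFT.Local
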