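import Fermat.Agent.CFT.Local.Inv
import Fermat.Agent.CFT.Field.Kummer
import Fermat.Agent.CFT.Coh.Step
import Fermat.Agent.CFT.Coh.Extend

/-!
Local duality data at a place: invariants of classes with values in roots of unity.
-/

set_option autoImplicit false

noncomputable section

open scoped Classical

namespace FermatAgent.CFT.Local

open Coh IntermediateField

variable {q : ℕ} [hq : Fact q.Prime] {p : ℕ} [hp : Fact p.Prime]

/-- The residue attached to an element of `QZ` killed by `p`. -/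
def qzRes (p : ℕ) (x : QZ) : ZMod p := if h : ∃ a : ℤ, x = qz a p then (h.choose : ZMod p) else 0

/-- The residue of a fraction with denominator `p`. -/
lemma qzRes_qz (a : ℤ) : qzRes p (qz a p) = (a : ZMod p) := by
  rw [qzRes, dif_pos ⟨a, rfl⟩]
  set b := Exists.choose (⟨a, rfl⟩ : ∃ b : ℤ, qz a p = qz b p)
  have hb : qz a p = qz b p := Exists.choose_spec (⟨a, rfl⟩ : ∃ b : ℤ, qz a p = qz b p)
  rw [← sub_eq_zero, ← qz_sub, qz_eq_zero_iff] at hb
  exact (ZMod.intCast_eq_intCast_iff_dvd_sub b a p).mpr hb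

/-- Elements killed by `p` are fractions with denominator `p`. -/
lemma exists_qz {x : QZ} (h : p • x = 0) : ∃ a : ℤ, x = qz a p := by
  obtain ⟨r, rfl⟩ := QuotientAddGroup.mk_surjective x
  rw [← AddCircle.coe_nsmul, AddCircle.coe_eq_zero_iff] at h
  obtain ⟨n, hn⟩ := h
  refine ⟨n, congrArg QuotientAddGroup.mk ?_⟩
  rw [nsmul_eq_mul, zsmul_eq_mul, mul_one] at hn
  rw [eq_div_iff (Nat.cast_ne_zero.mpr hp.out.ne_zero), hn, mul_comm]

lemma qz_sq (a : ℤ) : (p : ℕ) • qz a (p * p) = qz a p := by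
  rw [← natCast_zsmul, ← qz_mul, qz_mul_right]

variable (χ : Gal' q →* (ZMod p)ˣ) {ζ : PadicAlgCl q} (hζ : IsPrimitiveRoot ζ p)
  (hχ : ∀ g : Gal' q, g ζ = ζ ^ ((χ g : ZMod p)).val)

/-- The invariant of a class with values in roots of unity. -/
def muInv (W : Subgroup (Gal' q)) (f : Gal' q → Gal' q → Mu χ) : ZMod p :=
  if h : W ∈ LL q then
    (letI := finiteDimensional_fixedField h
     qzRes p (inv (fixedField W) fun a b => muToUx hζ (f a b)))
  else 0

/-- The invariant with coefficients in roots of unity. -/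
lemma muInv_eq (F : IntermediateField ℚ_[q] (PadicAlgCl q)) [FiniteDimensional ℚ_[q] F]
    (f : Gal' q → Gal' q → Mu χ) :
    muInv χ hζ F.fixingSubgroup f = qzRes p (inv F fun a b => muToUx hζ (f a b)) := by
  have hF : fixedField F.fixingSubgroup = F := InfiniteGalois.fixedField_fixingSubgroup F
  rw [muInv, dif_pos (fix_mem F)]
  congr 2

include hχ

lemma muUx_mem_Z2 {W : Subgroup (Gal' q)} {f : Gal' q → Gal' q → Mu χ}
    (hf : f ∈ (LL q).Z2 W (Mu χ)) : (fun a b => muToUx hζ (f a b)) ∈ (LL q).Z2 W (MM q) :=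
  Levels.map_mem_Z2 _ (fun g _ => muToUx_smul hζ hχ g) hf

/-- The invariant with coefficients in roots of unity is a fraction over `p`. -/
lemma exists_inv_muUx (F : IntermediateField ℚ_[q] (PadicAlgCl q)) [FiniteDimensional ℚ_[q] F]
    {f : Gal' q → Gal' q → Mu χ} (hf : f ∈ (LL q).Z2 F.fixingSubgroup (Mu χ)) :
    ∃ a : ℤ, inv F (fun a b => muToUx hζ (f a b)) = qz a p ∧
      muInv χ hζ F.fixingSubgroup f = (a : ZMod p) := by
  have h := muUx_mem_Z2 χ hζ hχ hf
  obtain ⟨a, ha⟩ := exists_qz (p := p) (x := inv F fun a b => muToUx hζ (f a b)) (by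
    rw [← inv_nsmul F h, inv_eq_zero_iff F (nsmul_mem h _)]
    convert zero_mem ((LL q).B2 F.fixingSubgroup (MM q))
    funext a b
    exact nsmul_muToUx hζ _)
  exact ⟨a, ha, by rw [muInv_eq, ha, qzRes_qz]⟩

/-- A class with prescribed invariant of order dividing `p`. -/
lemma exists_muUx_lift (F : IntermediateField ℚ_[q] (PadicAlgCl q)) [FiniteDimensional ℚ_[q] F]
    {x : Gal' q → Gal' q → MM q} (hx : x ∈ (LL q).Z2 F.fixingSubgroup (MM q))
    (h : p • inv F x = 0) :
    ∃ g ∈ (LL q).Z2 F.fixingSubgroup (Mu χ),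
      x - (fun a b => muToUx hζ (g a b)) ∈ (LL q).B2 F.fixingSubgroup (MM q) :=
  exists_mu_lift hζ hχ hx
    ((inv_eq_zero_iff F (nsmul_mem hx p)).mp (by rw [inv_nsmul F hx, h]))

include hζ in
lemma ker_mem_LL : χ.ker ∈ LL q := by
  have : FiniteDimensional ℚ_[q] ℚ_[q]⟮ζ⟯ :=
    adjoin.finiteDimensional (Algebra.IsIntegral.isIntegral _)
  refine Levels.mem_of_le (fix_mem ℚ_[q]⟮ζ⟯) fun g hg => ?_
  have h1 : g ζ = ζ :=
    (IntermediateField.mem_fixingSubgroup_iff _ g).mp hg _ (mem_adjoin_simple_self _ ζ)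
  rw [hχ g] at h1
  have : NeZero p := ⟨(Fact.out : p.Prime).ne_zero⟩
  have h2 := hζ.pow_inj (ZMod.val_lt _) (Fact.out : p.Prime).one_lt (h1.trans (pow_one ζ).symm)
  refine Units.ext (ZMod.val_injective p ?_)
  rw [h2, Units.val_one, ZMod.val_one]

include hζ in
theorem stepSurj_local {U : Subgroup (Gal' q)} (hU : U ≤ χ.ker) : StepSurj (LL q) p U := by
  refine stepSurj_of_ker χ (ker_mem_LL χ hζ hχ) hU ?_
  intro Δ _ e he hr hker V _ hVn hVp hVL _
  have := hVn
  intro f hf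
  set W1 := e.range
  have := finiteDimensional_fixedField hr
  set F1 := fixedField W1
  have hF1 : F1.fixingSubgroup = W1 := fixingSubgroup_fixedField_of_mem hr
  set W2 := V.map e
  have hW12 : W2 ≤ W1 := Subgroup.map_le_range e V
  have hW2 : W2 ∈ LL q := by
    obtain ⟨N, hN, hNV, -⟩ := hVL
    refine Levels.mem_of_le ((LL q).inf_mem hN hr) ?_
    rintro x ⟨hx, d, rfl⟩
    exact ⟨d, hNV hx, rfl⟩
  have := finiteDimensional_fixedField hW2
  set F2 := fixedField W2
  have hF2 : F2.fixingSubgroup = W2 := fixingSubgroup_fixedField_of_mem hW2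
  have hle : F1 ≤ F2 := fun y hy g =>
    (mem_fixingSubgroup_iff F1 g.1).mp (hF1.symm ▸ hW12 g.2) y hy
  have hrel : F2.fixingSubgroup.relIndex F1.fixingSubgroup = p := by
    rw [hF1, hF2, show W1 = (⊤ : Subgroup Δ).map e from MonoidHom.range_eq_map e,
      Subgroup.relIndex_map_map_of_injective _ _ he, Subgroup.relIndex_top_right, hVp]
  let iA : DistribMulAction Δ (MM q) := DistribMulAction.compHom (MM q) e
  let iM : DistribMulAction Δ (Mu χ) := DistribMulAction.compHom (Mu χ) e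
  have hχ1 : ∀ d, χ (e d) = 1 := fun d => hker ⟨d, rfl⟩
  -- coefficients
  let toM : Triv Δ (ZMod p) →+ Mu χ := Mu.of χ
  let bk : Mu χ →+ Triv Δ (ZMod p) := Mu.val χ
  have hto : ∀ (d : Δ) x, toM (d • x) = d • toM x := fun d x => Mu.ext χ (by
    show _ = Mu.val χ (e d • toM x)
    rw [Mu.val_smul, hχ1, Units.val_one, one_mul]
    rfl)
  have hbk : ∀ (d : Δ) x, bk (d • x) = d • bk x := fun d x => by
    show Mu.val χ (e d • x) = _
    rw [Mu.val_smul, hχ1, Units.val_one, one_mul]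
    rfl
  let j : Mu χ →+ MM q := muToUx hζ
  have hj : ∀ (d : Δ) x, j (d • x) = d • j x := fun d x => muToUx_smul hζ hχ (e d) x
  set f1 := ext2 e fun a b => toM (f a b)
  have hf1 : f1 ∈ (LL q).Z2 F1.fixingSubgroup (Mu χ) := by
    rw [hF1, show W1 = (⊤ : Subgroup Δ).map e from MonoidHom.range_eq_map e]
    exact ext2_mem_Z2 he (fun _ _ => rfl) (Levels.map_mem_Z2 toM (fun d _ => hto d) hf)
  obtain ⟨a, ha, -⟩ := exists_inv_muUx χ hζ hχ F1 hf1
  have : NeZero (p * p) := ⟨mul_ne_zero hp.out.ne_zero hp.out.ne_zero⟩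
  obtain ⟨y, hy, hya⟩ := exists_inv_eq F1 a (p * p)
  have hy2 := Levels.Z2_mono (IntermediateField.fixingSubgroup_le hle) hy
  obtain ⟨x, hx, hxy⟩ := exists_muUx_lift χ hζ hχ F2 hy2 (by
    rw [inv_restrict hle hy, hrel, hya, ← natCast_zsmul, ← natCast_zsmul, ← mul_zsmul, ← qz_mul,
      qz_eq_zero_iff]
    exact ⟨a, by push_cast; ring⟩)
  rw [hF2] at hx hxy
  have hr' : ∀ (d : Δ) (m : MM q), d • m = e d • m := fun _ _ => rfl
  have hsm : ((LL q).comap e).Smooth (MM q) := smooth_comap e hr' smooth_ux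
  have hVW : V ≤ W2.comap e := Subgroup.le_comap_map e V
  set x' : Δ → Δ → Triv Δ (ZMod p) := fun a b => bk (x (e a) (e b))
  have hx' : x' ∈ ((LL q).comap e).Z2 V (Triv Δ (ZMod p)) :=
    Levels.map_mem_Z2 bk (fun d _ => hbk d) (Levels.pullback_mem_Z2 e (fun _ _ => rfl) hVW hx)
  refine ⟨indFun2 V x', indFun2_mem_Z2 hVL hx', ?_⟩
  -- compare invariants
  set y' : Δ → Δ → MM q := fun a b => y (e a) (e b)
  have hy' : y' ∈ ((LL q).comap e).Z2 ⊤ (MM q) :=
    Levels.pullback_mem_Z2 e hr' (fun d _ => hF1.symm ▸ (⟨d, rfl⟩ : e d ∈ W1)) hy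
  have h1 : y' - (fun a b => j (toM (x' a b))) ∈ ((LL q).comap e).B2 V (MM q) :=
    Levels.pullback_mem_B2 e hr' hVW hxy
  have h2 := cores_mem_B2 V hVL h1
  rw [cores_sub] at h2
  have h3 := cores_sub_index_nsmul_mem_B2 V hVL hsm hy'
  rw [hVp] at h3
  have h4 : p • y' - (fun a b => j (toM (f a b))) ∈ ((LL q).comap e).B2 ⊤ (MM q) := by
    have h := (inv_eq_zero_iff F1 (sub_mem (nsmul_mem hy p) (muUx_mem_Z2 χ hζ hχ hf1))).mp (by
      have h0 := inv_add F1 (sub_mem (nsmul_mem hy p) (muUx_mem_Z2 χ hζ hχ hf1))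
        (muUx_mem_Z2 χ hζ hχ hf1)
      rw [sub_add_cancel, inv_nsmul F1 hy, hya, qz_sq, ha] at h0
      exact add_eq_right.mp h0.symm)
    refine Levels.B2_congr (Levels.pullback_mem_B2 e hr'
      (fun d _ => hF1.symm ▸ (⟨d, rfl⟩ : e d ∈ W1)) h) fun g _ k _ => ?_
    show p • y (e g) (e k) - j (toM (f g k)) = p • y (e g) (e k) - j (f1 (e g) (e k))
    simp only [f1, ext2_apply he]
  set z : Δ → Δ → Triv Δ (ZMod p) := f - fun g k => Ind.total (indFun2 V x' g k)
  have hz : (fun a b => j (toM (z a b))) ∈ ((LL q).comap e).B2 ⊤ (MM q) := by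
    refine Levels.B2_congr (sub_mem (sub_mem h2 h3) h4) fun g _ k _ => ?_
    have e1 : j (toM (Ind.total (indFun2 V x' g k))) =
        cores V (fun a b => j (toM (x' a b))) g k := by
      refine (map_sum (j.comp toM) (fun c => indFun2 V x' g k c) Finset.univ).trans
        (Finset.sum_congr rfl fun c _ => ?_)
      simp only [indFun2, Ind.mk_apply, AddMonoidHom.comp_apply]
      rw [hto, hj]
    show j (toM (f g k - Ind.total (indFun2 V x' g k))) =
      cores V y' g k - cores V (fun a b => j (toM (x' a b))) g k - (cores V y' g k - p • y' g k) -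
        (p • y' g k - j (toM (f g k)))
    rw [map_sub, map_sub, e1]
    abel
  have h5 := ext2_mem_B2 (V := ⊤) he hr' hz
  rw [← MonoidHom.range_eq_map e] at h5
  have h6 : ext2 e (fun a b => toM (z a b)) ∈ (LL q).B2 W1 (Mu χ) :=
    mem_B2_of_muToUx hζ hχ hr (Levels.B2_congr h5 (by
      rintro _ ⟨g, rfl⟩ _ ⟨k, rfl⟩
      rw [ext2_apply he, ext2_apply he]))
  refine Levels.B2_congr (Levels.map_mem_B2 bk (fun d _ => hbk d)
    (Levels.pullback_mem_B2 (U := W1) (U' := ⊤) e (fun _ _ => rfl)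
      (fun d _ => (⟨d, rfl⟩ : e d ∈ W1)) h6))
    fun g _ k _ => ?_
  rw [ext2_apply he]
  rfl

/-- The local invariants on classes with values in roots of unity. -/
def invDatum : InvDatum χ (LL q) where
  inv := muInv χ hζ
  inv_add W hW f hf f' hf' := by
    have := finiteDimensional_fixedField hW
    have hF := fixingSubgroup_fixedField_of_mem hW
    rw [← hF] at hf hf' ⊢
    obtain ⟨a, ha, ha'⟩ := exists_inv_muUx χ hζ hχ _ hf
    obtain ⟨b, hb, hb'⟩ := exists_inv_muUx χ hζ hχ _ hf'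
    have h := inv_add _ (muUx_mem_Z2 χ hζ hχ hf) (muUx_mem_Z2 χ hζ hχ hf')
    rw [ha, hb, ← qz_add] at h
    rw [ha', hb', muInv_eq, ← Int.cast_add, ← qzRes_qz, ← h]
    congr 2
    funext u v
    exact map_add _ _ _
  inv_eq_zero_iff W hW f hf := by
    have := finiteDimensional_fixedField hW
    have hF := fixingSubgroup_fixedField_of_mem hW
    rw [← hF] at hf ⊢
    obtain ⟨a, ha, ha'⟩ := exists_inv_muUx χ hζ hχ _ hf
    rw [ha', ZMod.intCast_zmod_eq_zero_iff_dvd, ← qz_eq_zero_iff, ← ha,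
      inv_eq_zero_iff _ (muUx_mem_Z2 χ hζ hχ hf)]
    refine ⟨mem_B2_of_muToUx hζ hχ (fix_mem _), fun h => ?_⟩
    exact Levels.map_mem_B2 _ (fun g _ => muToUx_smul hζ hχ g) h
  inv_cor W _ _ hW _ f hf := by
    have := finiteDimensional_fixedField hW
    have hF := fixingSubgroup_fixedField_of_mem hW
    rw [← hF] at hf
    have := (LL q).finiteIndex (fix_mem (fixedField W))
    have hB : (⊥ : IntermediateField ℚ_[q] (PadicAlgCl q)).fixingSubgroup = ⊤ :=
      IntermediateField.fixingSubgroup_bot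
    rw [← hB, muInv_eq, muInv, dif_pos hW,
      ← inv_cores (fixedField W) (muUx_mem_Z2 χ hζ hχ hf)]
    congr 2
    funext g k
    have e1 : ∀ (U : Subgroup (Gal' q)) [U.FiniteIndex],
        muToUx hζ (Ind.total (indFun2 U f g k : Ind U (Mu χ))) =
        cores U (fun a b => muToUx hζ (f a b)) g k := fun U _ => by
      refine (map_sum (muToUx (χ := χ) hζ) (fun c => indFun2 U f g k c) Finset.univ).trans
        (Finset.sum_congr rfl fun c _ => ?_)
      simp only [indFun2, Ind.mk_apply, muToUx_smul hζ hχ]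
    rw [e1]
    congr! 1
    exact hF.symm
  exists_inv_eq_one W hW _ := by
    have := finiteDimensional_fixedField hW
    have hF := fixingSubgroup_fixedField_of_mem hW
    rw [← hF]
    obtain ⟨x, hx, hxi⟩ := exists_inv_eq (fixedField W) 1 p
    obtain ⟨g, hg, hgx⟩ := exists_muUx_lift χ hζ hχ _ hx (by
      rw [hxi, ← natCast_zsmul, ← qz_mul, qz_eq_zero_iff]; exact ⟨1, rfl⟩)
    refine ⟨g, hg, ?_⟩
    rw [muInv_eq, ← inv_congr _ (muUx_mem_Z2 χ hζ hχ hg) hgx, hxi, qzRes_qz, Int.cast_one]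
  ker_mem := ker_mem_LL χ hζ hχ
  corSurj W _ hWn hW hWχ M _ _ _ _ hM :=
    corSurj_of_step hWn hW (stepSurj_local χ hζ hχ hWχ) M hM

end FermatAgent.CFT.Local
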