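import Fermat.Agent.CFT.Local.Brauer
import Fermat.Agent.CFT.Coh.Pi

/-!
The multiplicative group of a cyclic algebra of prime degree over a local field, as functions on
the cyclic group, and its Herbrand indices.
-/

set_option autoImplicit false

noncomputable section

open scoped Classical

namespace FermatAgent.CFT.Local

open Coh

variable {q : ℕ} [hq : Fact q.Prime] {p : ℕ} [hp : Fact p.Prime]
  {F : IntermediateField ℚ_[q] (PadicAlgCl q)}
  (χ : CycChar (LL q) F.fixingSubgroup p)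

/-- The semilocal multiplicative group. -/
def semi : AddSubgroup (ZMod p → MM q) where
  carrier := {φ | ∀ d ∈ F.fixingSubgroup, ∀ i, φ (i + χ d) = d • φ i}
  zero_mem' := fun d _ _ => (smul_zero d).symm
  add_mem' := fun {φ ψ} hφ hψ d hd i => by
    simp only [Pi.add_apply, hφ d hd i, hψ d hd i, smul_add]
  neg_mem' := fun {φ} hφ d hd i => by simp only [Pi.neg_apply, hφ d hd i, smul_neg]

/-- Coordinates are fixed by the kernel. -/
lemma apply_mem_fixedUx {φ : ZMod p → MM q} (hφ : φ ∈ semi χ) (i : ZMod p) :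
    φ i ∈ fixedUx χ.ker := fun d hd => by
  have h := hφ d hd.1 i
  rw [hd.2, add_zero] at h
  exact h.symm

/-- Constants in the semilocal group are the elements of the base. -/
lemma const_mem_semi_iff {y : MM q} : (fun _ : ZMod p => y) ∈ semi χ ↔ y ∈ starF F :=
  ⟨fun h g hg => (h g hg 0).symm, fun h d hd _ => (h d hd).symm⟩

/-- The invariants of the shift are the constants. -/
lemma semi_inf_ker_diff :
    semi χ ⊓ (diffEnd (shift (p := p) (M := MM q))).ker =
      (starF F).map (Pi.constAddMonoidHom (ZMod p) (MM q)) := by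
  ext φ
  constructor
  · rintro ⟨hφ, hd⟩
    have hc := eq_const_of_diffEnd (p := p) (M := MM q) hd
    refine ⟨φ 0, (const_mem_semi_iff χ).mp ?_, funext fun i => (hc i).symm⟩
    rwa [show (fun _ : ZMod p => φ 0) = φ from funext fun i => (hc i).symm]
  · rintro ⟨y, hy, rfl⟩
    refine ⟨(const_mem_semi_iff χ).mpr hy, ?_⟩
    show diffEnd shift (fun _ => y) = 0
    funext i
    rw [diffEnd_apply, Pi.sub_apply, shift_apply, sub_self]
    rfl

lemma map_trace :
    (semi χ).map (traceEnd (shift (p := p) (M := MM q)) p) =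
      (((semi χ).map (∑ j, Pi.evalAddMonoidHom (fun _ : ZMod p => MM q) j))).map
        (Pi.constAddMonoidHom (ZMod p) (MM q)) := by
  rw [AddSubgroup.map_map]
  congr 1
  refine AddMonoidHom.ext fun φ => funext fun i => ?_
  rw [traceEnd_shift, AddMonoidHom.comp_apply, Pi.constAddMonoidHom_apply,
    AddMonoidHom.finsetSum_apply]
  rfl

lemma hIdx_semi_eq :
    hIdx (diffEnd (shift (p := p) (M := MM q))) (traceEnd shift p) (semi χ) =
      ((semi χ).map (∑ j, Pi.evalAddMonoidHom (fun _ : ZMod p => MM q) j)).relIndex (starF F) := by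
  rw [hIdx, semi_inf_ker_diff, map_trace, AddSubgroup.relIndex_map_map_of_injective]
  exact fun a b h => congrFun h 0

section Split

variable (h0 : ∀ d ∈ F.fixingSubgroup, χ d = 0)

include h0

/-- In the split case the semilocal group is a product. -/
lemma mem_semi_split {φ : ZMod p → MM q} : φ ∈ semi χ ↔ ∀ i, φ i ∈ starF F :=
  ⟨fun h i d hd => by
    have := h d hd i
    rw [h0 d hd, add_zero] at this
    exact this.symm,
   fun h d hd i => by rw [h0 d hd, add_zero, h i d hd]⟩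

/-- The Herbrand index in the split case. -/
theorem hIdx_semi_split :
    hIdx (diffEnd (shift (p := p) (M := MM q))) (traceEnd shift p) (semi χ) = 1 := by
  rw [hIdx_semi_eq, AddSubgroup.relIndex_eq_one]
  intro y hy
  refine ⟨Pi.single 0 y, (mem_semi_split χ h0).mpr fun i => ?_, ?_⟩
  · by_cases h : i = 0
    · rw [h, Pi.single_eq_same]; exact hy
    · rw [Pi.single_eq_of_ne h]; exact zero_mem _
  · simp [AddMonoidHom.finsetSum_apply]

lemma exists_diff_eq_split {φ : ZMod p → MM q} (hφ : φ ∈ semi χ) (hs : ∑ j, φ j = 0) :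
    ∃ ψ ∈ semi χ, diffEnd (shift (p := p) (M := MM q)) ψ = φ := by
  have : Fact (1 < p) := ⟨hp.out.one_lt⟩
  rw [mem_semi_split χ h0] at hφ
  set ψ : ZMod p → MM q := fun i => ∑ k ∈ Finset.range i.val, φ (k : ZMod p)
  refine ⟨ψ, (mem_semi_split χ h0).mpr fun i => sum_mem fun k _ => hφ _, funext fun i => ?_⟩
  rw [diffEnd_apply, Pi.sub_apply, shift_apply]
  simp only [ψ]
  rw [ZMod.val_add, ZMod.val_one]
  rcases eq_or_lt_of_le (Nat.succ_le_of_lt (ZMod.val_lt i)) with h | h
  · rw [show i.val + 1 = p from h, Nat.mod_self, Finset.range_zero, Finset.sum_empty, zero_sub,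
      neg_eq_iff_add_eq_zero]
    have h3 : i.val + 1 = p := h
    have h2 : ∑ k ∈ Finset.range (i.val + 1), φ (k : ZMod p) = 0 := by
      simp only [h3]; rw [sum_eq_range, hs]
    rw [Finset.sum_range_succ, ZMod.natCast_zmod_val] at h2
    exact h2
  · rw [Nat.mod_eq_of_lt h, Finset.sum_range_succ, ZMod.natCast_zmod_val, add_sub_cancel_left]

end Split

section Inert

variable {σ : Gal' q} (hσ : σ ∈ F.fixingSubgroup) (hσ1 : χ σ = 1)

include hσ hσ1

lemma apply_eq_pow {φ : ZMod p → MM q} (hφ : φ ∈ semi χ) (i : ZMod p) :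
    φ i = σ ^ i.val • φ 0 := by
  have h := hφ _ (pow_mem hσ i.val) 0
  rwa [χ.map_pow hσ, hσ1, mul_one, ZMod.natCast_zmod_val, zero_add] at h

lemma pow_smul_mem_semi {y : MM q} (hy : y ∈ fixedUx χ.ker) :
    (fun i : ZMod p => σ ^ i.val • y) ∈ semi χ := fun d hd i => by
  have hmem : d * σ ^ i.val ∈ F.fixingSubgroup := mul_mem hd (pow_mem hσ _)
  have e : χ (d * σ ^ i.val) = i + χ d := by
    rw [χ.map_mul hd (pow_mem hσ _), χ.map_pow hσ, hσ1, mul_one, ZMod.natCast_zmod_val, add_comm]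
  rw [← mul_smul, smul_eq_pow_smul χ hσ hσ1 (a := y) (fun s hs => hy s hs) hmem, e]

/-- Sums of coordinates are norms in the inert case. -/
lemma map_sum_semi :
    (semi χ).map (∑ j, Pi.evalAddMonoidHom (fun _ : ZMod p => MM q) j) =
      (fixedUx χ.ker).map (cycNorm σ p) := by
  have key : ∀ φ ∈ semi χ, ∑ j, φ j = cycNorm σ p (φ 0) := fun φ hφ => by
    rw [cycNorm_apply, ← sum_eq_range]
    refine Finset.sum_congr rfl fun k hk => ?_
    rw [apply_eq_pow χ hσ hσ1 hφ, ZMod.val_natCast_of_lt (Finset.mem_range.mp hk)]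
  ext y
  simp only [AddSubgroup.mem_map, AddMonoidHom.finsetSum_apply, Pi.evalAddMonoidHom_apply]
  constructor
  · rintro ⟨φ, hφ, rfl⟩
    exact ⟨φ 0, apply_mem_fixedUx χ hφ 0, (key φ hφ).symm⟩
  · rintro ⟨a, ha, rfl⟩
    refine ⟨_, pow_smul_mem_semi χ hσ hσ1 ha, ?_⟩
    rw [key _ (pow_smul_mem_semi χ hσ hσ1 ha)]
    simp

/-- The Herbrand index in the inert case. -/
theorem hIdx_semi_inert [FiniteDimensional ℚ_[q] F] :
    hIdx (diffEnd (shift (p := p) (M := MM q))) (traceEnd shift p) (semi χ) = p := by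
  rw [hIdx_semi_eq, map_sum_semi χ hσ hσ1, norm_index χ hσ hσ1]

lemma exists_diff_eq_inert [FiniteDimensional ℚ_[q] F] {φ : ZMod p → MM q} (hφ : φ ∈ semi χ)
    (hs : ∑ j, φ j = 0) :
    ∃ ψ ∈ semi χ, diffEnd (shift (p := p) (M := MM q)) ψ = φ := by
  have : Fact (1 < p) := ⟨hp.out.one_lt⟩
  have h0 : cycNorm σ p (φ 0) = 0 := by
    rw [cycNorm_apply, ← hs, ← sum_eq_range]
    refine Finset.sum_congr rfl fun k hk => ?_
    rw [apply_eq_pow χ hσ hσ1 hφ (k : ZMod p), ZMod.val_natCast_of_lt (Finset.mem_range.mp hk)]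
  obtain ⟨y, hy, hyφ⟩ :=
    exists_smul_sub_of_norm_eq_zero χ hσ hσ1 (apply_mem_fixedUx χ hφ 0) h0
  refine ⟨_, pow_smul_mem_semi χ hσ hσ1 hy, funext fun i => ?_⟩
  rw [diffEnd_apply, Pi.sub_apply, shift_apply]
  have h := pow_smul_mem_semi χ hσ hσ1 hy (σ ^ i.val * σ) (mul_mem (pow_mem hσ _) hσ) 0
  rw [χ.map_mul (pow_mem hσ _) hσ, χ.map_pow hσ, hσ1, mul_one, ZMod.natCast_zmod_val, zero_add] at h
  simp only [ZMod.val_zero, pow_zero, one_smul] at h ⊢
  rw [h, mul_smul, ← smul_sub, hyφ, ← apply_eq_pow χ hσ hσ1 hφ]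

end Inert

/-- A character is trivial or takes the value one. -/
lemma exists_generator_or_trivial :
    (∀ d ∈ F.fixingSubgroup, χ d = 0) ∨ ∃ σ ∈ F.fixingSubgroup, χ σ = 1 := by
  by_cases h : ∀ d ∈ F.fixingSubgroup, χ d = 0
  · exact Or.inl h
  · push Not at h
    obtain ⟨d, hd, hne⟩ := h
    refine Or.inr ⟨d ^ (χ d)⁻¹.val, pow_mem hd _, ?_⟩
    rw [χ.map_pow hd, ZMod.natCast_zmod_val, inv_mul_cancel₀ hne]

/-- The semilocal group has no cohomology in degree minus one. -/
theorem hIdx_semi_swap [FiniteDimensional ℚ_[q] F] :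
    hIdx (traceEnd (shift (p := p) (M := MM q)) p) (diffEnd shift) (semi χ) = 1 := by
  rw [hIdx, AddSubgroup.relIndex_eq_one]
  rintro φ ⟨hφ, hs⟩
  have hs' : ∑ j, φ j = 0 := (traceEnd_shift φ 0).symm.trans (congrFun hs 0)
  rcases exists_generator_or_trivial χ with h | ⟨σ, hσ, hσ1⟩
  · exact exists_diff_eq_split χ h hφ hs'
  · exact exists_diff_eq_inert χ hσ hσ1 hφ hs'

/-- The semilocal group is stable under the shift. -/
lemma shift_mem_semi {φ : ZMod p → MM q} (hφ : φ ∈ semi χ) : shift φ ∈ semi χ := fun d hd i => by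
  rw [shift_apply, shift_apply, ← hφ d hd (i + 1)]
  congr 1
  abel

end FermatAgent.CFT.Local
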