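import Fermat.Agent.CFT.Local.CycEval
import Fermat.Agent.CFT.Local.Semilocal

/-!
A character of prime power order is determined by the invariants of its cyclic classes.
-/

set_option autoImplicit false

noncomputable section

open scoped Classical

namespace FermatAgent.CFT

namespace Coh

variable {Γ : Type*} [Group Γ] {L : Levels Γ} {W : Subgroup Γ} {n : ℕ}

/-- The sum of two characters. -/
def CycChar.addChar (χ ψ : CycChar L W n) : CycChar L W n where
  toFun g := χ g + ψ g
  map_mul' g hg k hk := by rw [χ.map_mul hg hk, ψ.map_mul hg hk]; abel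
  const' := χ.const'.op ψ.const' (· + ·)

/-- The sum of characters is pointwise. -/
@[simp] lemma CycChar.addChar_apply (χ ψ : CycChar L W n) (g : Γ) :
    χ.addChar ψ g = χ g + ψ g := rfl

/-- The reduction of a character. -/
def CycChar.castChar' [NeZero n] {m : ℕ} (χ : CycChar L W n) (h : m ∣ n) : CycChar L W m where
  toFun g := ((χ g).val : ZMod m)
  map_mul' g hg k hk := by
    rw [χ.map_mul hg hk, ZMod.val_add, ← Nat.cast_add, ZMod.natCast_eq_natCast_iff]
    exact (Nat.mod_modEq _ n).of_dvd h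
  const' := χ.const'.comp fun z => ((z.val : ℕ) : ZMod m)

/-- A multiple of a character. -/
def CycChar.scaleChar (χ : CycChar L W n) (c : ZMod n) : CycChar L W n where
  toFun g := c * χ g
  map_mul' g hg k hk := by rw [χ.map_mul hg hk, mul_add]
  const' := χ.const'.comp fun x => c * x

/-- The scaled character is pointwise. -/
@[simp] lemma CycChar.scaleChar_apply (χ : CycChar L W n) (c : ZMod n) (g : Γ) :
    χ.scaleChar c g = c * χ g := rfl

/-- The class of a sum of characters. -/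
lemma cyc_addChar_mem_B2 [NeZero n] {A : Type*} [AddCommGroup A] [DistribMulAction Γ A]
    (χ ψ : CycChar L W n) {b : A} (hb : ∀ g ∈ W, g • b = b) :
    cyc (χ.addChar ψ) b - (cyc χ b + cyc ψ b) ∈ L.B2 W A := by
  refine ⟨fun g => (-carry (χ g) (ψ g)) • b, χ.const'.op ψ.const' fun x y => (-carry x y) • b,
    fun g hg k hk => ?_⟩
  have e1 := val_add_val (χ g) (ψ g)
  have e2 := val_add_val (χ k) (ψ k)
  have e3 := val_add_val (χ g + χ k) (ψ g + ψ k)
  have e4 := val_add_val (χ g) (χ k)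
  have e5 := val_add_val (ψ g) (ψ k)
  have e6 := val_add_val (χ g + ψ g) (χ k + ψ k)
  rw [add_add_add_comm (χ g) (ψ g)] at e6
  have e : carry (χ g + ψ g) (χ k + ψ k) - (carry (χ g) (χ k) + carry (ψ g) (ψ k)) =
      -carry (χ k) (ψ k) - -carry (χ g + χ k) (ψ g + ψ k) + -carry (χ g) (ψ g) := by
    refine mul_left_cancel₀ (a := (n : ℤ)) (by exact_mod_cast NeZero.ne n) ?_
    linear_combination e3 + e4 + e5 - e1 - e2 - e6
  simp only [Pi.sub_apply, Pi.add_apply, cyc_apply, d1, smul_zsmul_comm, hb g hg,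
    CycChar.addChar_apply, χ.map_mul hg hk, ψ.map_mul hg hk]
  rw [← add_smul, ← sub_smul, e]
  module

end Coh

namespace Local

open Coh

variable {q : ℕ} [hq : Fact q.Prime] {F : IntermediateField ℚ_[q] (PadicAlgCl q)}
  [FiniteDimensional ℚ_[q] F] {p : ℕ} [hp : Fact p.Prime]

/-- A character of prime order with trivial invariants is trivial. -/
lemma eq_zero_of_inv_eq_zero_prime (χ : CycChar (LL q) F.fixingSubgroup p)
    (h : ∀ b ∈ starF F, inv F (cyc χ b) = 0) : ∀ d ∈ F.fixingSubgroup, χ d = 0 := by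
  rcases exists_generator_or_trivial χ with h0 | ⟨σ, hσ, hσ1⟩
  · exact h0
  have hle : starF F ≤ (fixedUx χ.ker).map (cycNorm σ p) := fun b hb => by
    obtain ⟨a, ha, hab⟩ := exists_norm_of_cyc_mem_B2 χ hσ hσ1
      (Ux.hilbert90 χ (fix_mem F)) hb ((inv_eq_zero_iff F (cyc_mem_Z2' F χ hb)).mp (h b hb))
    exact ⟨a, ha, hab⟩
  have h1 := norm_index χ hσ hσ1
  rw [AddSubgroup.relIndex_eq_one.mpr hle] at h1
  exact absurd h1.symm hp.out.one_lt.ne'

/-- A character of prime power order with trivial invariants is trivial. -/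
theorem eq_zero_of_inv_eq_zero {k : ℕ}
    (χ : CycChar (LL q) F.fixingSubgroup (p ^ k)) (h : ∀ b ∈ starF F, inv F (cyc χ b) = 0) :
    ∀ d ∈ F.fixingSubgroup, χ d = 0 := by
  induction k with
  | zero =>
    exact fun d _ => Subsingleton.elim (α := ZMod (p ^ 0)) _ _
      (h := by rw [pow_zero]; infer_instance)
  | succ k ih =>
    have : NeZero (p ^ k) := ⟨pow_ne_zero _ hp.out.ne_zero⟩
    have : NeZero p := ⟨hp.out.ne_zero⟩
    have hdvd : p ∣ p ^ (k + 1) := dvd_pow_self p (Nat.succ_ne_zero k)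
    set ψ : CycChar (LL q) F.fixingSubgroup p := χ.castChar' hdvd
    have hψ : ∀ d ∈ F.fixingSubgroup, p ∣ (χ d).val := fun d hd => by
      rw [← ZMod.natCast_eq_zero_iff]
      refine eq_zero_of_inv_eq_zero_prime ψ (fun b hb => ?_) d hd
      have h1 := cyc_cast_mem_B2 χ ψ (h := p ^ k) (pow_succ p k) (fun g _ => rfl) hb
      rw [inv_congr F (nsmul_mem (cyc_mem_Z2' F χ hb) _) h1,
        inv_nsmul F (cyc_mem_Z2' F χ hb), h b hb,
        smul_zero]
    let χ₁ : CycChar (LL q) F.fixingSubgroup (p ^ k) :=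
      { toFun := fun d => (((χ d).val / p : ℕ) : ZMod (p ^ k))
        map_mul' := fun d hd e he => by
          rw [← Nat.cast_add, ← Nat.add_div_of_dvd_right (hψ d hd), χ.map_mul hd he, ZMod.val_add,
            ZMod.natCast_eq_natCast_iff]
          set x := (χ d).val + (χ e).val
          obtain ⟨c, hc⟩ : p ∣ x := dvd_add (hψ d hd) (hψ e he)
          rw [hc, pow_succ', Nat.mul_mod_mul_left, Nat.mul_div_cancel_left _ hp.out.pos,
            Nat.mul_div_cancel_left _ hp.out.pos]
          exact Nat.mod_modEq _ _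
        const' := χ.const'.comp fun x => ((x.val / p : ℕ) : ZMod (p ^ k)) }
    have hval : ∀ d ∈ F.fixingSubgroup, (χ d).val = p * (χ₁ d).val := fun d hd => by
      show _ = p * (((χ d).val / p : ℕ) : ZMod (p ^ k)).val
      rw [ZMod.val_natCast, Nat.mod_eq_of_lt ((Nat.div_lt_iff_lt_mul hp.out.pos).mpr
        (lt_of_lt_of_eq (ZMod.val_lt _) (pow_succ p k))), Nat.mul_div_cancel' (hψ d hd)]
    have h' := ih χ₁ fun b hb => by
      rw [← h b hb]
      refine inv_congr F (cyc_mem_Z2' F χ hb) (Levels.B2_congr (zero_mem _) fun d hd e he => ?_)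
      show (carry (χ₁ d) (χ₁ e) • b - carry (χ d) (χ e) • b) = 0
      have e' : carry (χ d) (χ e) = carry (χ₁ d) (χ₁ e) := by
        simp only [carry, hval d hd, hval e he, pow_succ', ← mul_add]
        rw [Nat.mul_div_mul_left _ _ hp.out.pos]
      rw [e', sub_self]
    exact fun d hd => (ZMod.val_eq_zero _).mp (by rw [hval d hd, h' d hd, ZMod.val_zero, mul_zero])

/-- A character whose classes vanish on units is unramified. -/
theorem exists_unram_of_units {k : ℕ} [NeZero (p ^ k)]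
    (χ : CycChar (LL q) F.fixingSubgroup (p ^ k))
    (h : ∀ u ∈ starF F, ‖u.val‖ = 1 → inv F (cyc χ u) = 0) :
    ∃ c : ZMod (p ^ k), ∀ d ∈ F.fixingSubgroup, χ d = c * frobExp F (p ^ k) d := by
  have hπ := unifUx_mem F
  obtain ⟨a, ha⟩ : ∃ a : ℤ, inv F (cyc χ (unifUx F)) = qz a (p ^ k) := by
    have hn : (p ^ k) • inv F (cyc χ (unifUx F)) = 0 := by
      rw [← inv_nsmul F (cyc_mem_Z2' F χ hπ),
          show (p ^ k) • cyc χ (unifUx F) = cyc χ ((p ^ k) • unifUx F) by
        rw [← natCast_zsmul, ← cyc_zsmul, natCast_zsmul]]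
      exact inv_cyc_nsmul F χ hπ
    obtain ⟨r, hr⟩ := QuotientAddGroup.mk_surjective (inv F (cyc χ (unifUx F)))
    rw [← hr, ← AddCircle.coe_nsmul, AddCircle.coe_eq_zero_iff] at hn
    obtain ⟨m, hm⟩ := hn
    refine ⟨m, hr.symm.trans (congrArg QuotientAddGroup.mk ?_)⟩
    rw [nsmul_eq_mul, zsmul_eq_mul, mul_one] at hm
    rw [eq_div_iff (Nat.cast_ne_zero.mpr (NeZero.ne (p ^ k))), hm, mul_comm]
  refine ⟨(a : ZMod (p ^ k)), fun d hd => ?_⟩
  set ν := (unramChar F (p ^ k)).scaleChar (-(a : ZMod (p ^ k)))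
  have key := eq_zero_of_inv_eq_zero (χ.addChar ν) (fun b hb => ?_) d hd
  · rw [CycChar.addChar_apply, CycChar.scaleChar_apply, unramChar_apply, neg_mul,
      ← sub_eq_add_neg, sub_eq_zero] at key
    exact key
  have hν : inv F (cyc ν b) = qz (-a * ordUx F b) (p ^ k) :=
    inv_cyc_of_unram F ν (-a) (fun d _ => by
      rw [CycChar.scaleChar_apply, unramChar_apply, Int.cast_neg]) hb
  set m := ordUx F b
  have hu : b - m • unifUx F ∈ starF F := sub_mem hb (zsmul_mem hπ m)
  have hu1 : ‖(b - m • unifUx F).val‖ = 1 :=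
    (ord_eq_zero_iff F (mem_fixedUx_fixingSubgroup.mp hu) (Ux.val_ne_zero _)).mp (by
      show ordUx F (b - m • unifUx F) = 0
      rw [ordUx_sub F hb (zsmul_mem hπ m), ordUx_zsmul F hπ, ordUx_unif, mul_one, sub_self])
  have hχb : inv F (cyc χ b) = qz (m * a) (p ^ k) := by
    rw [show b = (b - m • unifUx F) + m • unifUx F by abel, inv_cyc_add F χ hu (zsmul_mem hπ m),
      h _ hu hu1, zero_add, cyc_zsmul, inv_zsmul F (cyc_mem_Z2' F χ hπ), ha, ← qz_mul]
  rw [inv_congr F (add_mem (cyc_mem_Z2' F χ hb) (cyc_mem_Z2' F ν hb)) (cyc_addChar_mem_B2 χ ν hb),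
    inv_add F (cyc_mem_Z2' F χ hb) (cyc_mem_Z2' F ν hb), hν, hχb, ← qz_add,
    show m * a + -a * m = 0 by ring, qz_zero]

end Local

end FermatAgent.CFT
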