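import Fermat.Agent.CFT.Field.KummerTheory

/-!
Local Kummer theory in the presence of the roots of unity, and unramified characters.
-/

set_option autoImplicit false

noncomputable section

open scoped Classical

namespace FermatAgent.CFT.Local

open Coh

variable {q : ℕ} [hq : Fact q.Prime] {p : ℕ} [hp : Fact p.Prime]
  {F : IntermediateField ℚ_[q] (PadicAlgCl q)} [FiniteDimensional ℚ_[q] F] {ζ : PadicAlgCl q}
  (hζ : IsPrimitiveRoot ζ p) (hζF : ζ ∈ F)

include hζ hζF

omit [FiniteDimensional ℚ_[q] ↥F] in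
lemma card_pTorsion_eq {Y : AddSubgroup (MM q)} (hY : unitsF F ≤ Y) :
    Nat.card ↥(Y ⊓ (nsmulAddMonoidHom p : MM q →+ _).ker) = p := by
  set z : MM q := Ux.mk ζ (hζ.ne_zero hp.out.ne_zero)
  have hz : z ∈ Y := hY (mem_unitsF F |>.mpr
    ⟨hζF, norm_eq_one_of_pow_eq_one hp.out.ne_zero hζ.pow_eq_one⟩)
  have hpz : p • z = 0 := Ux.ext (by rw [Ux.val_nsmul, Ux.val_mk, hζ.pow_eq_one, Ux.val_zero])
  have e : Y ⊓ (nsmulAddMonoidHom p : MM q →+ _).ker = AddSubgroup.zmultiples z := by
    refine le_antisymm (fun x hx => ?_) ?_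
    · obtain ⟨i, -, rfl⟩ := exists_nsmul_root hζ (show p • x = 0 from hx.2)
      exact nsmul_mem (AddSubgroup.mem_zmultiples z) i
    · exact AddSubgroup.zmultiples_le.mpr ⟨hz, hpz⟩
  rw [e, Nat.card_zmultiples]
  refine addOrderOf_eq_prime hpz fun h => ?_
  exact hζ.ne_one hp.out.one_lt (congrArg Ux.val h)

/-- The index of `p`-th powers in the local multiplicative group. -/
lemma relIndex_pth_starF_eq :
    ((starF F).map (nsmulAddMonoidHom p)).relIndex (starF F) = p ^ 2 * pIdx F p := by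
  rw [relIndex_pth_starF, card_pTorsion_eq hζ hζF inf_le_left, sq, mul_right_comm]

/-- The index of `p`-th powers of units away from `p`. -/
lemma relIndex_pth_unitsF_eq (hqp : p ≠ q) :
    ((unitsF F).map (nsmulAddMonoidHom p)).relIndex (unitsF F) = p := by
  rw [relIndex_pth_unitsF, card_pTorsion_eq hζ hζF le_rfl, pIdx, if_neg hqp, one_mul]

lemma dvd_resCard_sub_one (hqp : p ≠ q) : p ∣ resCard F - 1 := by
  have hn : ¬ q ∣ p := fun h => hqp ((Nat.prime_dvd_prime_iff_eq hq.out hp.out).mp h).symm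
  have h1 : ‖ζ‖ = 1 := norm_eq_one_of_pow_eq_one hp.out.ne_zero hζ.pow_eq_one
  have hr : res ζ ^ resCard F = res ζ := (mem_resField_iff F).mp (res_mem_resField F hζF h1.le)
  have hr0 : res ζ ≠ 0 := by
    rw [Ne, res_eq_zero_iff h1.le, h1]; exact lt_irrefl 1
  have hne : res ζ ≠ 1 := fun h => hζ.ne_one hp.out.one_lt
    (eq_of_res_eq hn hζ.pow_eq_one (one_pow p) (h.trans res_one.symm))
  have hord : orderOf (res ζ) = p :=
    orderOf_eq_prime (by rw [← res_pow h1.le, hζ.pow_eq_one, res_one]) hne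
  rw [← hord]
  refine orderOf_dvd_of_pow_eq_one (mul_right_cancel₀ hr0 ?_)
  rw [← pow_succ, Nat.sub_add_cancel (one_lt_resCard F).le, hr, one_mul]

omit hζ hζF in
/-- Two roots of the same power with close residues are equal. -/
lemma smul_eq_of_res {d : Gal' q} (hqp : p ≠ q) {z : MM q} (hz : ‖z.val‖ = 1)
    (hfix : d • (p • z) = p • z) (hres : res (d z.val) = res z.val) : d • z = z := by
  have hn : ¬ q ∣ p := fun h => hqp ((Nat.prime_dvd_prime_iff_eq hq.out hp.out).mp h).symm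
  have hd : ‖d z.val‖ = 1 := by rw [norm_apply, hz]
  have h0 := z.val_ne_zero
  set t := d z.val / z.val
  have ht : t ^ p = 1 := by
    have := congrArg Ux.val hfix
    rw [Ux.val_smul, Ux.val_nsmul, map_pow] at this
    rw [div_pow, this, div_self (pow_ne_zero _ h0)]
  have ht1 : ‖t‖ = 1 := norm_eq_one_of_pow_eq_one hp.out.ne_zero ht
  have hrt : res t = res 1 := by
    rw [res_eq_res_iff ht1.le norm_one.le, div_sub_one h0, norm_div, hz, div_one]
    exact (res_eq_res_iff hd.le hz.le).mp hres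
  have := eq_of_res_eq hn ht (one_pow p) hrt
  exact Ux.ext (by rw [Ux.val_smul]; exact (div_eq_one_iff_eq h0).mp this)

omit hζ hζF [FiniteDimensional ℚ_[q] ↥F] in
/-- A root with residue in the residue field is fixed. -/
lemma smul_eq_of_res_mem (hqp : p ≠ q) {z : MM q} (hz : ‖z.val‖ = 1) (hpz : p • z ∈ starF F)
    (hres : res z.val ∈ resField F) {d : Gal' q} (hd : d ∈ F.fixingSubgroup) : d • z = z := by
  obtain ⟨c, hc, hc1, hcz⟩ := hres
  refine smul_eq_of_res hqp hz (hpz d hd) ?_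
  have h2 := (res_eq_res_iff hz.le hc1).mp hcz.symm
  rw [← hcz, res_eq_res_iff (by rw [norm_apply, hz]) hc1,
    ← (IntermediateField.mem_fixingSubgroup_iff F d).mp hd c hc, ← map_sub, norm_apply]
  exact h2

variable (χ : CycChar (LL q) F.fixingSubgroup p) {z : MM q}
  (hkum : ∀ d ∈ F.fixingSubgroup, d • z - z = (χ d).val • Ux.mk ζ (hζ.ne_zero hp.out.ne_zero))

include hkum

omit [FiniteDimensional ℚ_[q] F] hζF in
/-- A Kummer character vanishes where the root is fixed. -/
lemma char_eq_zero_iff {d : Gal' q} (hd : d ∈ F.fixingSubgroup) : χ d = 0 ↔ d • z = z := by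
  have : NeZero p := ⟨hp.out.ne_zero⟩
  rw [← sub_eq_zero (a := d • z), hkum d hd]
  refine ⟨fun h => by rw [h, ZMod.val_zero, zero_smul], fun h => ?_⟩
  have h1 := congrArg Ux.val h
  rw [Ux.val_nsmul, Ux.val_mk, Ux.val_zero] at h1
  have h2 := Nat.eq_zero_of_dvd_of_lt (hζ.dvd_of_pow_eq_one _ h1) (ZMod.val_lt _)
  rwa [ZMod.val_eq_zero] at h2

/-- The extension cut out by a unit radicand is inside the unramified extension. -/
lemma unramChar_ker_le (hqp : p ≠ q) (hz : ‖z.val‖ = 1) (hpz : p • z ∈ starF F) :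
    (unramChar F p).ker ≤ χ.ker := fun d hd => by
  refine ⟨hd.1, (char_eq_zero_iff hζ χ hkum hd.1).mpr (smul_eq_of_res hqp hz (hpz d hd.1) ?_)⟩
  set Q := resCard F
  have hQ := one_lt_resCard F
  set S := ∑ i ∈ Finset.range p, Q ^ i
  have hgeom : S * (Q - 1) = unramOrder F p := by
    have h := geom_sum_mul_add (Q - 1) p
    rw [Nat.sub_add_cancel hQ.le] at h
    rw [unramOrder, ← h, Nat.add_sub_cancel]
  have hS : p ∣ S := by
    rw [← ZMod.natCast_eq_zero_iff]
    have hQ1 : (Q : ZMod p) = 1 := by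
      have h := (ZMod.natCast_eq_zero_iff _ _).mpr (dvd_resCard_sub_one hζ hζF hqp)
      rwa [Nat.cast_sub hQ.le, sub_eq_zero, Nat.cast_one] at h
    simp [S, hQ1]
  have ha1 : ‖(p • z).val‖ = 1 := by rw [Ux.val_nsmul, norm_pow, hz, one_pow]
  have hra : res (p • z).val ^ (Q - 1) = 1 := by
    have h := (mem_resField_iff F).mp
      (res_mem_resField F (mem_fixedUx_fixingSubgroup.mp hpz) ha1.le)
    refine mul_right_cancel₀ ?_ (b := res (p • z).val) ?_
    · rw [Ne, res_eq_zero_iff ha1.le, ha1]; exact lt_irrefl 1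
    · rw [← pow_succ, Nat.sub_add_cancel hQ.le, h, one_mul]
  have hrz : res z.val ^ unramOrder F p = 1 := by
    obtain ⟨S', hS'⟩ := hS
    rw [← hgeom, hS', mul_assoc, pow_mul, ← res_pow hz.le, ← Ux.val_nsmul,
      mul_comm S', pow_mul, hra,
      one_pow]
  have : NeZero (unramOrder F p) := ⟨(unramOrder_pos F p).ne'⟩
  obtain ⟨j, -, hj⟩ := (res_unramRoot_spec F p).eq_pow_of_pow_eq_one hrz
  rw [← res_pow (norm_unramRoot F p).le] at hj
  have hω1 : ‖unramRoot F p ^ j‖ = 1 := by rw [norm_pow, norm_unramRoot, one_pow]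
  have hfixω : d (unramRoot F p ^ j) = unramRoot F p ^ j := by
    rw [ker_unramChar] at hd
    exact (IntermediateField.mem_fixingSubgroup_iff _ d).mp hd _ (pow_mem (unramRoot_mem F p) j)
  have h2 := (res_eq_res_iff hz.le hω1.le).mp hj.symm
  rw [← hj, res_eq_res_iff (by rw [norm_apply, hz]) hω1.le, ← hfixω, ← map_sub, norm_apply]
  exact h2

/-- A unit radicand gives no new absolute values. -/
theorem unram_of_unit (hqp : p ≠ q) (hz : ‖z.val‖ = 1) (hpz : p • z ∈ starF F) :
    ∀ y ∈ fixedUx χ.ker, ∃ b ∈ starF F, ‖b.val‖ = ‖y.val‖ := by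
  intro y hy
  have : NeZero p := ⟨hp.out.ne_zero⟩
  rcases exists_generator_or_trivial χ with h0 | ⟨s, hs, hs1⟩
  · exact ⟨y, fun d hd => hy d ⟨hd, h0 d hd⟩, rfl⟩
  have hle := unramChar_ker_le hζ hζF χ hkum hqp hz hpz
  have h1 := χ.relIndex_ker hs hs1
  have h2 := (unramChar F p).relIndex_ker (frob_mem F p) (frobExp_frob F p)
  have h3 := Subgroup.relIndex_mul_relIndex _ _ _ hle χ.ker_le
  rw [h1, h2] at h3
  have heq : χ.ker ≤ (unramChar F p).ker :=
    Subgroup.relIndex_eq_one.mp ((Nat.mul_eq_right hp.out.ne_zero).mp h3)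
  have hyU : y.val ∈ unramField F p := by
    have h : y ∈ fixedUx (unramField F p).fixingSubgroup := fun d hd => by
      rw [← ker_unramChar] at hd
      exact hy d (hle hd)
    exact mem_fixedUx_fixingSubgroup.mp h
  obtain ⟨t, ht, htn⟩ := exists_norm_eq_of_unramField F p hyU
  have ht0 : t ≠ 0 := norm_pos_iff.mp (htn ▸ norm_pos_iff.mpr y.val_ne_zero)
  exact ⟨Ux.mk t ht0, mem_fixedUx_fixingSubgroup.mpr (by exact ht), htn⟩

omit hζ hζF hkum in
/-- Without new absolute values the units are norms. -/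
theorem unitsF_le_norms_of_unram (h : ∀ y ∈ fixedUx χ.ker, ∃ b ∈ starF F, ‖b.val‖ = ‖y.val‖) :
    unitsF F ≤ (semi χ).map (∑ j, Pi.evalAddMonoidHom (fun _ : ZMod p => MM q) j) := by
  rcases exists_generator_or_trivial χ with h0 | ⟨s, hs, hs1⟩
  · intro u hu
    refine ⟨Pi.single 0 u, (mem_semi_split χ h0).mpr fun i => ?_, by
      simp [AddMonoidHom.finsetSum_apply]⟩
    by_cases hi : i = 0
    · rw [hi, Pi.single_eq_same]; exact hu.1
    · rw [Pi.single_eq_of_ne hi]; exact zero_mem _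
  rw [map_sum_semi χ hs hs1]
  set N := (fixedUx χ.ker).map (cycNorm s p)
  have hN : N ≤ starF F := by
    rintro _ ⟨a, ha, rfl⟩ d hd
    exact cycNorm_fixed χ hs hs1 (fun g hg => ha g hg) d hd
  have e : N.map normHom = ((starF F).map normHom).map (nsmulAddMonoidHom p) := by
    have hc : ∀ a : MM q, normHom (cycNorm s p a) = p • normHom a := fun a => by
      rw [cycNorm_apply, map_sum, Finset.sum_congr rfl fun i _ =>
        normHom_eq_iff.mpr
          (show ‖(s ^ i • a : MM q).val‖ = ‖(a : MM q).val‖ by rw [Ux.val_smul, norm_apply])]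
      rw [Finset.sum_const, Finset.card_range]
    refine le_antisymm ?_ ?_
    · rintro _ ⟨_, ⟨a, ha, rfl⟩, rfl⟩
      obtain ⟨b, hb, hbn⟩ := h a ha
      refine ⟨normHom b, AddSubgroup.mem_map_of_mem _ hb, ?_⟩
      rw [hc]
      exact congrArg (p • ·) (normHom_eq_iff.mpr hbn)
    · rintro _ ⟨_, ⟨b, hb, rfl⟩, rfl⟩
      exact ⟨_, AddSubgroup.mem_map_of_mem _ (fun g hg => hb g hg.1), hc b⟩
  have h1 : (N.map normHom).relIndex ((starF F).map normHom) = p := by
    rw [e, map_normHom_starF, relIndex_zmultiples_nsmul (zsmul_normHom_unif F)]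
  set V := (normHom (q := q)).ker
  have hV : starF F ⊔ V = starF F ⊔ (N ⊔ V) := by rw [← sup_assoc, sup_eq_left.mpr hN]
  rw [AddSubgroup.relIndex_map_map, hV, AddSubgroup.relIndex_sup_right] at h1
  have h2 := norm_index χ hs hs1
  have h3 := AddSubgroup.relIndex_mul_relIndex N (N ⊔ unitsF F) (starF F) le_sup_left
    (sup_le hN inf_le_left)
  have h4 : (N ⊔ unitsF F).relIndex (starF F) = p := by
    rw [unitsF_eq, inf_comm (starF F) V, ← sup_inf_assoc_of_le V hN, AddSubgroup.inf_relIndex_right]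
    exact h1
  rw [h2, h4] at h3
  exact le_sup_right.trans
    (AddSubgroup.relIndex_eq_one.mp ((Nat.mul_eq_right hp.out.ne_zero).mp h3))

end FermatAgent.CFT.Local
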