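import Fermat.Agent.CFT.Local.NormIndex
import Fermat.Agent.CFT.Coh.Restrict

/-!
Local classes in degree two: every class is unramified.

`mem_unramSub`: over a finite extension `F` of `ℚ_q` every degree two class with values in the
multiplicative group is unramified, that is, cohomologous to some `uCls`.
An unramified class vanishes exactly when the valuation is divisible by the degree
(`uCls_mem_B2_iff`), and restriction between them is surjective (`exists_restrict_eq`). A class
split by a cyclic extension of prime degree is unramified by the norm index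
(`mem_unramSub_of_prime`), hence one split by a group of prime power index
(`mem_unramSub_of_pGroup`), hence all, one prime at a time.
-/

set_option autoImplicit false

noncomputable section

open scoped Classical

namespace FermatAgent.CFT.Local

open Coh

variable {q : ℕ} [hq : Fact q.Prime]

/-- The levels of the Galois group of `ℚ_q`. -/
abbrev LL (q : ℕ) [Fact q.Prime] : Levels (Gal' q) := galLevels ℚ_[q] (PadicAlgCl q)

/-- The multiplicative group of the algebraic closure. -/
abbrev MM (q : ℕ) [Fact q.Prime] : Type := Ux (PadicAlgCl q)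

variable (F : IntermediateField ℚ_[q] (PadicAlgCl q)) [FiniteDimensional ℚ_[q] F]

/-- Groups of finite extensions are levels. -/
lemma fix_mem : F.fixingSubgroup ∈ LL q := fixingSubgroup_mem_galLevels F

/-- The unramified class of order dividing `m`. -/
def uCls (m : ℕ) [NeZero m] (b : MM q) : Gal' q → Gal' q → MM q := cyc (unramChar F m) b

/-- Unramified classes are cocycles. -/
lemma uCls_mem_Z2 {m : ℕ} [NeZero m] {b : MM q} (hb : b ∈ starF F) :
    uCls F m b ∈ (LL q).Z2 F.fixingSubgroup (MM q) :=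
  cyc_mem_Z2 _ hb

/-- Unramified classes are compatible under inflation. -/
lemma uCls_congr {m m' : ℕ} [NeZero m] [NeZero m'] (h : m ∣ m') {b : MM q} (hb : b ∈ starF F) :
    uCls F m b - uCls F m' ((m' / m) • b) ∈ (LL q).B2 F.fixingSubgroup (MM q) := by
  have key := sub_cyc_mem_B2 (unramChar F m') (unramChar F m) hb (k := 1) (r := ((m' / m : ℕ) : ℤ))
    (by rw [one_mul, ← Nat.cast_mul, Nat.div_mul_cancel h]) (fun x => ((x.val / m : ℕ) : ℤ))
    (fun g hg => by
      rw [unramChar_apply, unramChar_apply, one_mul, frobExp_cast F m m' h hg, ZMod.val_natCast]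
      exact_mod_cast (Nat.mod_add_div _ m).symm)
  rw [← cyc_zsmul, natCast_zsmul] at key
  exact key

/-- The valuation of an element. -/
abbrev ordUx (b : MM q) : ℤ := ord F b.val

/-- The order is additive. -/
lemma ordUx_add {a b : MM q} (ha : a ∈ starF F) (hb : b ∈ starF F) :
    ordUx F (a + b) = ordUx F a + ordUx F b := by
  rw [ordUx, Ux.val_add,
    ord_mul F (mem_fixedUx_fixingSubgroup.mp ha) (mem_fixedUx_fixingSubgroup.mp hb)
      a.val_ne_zero b.val_ne_zero]

/-- The order of integer multiples. -/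
lemma ordUx_zsmul {a : MM q} (ha : a ∈ starF F) (n : ℤ) : ordUx F (n • a) = n * ordUx F a := by
  have h := norm_eq_zpow_ord F (mem_fixedUx_fixingSubgroup.mp ha) a.val_ne_zero
  refine ord_unique F (mem_fixedUx_fixingSubgroup.mp (zsmul_mem ha n)) (Ux.val_ne_zero _) ?_
  rw [Ux.val_zsmul, norm_zpow, h, ← zpow_mul, mul_comm]

/-- The order of natural multiples. -/
lemma ordUx_nsmul {a : MM q} (ha : a ∈ starF F) (n : ℕ) : ordUx F (n • a) = n * ordUx F a := by
  rw [← natCast_zsmul, ordUx_zsmul F ha]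

/-- The order of differences. -/
lemma ordUx_sub {a b : MM q} (ha : a ∈ starF F) (hb : b ∈ starF F) :
    ordUx F (a - b) = ordUx F a - ordUx F b := by
  have := ordUx_add F (sub_mem ha hb) hb
  rw [sub_add_cancel] at this
  omega

/-- The uniformiser lies in the field. -/
lemma unifUx_mem : unifUx F ∈ starF F := mem_fixedUx_fixingSubgroup.mpr (unif_mem F)

/-- The uniformiser has order one. -/
lemma ordUx_unif : ordUx F (unifUx F) = 1 := ord_unif F

/-- An unramified class vanishes exactly when the valuation is divisible by the degree. -/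
lemma uCls_mem_B2_iff {m : ℕ} [NeZero m] {b : MM q} (hb : b ∈ starF F) :
    uCls F m b ∈ (LL q).B2 F.fixingSubgroup (MM q) ↔ (m : ℤ) ∣ ordUx F b := by
  rw [ordUx, ← exists_norm_iff F m (mem_fixedUx_fixingSubgroup.mp hb) b.val_ne_zero]
  constructor
  · intro h
    obtain ⟨a, ha, hab⟩ := exists_norm_of_cyc_mem_B2 (unramChar F m) (frob_mem F m)
      (frobExp_frob F m) (Ux.hilbert90 _ (fix_mem F)) hb h
    refine ⟨a.val, ?_, a.val_ne_zero, by rw [← Ux.val_cycNorm, hab]⟩
    refine mem_fixedUx_fixingSubgroup.mp (mem_fixedUx.mpr fun g hg => ha g ?_)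
    rwa [ker_unramChar]
  · rintro ⟨y, hy, hy0, hyb⟩
    rw [uCls, show b = cycNorm (frob F m) m (Ux.mk y hy0) from Ux.ext (by
      rw [Ux.val_cycNorm, Ux.val_mk, hyb])]
    exact cyc_cycNorm_mem_B2 _ (frob_mem F m) (frobExp_frob F m) fun s hs =>
      Ux.ext (smul_unramField F m hy s hs)

/-- The unramified classes. -/
def unramSub : AddSubgroup (Gal' q → Gal' q → MM q) where
  carrier := {x | ∃ (m : ℕ) (_ : NeZero m) (b : MM q), b ∈ starF F ∧
    x - uCls F m b ∈ (LL q).B2 F.fixingSubgroup (MM q)}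
  zero_mem' := ⟨1, inferInstance, 0, zero_mem _, by rw [uCls, cyc_zero, sub_self]; exact zero_mem _⟩
  add_mem' := by
    rintro x x' ⟨m, hm, b, hb, hx⟩ ⟨m', hm', b', hb', hx'⟩
    have : NeZero (m * m') := ⟨mul_ne_zero (NeZero.ne m) (NeZero.ne m')⟩
    have h1 := add_mem hx (uCls_congr F (dvd_mul_right m m') hb)
    have h2 := add_mem hx' (uCls_congr F (dvd_mul_left m' m) hb')
    refine ⟨m * m', this, _, add_mem (nsmul_mem hb (m * m' / m)) (nsmul_mem hb' (m * m' / m')), ?_⟩
    convert add_mem h1 h2 using 1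
    simp only [uCls, cyc_add]
    abel
  neg_mem' := by
    rintro x ⟨m, hm, b, hb, hx⟩
    refine ⟨m, hm, -b, neg_mem hb, ?_⟩
    convert neg_mem hx using 1
    simp only [uCls]
    rw [show cyc (unramChar F m) (-b) = -cyc (unramChar F m) b by
      rw [← zero_sub, cyc_sub, cyc_zero, zero_sub]]
    abel

lemma mem_unramSub_of_mem_B2 {x : Gal' q → Gal' q → MM q}
    (h : x ∈ (LL q).B2 F.fixingSubgroup (MM q)) : x ∈ unramSub F :=
  ⟨1, inferInstance, 0, zero_mem _, by rwa [uCls, cyc_zero, sub_zero]⟩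

lemma uCls_mem_unramSub {m : ℕ} [NeZero m] {b : MM q} (hb : b ∈ starF F) :
    uCls F m b ∈ unramSub F :=
  ⟨m, inferInstance, b, hb, by rw [sub_self]; exact zero_mem _⟩

lemma unramSub_congr {x y : Gal' q → Gal' q → MM q} (hy : y ∈ unramSub F)
    (h : x - y ∈ (LL q).B2 F.fixingSubgroup (MM q)) : x ∈ unramSub F := by
  rw [← sub_add_cancel x y]
  exact add_mem (mem_unramSub_of_mem_B2 F h) hy

section Tower

variable {F}
variable {F' : IntermediateField ℚ_[q] (PadicAlgCl q)} [FiniteDimensional ℚ_[q] F'] (h : F ≤ F')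

include h

omit [FiniteDimensional ℚ_[q] ↥F] [FiniteDimensional ℚ_[q] ↥F'] in
/-- The groups of units are monotone. -/
lemma starF_mono : starF F ≤ starF F' := fun _ ha g hg => ha g
    (IntermediateField.fixingSubgroup_le h hg)

/-- The relative ramification index and inertia degree. -/
lemma exists_ramification : ∃ e f : ℕ, 0 < e ∧ 0 < f ∧ resCard F' = resCard F ^ f ∧
    (∀ b ∈ starF F, ordUx F' b = e * ordUx F b) ∧
    F'.fixingSubgroup.relIndex F.fixingSubgroup = e * f := by
  let : Algebra (resField F) (resField F') :=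
    (Subfield.inclusion (S := resField F) (T := resField F')
      (fun _ ⟨x, hx, h1, hc⟩ => ⟨x, h hx, h1, hc⟩)).toAlgebra
  set f := Module.finrank (resField F) (resField F')
  have hf : resCard F' = resCard F ^ f := Module.natCard_eq_pow_finrank
  have hf0 : 0 < f := Nat.pos_of_ne_zero fun h0 => by
    have := one_lt_resCard F'
    rw [hf, h0, pow_zero] at this
    exact lt_irrefl _ this
  have h1 := (one_le_ord_iff F' (h (unif_mem F)) (unif_ne_zero F)).mpr (norm_unif_lt_one F)
  set e := (ord F' (unif F)).toNat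
  have he : ‖unif F‖ = ‖unif F'‖ ^ e := by
    rw [norm_eq_zpow_ord F' (h (unif_mem F)) (unif_ne_zero F), ← zpow_natCast,
      Int.toNat_of_nonneg (by omega)]
  have hord : ∀ b ∈ starF F, ordUx F' b = e * ordUx F b := fun b hb => by
    refine ord_unique F' (h (mem_fixedUx_fixingSubgroup.mp hb)) b.val_ne_zero ?_
    rw [norm_eq_zpow_ord F (mem_fixedUx_fixingSubgroup.mp hb) b.val_ne_zero, he, ← zpow_natCast,
      ← zpow_mul]
  have hram : ramIdx F' = e * ramIdx F := by
    have h2 := norm_q_eq F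
    rw [he, ← pow_mul, norm_q_eq F'] at h2
    exact pow_right_injective₀ (norm_unif_pos F') (norm_unif_lt_one F').ne h2
  have hdeg : inertiaDeg F' = inertiaDeg F * f := by
    have h2 := hf
    rw [resCard_eq, resCard_eq, ← pow_mul] at h2
    exact Nat.pow_right_injective hq.out.two_le h2
  refine ⟨e, f, by omega, hf0, hf, hord, ?_⟩
  have h3 := Subgroup.relIndex_mul_index (IntermediateField.fixingSubgroup_le h)
  rw [← IntermediateField.finrank_eq_fixingSubgroup_index,
    ← IntermediateField.finrank_eq_fixingSubgroup_index, finrank_eq, finrank_eq, hram, hdeg] at h3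
  refine Nat.eq_of_mul_eq_mul_right (Nat.mul_pos (ramIdx_pos F) (inertiaDeg_pos F)) (h3.trans ?_)
  ring

omit h in
lemma frobExp_mul {f : ℕ} (hf : resCard F' = resCard F ^ f) (M : ℕ) [NeZero M]
    {σ : Gal' q} (hσ : σ ∈ F'.fixingSubgroup) :
    frobExp F M σ = ((f * (frobExp F' M σ).val : ℕ) : ZMod M) := by
  refine frobExp_eq F M ?_
  have hdvd : unramOrder F M ∣ unramOrder F' M := by
    rw [unramOrder, unramOrder, hf, ← pow_mul]
    exact Nat.pow_sub_one_dvd_pow_sub_one _ (dvd_mul_left M f)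
  obtain ⟨r, hr⟩ := hdvd
  have hω : unramRoot F M ^ unramOrder F' M = 1 := by
    rw [hr, pow_mul, (unramRoot_spec F M).pow_eq_one, one_pow]
  rw [apply_root F' M hσ hω, hf, ← pow_mul]

/-- Restriction of an unramified class. -/
lemma uCls_restrict {f : ℕ} (hf : resCard F' = resCard F ^ f) {M : ℕ} [NeZero M]
    {b : MM q} (hb : b ∈ starF F) :
    uCls F M b - uCls F' M (f • b) ∈ (LL q).B2 F'.fixingSubgroup (MM q) := by
  have key := sub_cyc_mem_B2 (unramChar F' M) ((unramChar F M).restrict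
    (IntermediateField.fixingSubgroup_le h))
    (starF_mono h hb) (k := (f : ℤ)) (r := (f : ℤ)) rfl (fun x => ((f * x.val / M : ℕ) : ℤ))
    (fun g hg => by
      rw [CycChar.restrict_apply, unramChar_apply, unramChar_apply, frobExp_mul hf M hg,
        ZMod.val_natCast]
      exact_mod_cast (Nat.mod_add_div _ M).symm)
  rw [← cyc_zsmul, natCast_zsmul] at key
  exact key

/-- Every unramified class of `F'` is the restriction of one of `F`. -/
lemma exists_restrict_eq {x : Gal' q → Gal' q → MM q} (hx : x ∈ unramSub F') :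
    ∃ y ∈ unramSub F, y ∈ (LL q).Z2 F.fixingSubgroup (MM q) ∧
      x - y ∈ (LL q).B2 F'.fixingSubgroup (MM q) := by
  obtain ⟨m, hm, b, hb, hxb⟩ := hx
  obtain ⟨e, f, he, hf0, hf, hord, -⟩ := exists_ramification h
  have : NeZero (m * (e * f)) := ⟨mul_ne_zero (NeZero.ne m) (Nat.mul_pos he hf0).ne'⟩
  have hc := zsmul_mem (unifUx_mem F) (ordUx F' b)
  refine ⟨_, uCls_mem_unramSub F (m := m * (e * f)) hc, uCls_mem_Z2 F hc, ?_⟩
  have h1 := uCls_restrict h hf (M := m * (e * f)) hc
  have h2 := uCls_congr F' (dvd_mul_right m (e * f)) hb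
  rw [Nat.mul_div_cancel_left _ (Nat.pos_of_ne_zero (NeZero.ne m))] at h2
  have hcF' := starF_mono h hc
  have h3 : uCls F' (m * (e * f)) ((e * f) • b - f • (ordUx F' b • unifUx F)) ∈
      (LL q).B2 F'.fixingSubgroup (MM q) := by
    rw [uCls_mem_B2_iff F' (sub_mem (nsmul_mem hb _) (nsmul_mem hcF' _)),
      ordUx_sub F' (nsmul_mem hb _) (nsmul_mem hcF' _), ordUx_nsmul F' hb, ordUx_nsmul F' hcF',
      hord _ hc, ordUx_zsmul F (unifUx_mem F), ordUx_unif]
    push_cast
    ring_nf
    exact dvd_zero _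
  have h4 := add_mem (add_mem hxb h2) (sub_mem h3 h1)
  convert h4 using 1
  simp only [uCls, cyc_sub]
  abel

end Tower

variable {p : ℕ} [hp : Fact p.Prime]

/-- A class split by a cyclic extension of prime degree is unramified. -/
lemma mem_unramSub_of_prime {N : Subgroup (Gal' q)} (hN : N ≤ F.fixingSubgroup) (hNL : N ∈ LL q)
    [(N.subgroupOf F.fixingSubgroup).Normal] (hidx : N.relIndex F.fixingSubgroup = p)
    {x : Gal' q → Gal' q → MM q} (hx : x ∈ (LL q).Z2 F.fixingSubgroup (MM q))
    (hxN : x ∈ (LL q).B2 N (MM q)) : x ∈ unramSub F := by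
  obtain ⟨χ, σ, hσ, hσ1, hker⟩ := exists_cycChar_of_index_prime hN hNL hidx
  subst hker
  have hW := fix_mem F
  obtain ⟨b, hb, hxb⟩ := exists_cyc χ hW smooth_ux hσ hσ1 (Ux.hilbert90 χ hW) hx hxN
  -- the unramified class of order `p` is split as well
  set F' := IntermediateField.fixedField χ.ker
  have : FiniteDimensional ℚ_[q] F' := finiteDimensional_fixedField (χ.ker_mem hW)
  have hF' : F'.fixingSubgroup = χ.ker := fixingSubgroup_fixedField_of_mem (χ.ker_mem hW)
  have hle : F ≤ F' := fun y hy g =>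
    (IntermediateField.mem_fixingSubgroup_iff F g.1).mp (χ.ker_le g.2) y hy
  obtain ⟨e, f, -, hf0, hf, hord, hef⟩ := exists_ramification hle
  set z := uCls F p (unifUx F)
  have hzN : z ∈ (LL q).B2 χ.ker (MM q) := by
    have h1 := uCls_restrict hle hf (M := p) (unifUx_mem F)
    have h2 : uCls F' p (f • unifUx F) ∈ (LL q).B2 F'.fixingSubgroup (MM q) := by
      rw [uCls_mem_B2_iff F' (nsmul_mem (starF_mono hle (unifUx_mem F)) f),
        ordUx_nsmul F' (starF_mono hle (unifUx_mem F)), hord _ (unifUx_mem F), ordUx_unif, mul_one]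
      rw [hF', hidx] at hef
      exact ⟨1, by rw [mul_one, hef]; push_cast; ring⟩
    have h3 := add_mem h1 h2
    rw [sub_add_cancel, hF'] at h3
    exact h3
  obtain ⟨b₀, hb₀, hzb⟩ :=
    exists_cyc χ hW smooth_ux hσ hσ1 (Ux.hilbert90 χ hW) (uCls_mem_Z2 F (unifUx_mem F)) hzN
  set Nm := (fixedUx χ.ker).map (cycNorm σ p)
  have hnm : ∀ c ∈ Nm, cyc χ c ∈ (LL q).B2 F.fixingSubgroup (MM q) := by
    rintro _ ⟨a, ha, rfl⟩
    exact cyc_cycNorm_mem_B2 χ hσ hσ1 ha
  have hb₀nm : b₀ ∉ Nm := fun hc => by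
    have h1 := add_mem hzb (hnm _ hc)
    rw [sub_add_cancel, uCls_mem_B2_iff F (unifUx_mem F), ordUx_unif] at h1
    have := Int.le_of_dvd one_pos h1
    have := hp.out.two_le
    omega
  -- the norm quotient has prime order, so `b` is a multiple of `b₀`
  set Q := (starF F) ⧸ Nm.addSubgroupOf (starF F)
  have hcard : Nat.card Q = p := norm_index χ hσ hσ1
  have hne : (QuotientAddGroup.mk (⟨b₀, hb₀⟩ : starF F) : Q) ≠ 0 := fun hc =>
    hb₀nm (AddSubgroup.mem_addSubgroupOf.mp
      ((QuotientAddGroup.eq_zero_iff (⟨b₀, hb₀⟩ : starF F)).mp hc))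
  obtain ⟨k, hk⟩ := AddSubgroup.mem_zmultiples_iff.mp
    (mem_zmultiples_of_prime_card hcard hne (g' := (QuotientAddGroup.mk (⟨b, hb⟩ : starF F) : Q)))
  have hbk : b - k • b₀ ∈ Nm := by
    have h0 : (QuotientAddGroup.mk ((⟨b, hb⟩ : starF F) - k • ⟨b₀, hb₀⟩) : Q) = 0 := by
      rw [QuotientAddGroup.mk_sub, QuotientAddGroup.mk_zsmul, hk, sub_self]
    have h1 := (QuotientAddGroup.eq_zero_iff (N := Nm.addSubgroupOf (starF F)) _).mp h0
    rw [AddSubgroup.mem_addSubgroupOf, AddSubgroup.coe_sub, AddSubgroup.coe_zsmul] at h1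
    exact h1
  refine unramSub_congr F (zsmul_mem (uCls_mem_unramSub F (m := p) (unifUx_mem F)) k) ?_
  have h4 := add_mem (sub_mem hxb (zsmul_mem hzb k)) (hnm _ hbk)
  convert h4 using 1
  rw [cyc_sub, cyc_zsmul, smul_sub]
  abel

omit hp in
/-- A class split by a normal subgroup of prime power index is unramified. -/
lemma mem_unramSub_of_pGroup [Fact p.Prime] : ∀ (a : ℕ) (F : IntermediateField ℚ_[q] (PadicAlgCl q))
    [FiniteDimensional ℚ_[q] F] (N : Subgroup (Gal' q)), N ≤ F.fixingSubgroup → N ∈ LL q →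
    (N.subgroupOf F.fixingSubgroup).Normal → N.relIndex F.fixingSubgroup = p ^ a →
    ∀ x ∈ (LL q).Z2 F.fixingSubgroup (MM q), x ∈ (LL q).B2 N (MM q) → x ∈ unramSub F := by
  intro a
  induction a with
  | zero =>
    intro F _ N hN _ _ hidx x hx hxN
    rw [pow_zero, Subgroup.relIndex_eq_one] at hidx
    exact mem_unramSub_of_mem_B2 F (Levels.B2_mono hidx hxN)
  | succ a ih =>
    intro F _ N hN hNL hNn hidx x hx hxN
    set W := F.fixingSubgroup
    have := hNn
    obtain ⟨P, hNP, hPW, hPn, hPidx, hrel, hNnP⟩ := exists_relIndex_eq_prime hN hidx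
    have := hPn
    have hPL : P ∈ LL q := Levels.mem_of_le hNL hNP
    set F' := IntermediateField.fixedField P
    have : FiniteDimensional ℚ_[q] F' := finiteDimensional_fixedField hPL
    have hF' : F'.fixingSubgroup = P := fixingSubgroup_fixedField_of_mem hPL
    have hle : F ≤ F' := fun y hy g =>
      (IntermediateField.mem_fixingSubgroup_iff F g.1).mp (hPW g.2) y hy
    obtain ⟨y, hyU, hy, hxy⟩ := exists_restrict_eq hle
      (ih F' N (hF'.symm ▸ hNP) hNL (hF'.symm ▸ hNnP) (hF'.symm ▸ hrel) x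
        (hF'.symm ▸ Levels.Z2_mono hPW hx) hxN)
    rw [hF'] at hxy
    have h1 := mem_unramSub_of_prime F hPW hPL hPidx (sub_mem hx hy) hxy
    rw [← sub_add_cancel x y]
    exact add_mem h1 hyU

omit hp in
/-- Every local class is unramified. -/
theorem mem_unramSub {x : Gal' q → Gal' q → MM q} (hx : x ∈ (LL q).Z2 F.fixingSubgroup (MM q)) :
    x ∈ unramSub F := by
  set W := F.fixingSubgroup
  obtain ⟨N, hN, hNn, hNW, hxN⟩ := exists_normal_mem_B2 (fix_mem F) smooth_ux hx
  have := hNn
  have : (N.subgroupOf W).Normal := inferInstanceAs (N.comap W.subtype).Normal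
  have := (LL q).finiteIndex hN
  set n := N.relIndex W
  set S : AddSubgroup ℤ := (unramSub F).comap ((zmultiplesHom _) x)
  have hmemS : ∀ k : ℤ, k ∈ S ↔ k • x ∈ unramSub F := fun k => Iff.rfl
  have hnS : (n : ℤ) ∈ S := by
    rw [hmemS, natCast_zsmul]
    exact mem_unramSub_of_mem_B2 F (relIndex_nsmul_mem_B2 hN smooth_ux hx hxN)
  have hpS : ∀ ℓ : ℕ, ℓ.Prime → ∃ c : ℕ, ¬ ℓ ∣ c ∧ (c : ℤ) ∈ S := by
    intro ℓ hℓ
    have : Fact ℓ.Prime := ⟨hℓ⟩
    obtain ⟨P, a, hNP, hPW, hdvd, hrel⟩ := exists_relIndex_primePow hNW ℓ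
    have hPL : P ∈ LL q := Levels.mem_of_le hN hNP
    set F' := IntermediateField.fixedField P
    have : FiniteDimensional ℚ_[q] F' := finiteDimensional_fixedField hPL
    have hF' : F'.fixingSubgroup = P := fixingSubgroup_fixedField_of_mem hPL
    have hleF : F ≤ F' := fun y hy g =>
      (IntermediateField.mem_fixingSubgroup_iff F g.1).mp (hPW g.2) y hy
    obtain ⟨y, hyU, hy, hxy⟩ := exists_restrict_eq hleF (mem_unramSub_of_pGroup a F' N
      (hF'.symm ▸ hNP) hN (inferInstanceAs (N.comap F'.fixingSubgroup.subtype).Normal)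
      (hF'.symm ▸ hrel) x
      (hF'.symm ▸ Levels.Z2_mono hPW hx) hxN)
    rw [hF'] at hxy
    refine ⟨P.relIndex W, hdvd, ?_⟩
    rw [hmemS, natCast_zsmul]
    refine unramSub_congr F (nsmul_mem hyU (P.relIndex W)) ?_
    rw [← smul_sub]
    exact relIndex_nsmul_mem_B2 hPL smooth_ux (sub_mem hx hy) hxy
  obtain ⟨d, hd⟩ := Int.subgroup_cyclic S
  rw [← AddSubgroup.zmultiples_eq_closure] at hd
  have h1 : d.natAbs = 1 := Nat.eq_one_iff_not_exists_prime_dvd.mpr fun ℓ hℓ hdvd => by
    obtain ⟨c, hc, hcS⟩ := hpS ℓ hℓ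
    rw [hd, Int.mem_zmultiples_iff] at hcS
    exact hc (Int.natCast_dvd_natCast.mp (dvd_trans (Int.natCast_dvd.mpr hdvd) hcS))
  have : (1 : ℤ) ∈ S := by
    rw [hd, Int.mem_zmultiples_iff]
    exact Int.natAbs_dvd.mp (by rw [h1]; exact one_dvd _)
  simpa [hmemS] using this

end FermatAgent.CFT.Local
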