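import Fermat.Agent.CFT.Local.Inv
import Fermat.Agent.CFT.Coh.Cores
import Fermat.Agent.CFT.Coh.CyclicClass

/-!
Invariants of the classes attached to a character and an element.
-/

set_option autoImplicit false

noncomputable section

open scoped Classical

namespace FermatAgent.CFT

open Coh

namespace Coh

variable {Γ : Type*} [Group Γ] {L : Levels Γ} {W : Subgroup Γ} {A : Type*} [AddCommGroup A]
  [DistribMulAction Γ A] {n : ℕ} [NeZero n]

/-- A multiple of a character. -/
lemma cyc_scale_mem_B2 (χ χ' : CycChar L W n) (c : ℤ) (h : ∀ g ∈ W, χ' g = c * χ g) {b : A}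
    (hb : ∀ g ∈ W, g • b = b) : cyc χ' b - c • cyc χ b ∈ L.B2 W A := by
  refine sub_cyc_mem_B2 χ χ' hb (k := c) (r := c) rfl
    (fun x : ZMod n => (c * x.val - ((c : ZMod n) * x).val) / n) fun g hg => ?_
  have hd : (n : ℤ) ∣ c * (χ g).val - ((c : ZMod n) * χ g).val := by
    rw [← ZMod.intCast_zmod_eq_zero_iff_dvd]
    push_cast
    rw [ZMod.natCast_zmod_val, ZMod.natCast_zmod_val, sub_self]
  rw [h g hg, Int.mul_ediv_cancel' hd]
  ring

/-- The reduction of a character. -/
lemma cyc_cast_mem_B2 {N : ℕ} [NeZero N] (χ : CycChar L W N) (χ' : CycChar L W n) {h : ℕ}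
    (hN : N = h * n) (he : ∀ g ∈ W, χ' g = ((χ g).val : ZMod n)) {b : A} (hb : ∀ g ∈ W, g • b = b) :
    cyc χ' b - h • cyc χ b ∈ L.B2 W A := by
  rw [← natCast_zsmul]
  refine sub_cyc_mem_B2 χ χ' hb (k := 1) (r := (h : ℤ)) (by rw [one_mul, hN]; push_cast; rfl)
    (fun x : ZMod N => ((x.val / n : ℕ) : ℤ)) fun g hg => ?_
  rw [he g hg, ZMod.val_natCast, one_mul]
  exact_mod_cast (Nat.mod_add_div (χ g).val n).symm

end Coh

namespace Local

variable {q : ℕ} [hq : Fact q.Prime] (F : IntermediateField ℚ_[q] (PadicAlgCl q))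
  [FiniteDimensional ℚ_[q] F]

/-- The invariant, as a homomorphism. -/
def invHom : ↥((LL q).Z2 F.fixingSubgroup (MM q)) →+ QZ :=
  AddMonoidHom.mk' (fun x => inv F x.1) fun x y => inv_add F x.2 y.2

@[simp] lemma invHom_apply (x : ↥((LL q).Z2 F.fixingSubgroup (MM q))) :
    invHom F x = inv F x.1 := rfl

/-- The invariant commutes with integer multiples. -/
lemma inv_zsmul {x : Gal' q → Gal' q → MM q} (hx : x ∈ (LL q).Z2 F.fixingSubgroup (MM q)) (c : ℤ) :
    inv F (c • x) = c • inv F x := by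
  have h := map_zsmul (invHom F) c ⟨x, hx⟩
  rw [invHom_apply, invHom_apply, AddSubgroup.coe_zsmul] at h
  exact h

variable {n : ℕ} [NeZero n]

omit [FiniteDimensional ℚ_[q] F] in
/-- Cyclic classes of elements of the field are cocycles. -/
lemma cyc_mem_Z2' (χ : CycChar (LL q) F.fixingSubgroup n) {b : MM q} (hb : b ∈ starF F) :
    cyc χ b ∈ (LL q).Z2 F.fixingSubgroup (MM q) := cyc_mem_Z2 χ hb

/-- The invariant of a cyclic class is additive in the element. -/
lemma inv_cyc_add (χ : CycChar (LL q) F.fixingSubgroup n) {a b : MM q} (ha : a ∈ starF F)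
    (hb : b ∈ starF F) : inv F (cyc χ (a + b)) = inv F (cyc χ a) + inv F (cyc χ b) := by
  rw [cyc_add, inv_add F (cyc_mem_Z2' F χ ha) (cyc_mem_Z2' F χ hb)]

/-- The invariant of a norm vanishes. -/
lemma inv_cyc_cycNorm (χ : CycChar (LL q) F.fixingSubgroup n) {σ : Gal' q}
    (hσ : σ ∈ F.fixingSubgroup) (hσ1 : χ σ = 1) {a : MM q} (ha : a ∈ fixedUx χ.ker) :
    inv F (cyc χ (cycNorm σ n a)) = 0 :=
  (inv_eq_zero_iff F (cyc_mem_Z2' F χ (cycNorm_fixed χ hσ hσ1 ha))).mpr
    (cyc_cycNorm_mem_B2 χ hσ hσ1 ha)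

/-- The invariant vanishes on `n`-th powers. -/
lemma inv_cyc_nsmul (χ : CycChar (LL q) F.fixingSubgroup n) {a : MM q} (ha : a ∈ starF F) :
    inv F (cyc χ (n • a)) = 0 := by
  rw [inv_eq_zero_iff F (cyc_mem_Z2' F χ (nsmul_mem ha n))]
  refine ⟨fun g => (χ g).val • a, χ.const'.comp fun x => x.val • a, fun g hg h hh => ?_⟩
  have e := val_add_val (χ g) (χ h)
  have hga : g • ((χ h).val • a) = (χ h).val • a := by
    rw [← natCast_zsmul, smul_zsmul_comm, ha g hg]
  simp only [d1, χ.map_mul hg hh, cyc_apply, hga]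
  rw [← natCast_zsmul a n, ← natCast_zsmul a, ← natCast_zsmul a, ← natCast_zsmul a, ← mul_smul,
    ← sub_smul, ← add_smul]
  congr 1
  linarith

/-- The invariant at an unramified character. -/
theorem inv_cyc_of_unram (χ : CycChar (LL q) F.fixingSubgroup n) (c : ℤ)
    (h : ∀ d ∈ F.fixingSubgroup, χ d = c * frobExp F n d) {b : MM q} (hb : b ∈ starF F) :
    inv F (cyc χ b) = qz (c * ordUx F b) n := by
  have h1 := cyc_scale_mem_B2 (unramChar F n) χ c h hb
  rw [inv_congr F (zsmul_mem (cyc_mem_Z2' F (unramChar F n) hb) c) h1,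
    inv_zsmul F (cyc_mem_Z2' F (unramChar F n) hb),
    show cyc (unramChar F n) b = uCls F n b from rfl, inv_uCls F hb, qz_mul]

/-- The projection formula for invariants. -/
theorem inv_cyc_restrict (χ₀ : CycChar (LL q) ⊤ n) [F.fixingSubgroup.FiniteIndex] {b : MM q}
    (hb : b ∈ starF F) :
    inv F (cyc (χ₀.restrict (W' := F.fixingSubgroup) le_top) b) =
      inv (⊥ : IntermediateField ℚ_[q] (PadicAlgCl q))
        (cyc χ₀ (∑ x : Gal' q ⧸ F.fixingSubgroup, sec F.fixingSubgroup x • b)) := by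
  set B := (⊥ : IntermediateField ℚ_[q] (PadicAlgCl q))
  have hB : B.fixingSubgroup = ⊤ := IntermediateField.fixingSubgroup_bot
  have h := cor_cyc_mem_B2 χ₀ F.fixingSubgroup (fix_mem F) smooth_ux (a := b) hb
  rw [← inv_cores F (cyc_mem_Z2' F (χ₀.restrict le_top) hb)]
  refine inv_congr B ?_ ?_
  swap
  · rw [hB]; exact h
  rw [hB]
  refine cyc_mem_Z2 χ₀ fun g _ => ?_
  rw [Finset.smul_sum]
  refine Fintype.sum_equiv (MulAction.toPerm g) _ _ fun x => ?_
  rw [MulAction.toPerm_apply, ← mul_smul]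
  have e : g * sec F.fixingSubgroup x =
      sec F.fixingSubgroup (g • x) * secCocycle F.fixingSubgroup g (g • x) := by
    have h2 := mul_sec F.fixingSubgroup g (g • x)
    rwa [inv_smul_smul] at h2
  rw [e, mul_smul, hb _ (secCocycle_mem _ g (g • x))]

end Local

end FermatAgent.CFT
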