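import Fermat.Agent.CFT.Local.UnramNorm

/-!
The identity `e f = n` for finite extensions of `ℚ_q`.
-/

set_option autoImplicit false

noncomputable section

open scoped Classical

namespace FermatAgent.CFT.Local

variable {q : ℕ} [hq : Fact q.Prime]

/-- The residue of a natural number. -/
lemma res_natCast (k : ℕ) : res (k : PadicAlgCl q) = (k : Res' q) := by
  rw [res_def (natCast_mem _ k)]
  exact map_natCast (IsLocalRing.residue (intRing q)) k

lemma exists_natCast_res {a : ℚ_[q]} (ha : ‖a‖ ≤ 1) :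
    ∃ n : ℕ, res (algebraMap ℚ_[q] (PadicAlgCl q) a) = (n : Res' q) ∧
      ‖algebraMap ℚ_[q] (PadicAlgCl q) a - (n : PadicAlgCl q)‖ < 1 := by
  obtain ⟨n, -, hn⟩ := PadicInt.exists_mem_range (⟨a, ha⟩ : ℤ_[q])
  rw [IsLocalRing.mem_maximalIdeal, PadicInt.mem_nonunits, PadicInt.norm_def] at hn
  have hlt : ‖algebraMap ℚ_[q] (PadicAlgCl q) a - (n : PadicAlgCl q)‖ < 1 := by
    rw [← map_natCast (algebraMap ℚ_[q] (PadicAlgCl q)) n, ← map_sub, PadicAlgCl.norm_extends]
    simpa using hn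
  refine ⟨n, ?_, hlt⟩
  have hn1 : (n : PadicAlgCl q) ∈ intRing q := natCast_mem _ n
  rw [(res_eq_res_iff (by rw [PadicAlgCl.norm_extends]; exact ha) (mem_intRing.mp hn1)).mpr hlt,
    res_natCast]

variable (F : IntermediateField ℚ_[q] (PadicAlgCl q)) [FiniteDimensional ℚ_[q] F]

omit [FiniteDimensional ℚ_[q] ↥F] in
/-- The prime lies in the field. -/
lemma q_mem : (q : PadicAlgCl q) ∈ F := natCast_mem F q

/-- The prime is nonzero. -/
lemma q_ne_zero : (q : PadicAlgCl q) ≠ 0 := Nat.cast_ne_zero.mpr hq.out.ne_zero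

/-- The absolute ramification index. -/
def ramIdx : ℕ := (ord F (q : PadicAlgCl q)).toNat

/-- The order of the prime is the ramification index. -/
lemma ord_q : ord F (q : PadicAlgCl q) = ramIdx F := by
  refine (Int.toNat_of_nonneg ?_).symm
  have := (one_le_ord_iff F (q_mem F) q_ne_zero).mpr norm_q_lt_one
  omega

/-- The ramification index is positive. -/
lemma ramIdx_pos : 0 < ramIdx F := by
  have h := (one_le_ord_iff F (q_mem F) q_ne_zero).mpr norm_q_lt_one
  rw [ord_q] at h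
  omega

/-- The norm of the prime through the uniformiser. -/
lemma norm_q_eq : ‖(q : PadicAlgCl q)‖ = ‖unif F‖ ^ ramIdx F := by
  rw [norm_eq_zpow_ord F (q_mem F) q_ne_zero, ord_q, zpow_natCast]

/-- The absolute inertia degree. -/
def inertiaDeg : ℕ := (exists_resCard_eq_pow F).choose

/-- The residue degree is positive. -/
lemma inertiaDeg_pos : 0 < inertiaDeg F := (exists_resCard_eq_pow F).choose_spec.1

/-- The residue field has `q` to the residue degree elements. -/
lemma resCard_eq : resCard F = q ^ inertiaDeg F := (exists_resCard_eq_pow F).choose_spec.2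

/-- A sum of products of integral elements has the sum of the residues as residue. -/
private lemma res_sum_mul {ι : Type*} (s : Finset ι) {a ω : ι → PadicAlgCl q}
    {n : ι → ℕ} {c : ι → Res' q} (ha : ∀ j, ‖a j‖ ≤ 1) (hω : ∀ j, ‖ω j‖ ≤ 1)
    (hn : ∀ j, res (a j) = (n j : Res' q)) (hc : ∀ j, res (ω j) = c j) :
    res (∑ j ∈ s, a j * ω j) = ∑ j ∈ s, (n j : Res' q) * c j := by
  have hle : ∀ j, ‖a j * ω j‖ ≤ 1 := fun j => by
    rw [norm_mul]; exact mul_le_one₀ (ha j) (norm_nonneg _) (hω j)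
  induction s using Finset.induction with
  | empty => simp
  | insert j s hj ih =>
    rw [Finset.sum_insert hj, Finset.sum_insert hj, res_add (hle j)
      (IsUltrametricDist.norm_sum_le_of_forall_le_of_nonneg zero_le_one fun i _ => hle i), ih,
      res_mul (ha j) (hω j), hn, hc]

omit [FiniteDimensional ℚ_[q] ↥F] in
/-- A sum of natural multiples in the residue field, computed in the residue field of `ℚ̄_q`. -/
private lemma coe_sum_smul [Module (ZMod q) (resField F)] {ι : Type*} (s : Finset ι) (n : ι → ℕ)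
    (c : ι → resField F) : ((∑ j ∈ s, (n j : ZMod q) • c j : resField F) : Res' q) =
      ∑ j ∈ s, (n j : Res' q) * (c j : Res' q) := by
  simp [Nat.cast_smul_eq_nsmul, nsmul_eq_mul]

omit [FiniteDimensional ℚ_[q] ↥F] in
/-- An integral combination of lifts of independent residues with a unit coefficient is a unit. -/
private lemma norm_sum_eq_one [Module (ZMod q) (resField F)] {ι : Type*} [Fintype ι]
    {c : ι → resField F} (hc : LinearIndependent (ZMod q) c) {ω : ι → PadicAlgCl q}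
    (hω : ∀ j, ‖ω j‖ ≤ 1) (hωres : ∀ j, res (ω j) = (c j : Res' q)) {a : ι → ℚ_[q]}
    (ha : ∀ j, ‖a j‖ ≤ 1) {j₀ : ι} (hj₀ : ‖a j₀‖ = 1) :
    ‖∑ j, algebraMap ℚ_[q] (PadicAlgCl q) (a j) * ω j‖ = 1 := by
  choose n hn hn' using fun j => exists_natCast_res (ha j)
  have ha' : ∀ j, ‖algebraMap ℚ_[q] (PadicAlgCl q) (a j)‖ ≤ 1 := fun j => by
    rw [PadicAlgCl.norm_extends]; exact ha j
  have hnorm : ‖∑ j, algebraMap ℚ_[q] (PadicAlgCl q) (a j) * ω j‖ ≤ 1 :=
    IsUltrametricDist.norm_sum_le_of_forall_le_of_nonneg zero_le_one fun j _ => by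
      rw [norm_mul]; exact mul_le_one₀ (ha' j) (norm_nonneg _) (hω j)
  refine le_antisymm hnorm (not_lt.mp fun h => ?_)
  have h0 := (res_eq_zero_iff hnorm).mpr h
  rw [res_sum_mul Finset.univ ha' hω hn hωres, ← coe_sum_smul, ZeroMemClass.coe_eq_zero] at h0
  have hz := Fintype.linearIndependent_iff.mp hc _ h0 j₀
  rw [ZMod.natCast_eq_zero_iff] at hz
  have h1 : ‖algebraMap ℚ_[q] (PadicAlgCl q) (a j₀)‖ = 1 := by rw [PadicAlgCl.norm_extends, hj₀]
  have h2 : res (algebraMap ℚ_[q] (PadicAlgCl q) (a j₀)) = 0 := by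
    rw [hn, CharP.cast_eq_zero_iff (Res' q) q]; exact hz
  rw [res_eq_zero_iff h1.le, h1] at h2
  exact lt_irrefl _ h2

/-- Products of powers of a uniformizer and lifts of independent residues are independent. -/
private lemma linearIndependent_unif_pow_mul [Module (ZMod q) (resField F)] {ι : Type*} [Fintype ι]
    {c : ι → resField F} (hc : LinearIndependent (ZMod q) c) {ω : ι → PadicAlgCl q}
    (hωF : ∀ j, ω j ∈ F) (hω : ∀ j, ‖ω j‖ ≤ 1) (hωres : ∀ j, res (ω j) = (c j : Res' q)) :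
    LinearIndependent ℚ_[q] fun x : Fin (ramIdx F) × ι =>
      (⟨unif F ^ (x.1 : ℕ) * ω x.2, mul_mem (pow_mem (unif_mem F) _) (hωF _)⟩ : F) := by
  set π := unif F
  rw [Fintype.linearIndependent_iff]
  intro a ha
  by_contra! hne
  obtain ⟨x₁, hx₁⟩ := hne
  obtain ⟨x₀, -, hmax⟩ :=
    Finset.exists_max_image Finset.univ (fun x => ‖a x‖) ⟨x₁, Finset.mem_univ _⟩
  have hM : a x₀ ≠ 0 := fun h => hx₁ (norm_le_zero_iff.mp
    ((hmax x₁ (Finset.mem_univ _)).trans (by rw [h, norm_zero])))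
  set b : Fin (ramIdx F) × ι → ℚ_[q] := fun x => (a x₀)⁻¹ * a x
  have hb : ∀ x, ‖b x‖ ≤ 1 := fun x => by
    rw [norm_mul, norm_inv, inv_mul_le_iff₀ (norm_pos_iff.mpr hM), mul_one]
    exact hmax x (Finset.mem_univ _)
  obtain ⟨⟨i₀, j₀⟩, hij, hmin⟩ := Finset.exists_min_image
    (Finset.univ.filter fun x => ‖b x‖ = 1) (fun x => (x.1 : ℕ))
    ⟨x₀, Finset.mem_filter.mpr ⟨Finset.mem_univ _, by simp [b, inv_mul_cancel₀ hM]⟩⟩
  set S : Fin (ramIdx F) → PadicAlgCl q :=
    fun i => ∑ j, algebraMap ℚ_[q] (PadicAlgCl q) (b (i, j)) * ω j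
  have hzero : ∑ i : Fin (ramIdx F), π ^ (i : ℕ) * S i = 0 := by
    have h := congrArg
      (fun z : F => algebraMap ℚ_[q] (PadicAlgCl q) (a x₀)⁻¹ * (z : PadicAlgCl q)) ha
    simp only [ZeroMemClass.coe_zero, mul_zero] at h
    rw [← h]
    simp only [S, AddSubmonoidClass.coe_finsetSum, Finset.mul_sum,
      Fintype.sum_prod_type, b, map_mul, Algebra.smul_def]
    exact Finset.sum_congr rfl fun i _ => Finset.sum_congr rfl fun j _ => by push_cast; ring
  have hS : ‖S i₀‖ = 1 :=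
    norm_sum_eq_one F hc hω hωres (fun j => hb _) (Finset.mem_filter.mp hij).2
  have hlt : ∀ i, i ≠ i₀ → ‖π ^ (i : ℕ) * S i‖ < ‖π ^ (i₀ : ℕ) * S i₀‖ := fun i hi => by
    rw [norm_mul, norm_mul, norm_pow, norm_pow, hS, mul_one]
    rcases lt_or_gt_of_ne hi with h | h
    · have hsmall : ∀ j, ‖b (i, j)‖ ≤ ‖π‖ ^ ramIdx F := fun j => by
        have hlt1 : ‖b (i, j)‖ < 1 := lt_of_le_of_ne (hb _) fun hh => by
          have := hmin (i, j) (Finset.mem_filter.mpr ⟨Finset.mem_univ _, hh⟩)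
          exact absurd this (not_le.mpr h)
        rw [← norm_q_eq F, norm_q]
        rw [show (q : ℝ)⁻¹ = (q : ℝ) ^ (-1 : ℤ) from (zpow_neg_one _).symm,
          Padic.norm_le_pow_iff_norm_lt_pow_add_one]
        simpa using hlt1
      have hSi : ‖S i‖ ≤ ‖π‖ ^ ramIdx F :=
        IsUltrametricDist.norm_sum_le_of_forall_le_of_nonneg (pow_nonneg (norm_nonneg _) _)
          fun j _ => by
            rw [norm_mul, PadicAlgCl.norm_extends]
            exact (mul_le_of_le_one_right (norm_nonneg _) (hω j)).trans (hsmall j)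
      refine lt_of_le_of_lt ((mul_le_of_le_one_left (norm_nonneg _)
        (pow_le_one₀ (norm_nonneg π) (norm_unif_lt_one F).le)).trans hSi) ?_
      exact pow_lt_pow_right_of_lt_one₀ (norm_unif_pos F) (norm_unif_lt_one F) i₀.2
    · refine lt_of_le_of_lt (mul_le_of_le_one_right (pow_nonneg (norm_nonneg _) _) ?_)
        (pow_lt_pow_right_of_lt_one₀ (norm_unif_pos F) (norm_unif_lt_one F) h)
      exact IsUltrametricDist.norm_sum_le_of_forall_le_of_nonneg zero_le_one fun j _ => by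
        rw [norm_mul, PadicAlgCl.norm_extends]
        exact mul_le_one₀ (hb _) (norm_nonneg _) (hω j)
  rw [← Finset.add_sum_erase Finset.univ _ (Finset.mem_univ i₀), add_eq_zero_iff_eq_neg] at hzero
  have hbig : ‖∑ i ∈ Finset.univ.erase i₀, π ^ (i : ℕ) * S i‖ < ‖π ^ (i₀ : ℕ) * S i₀‖ := by
    rcases (Finset.univ.erase i₀).eq_empty_or_nonempty with he' | he'
    · rw [he', Finset.sum_empty, norm_zero, norm_mul, hS, mul_one, norm_pow]
      exact pow_pos (norm_unif_pos F) _
    · obtain ⟨i, hi, hle⟩ := IsUltrametricDist.exists_norm_finsetSum_le_of_nonempty he'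
        (fun i => π ^ (i : ℕ) * S i)
      exact lt_of_le_of_lt hle (hlt i (Finset.ne_of_mem_erase hi))
  rw [hzero, norm_neg] at hbig
  exact lt_irrefl _ hbig

/-- One step of the approximation of an element by the products. -/
private lemma exists_approx_step [Module (ZMod q) (resField F)] {ι : Type*} [Fintype ι]
    (B : Module.Basis ι (ZMod q) (resField F)) {ω : ι → PadicAlgCl q}
    (hωF : ∀ j, ω j ∈ F) (hω : ∀ j, ‖ω j‖ ≤ 1) (hωres : ∀ j, res (ω j) = (B j : Res' q)) (i : ℕ)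
    (x : F) (hx : ‖(x : PadicAlgCl q)‖ ≤ ‖unif F‖ ^ i) :
    ∃ w ∈ Submodule.span ℚ_[q] (Set.range fun x : Fin (ramIdx F) × ι =>
      (⟨unif F ^ (x.1 : ℕ) * ω x.2, mul_mem (pow_mem (unif_mem F) _) (hωF _)⟩ : F)),
      ‖(x : PadicAlgCl q) - (w : F)‖ ≤ ‖unif F‖ ^ (i + 1) := by
  set e := ramIdx F
  set π := unif F
  have he : 0 < e := ramIdx_pos F
  set g := (q : PadicAlgCl q) ^ (i / e) * π ^ (i % e) with hg
  have hgn : ‖g‖ = ‖π‖ ^ i := by
    simp only [hg, π, e, norm_mul, norm_pow, norm_q_eq F, ← pow_mul, ← pow_add]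
    rw [Nat.div_add_mod]
  have hg0 : g ≠ 0 := norm_pos_iff.mp (hgn.symm ▸ pow_pos (norm_unif_pos F) i)
  set y := (x : PadicAlgCl q) / g
  have hyF : y ∈ F := div_mem x.2 (mul_mem (pow_mem (q_mem F) _) (pow_mem (unif_mem F) _))
  have hy : ‖y‖ ≤ 1 := by
    rw [norm_div, hgn, div_le_one (pow_pos (norm_unif_pos F) i)]; exact hx
  set c : resField F := ⟨res y, res_mem_resField F hyF hy⟩
  let n : ι → ℕ := fun j => (B.repr c j).val
  let m : Fin e := ⟨i % e, Nat.mod_lt i he⟩
  refine ⟨∑ j, ((q : ℚ_[q]) ^ (i / e) * (n j : ℚ_[q])) •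
      (⟨π ^ (m : ℕ) * ω j, mul_mem (pow_mem (unif_mem F) _) (hωF _)⟩ : F),
    Submodule.sum_mem _ fun j _ => Submodule.smul_mem _ _ (Submodule.subset_span ⟨(m, j), rfl⟩), ?_⟩
  have hval : ((∑ j, ((q : ℚ_[q]) ^ (i / e) * (n j : ℚ_[q])) •
      (⟨π ^ (m : ℕ) * ω j, mul_mem (pow_mem (unif_mem F) _) (hωF _)⟩ : F) : F) : PadicAlgCl q) =
      g * ∑ j, (n j : PadicAlgCl q) * ω j := by
    simp only [AddSubmonoidClass.coe_finsetSum, Algebra.smul_def, m,
      hg, map_mul, map_pow, map_natCast, Finset.mul_sum]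
    exact Finset.sum_congr rfl fun j _ => by push_cast; ring
  have hn1 : ∀ j, ‖(n j : PadicAlgCl q)‖ ≤ 1 := fun j => mem_intRing.mp (natCast_mem _ _)
  have hz1 : ‖∑ j, (n j : PadicAlgCl q) * ω j‖ ≤ 1 :=
    IsUltrametricDist.norm_sum_le_of_forall_le_of_nonneg zero_le_one fun j _ => by
      rw [norm_mul]; exact mul_le_one₀ (hn1 j) (norm_nonneg _) (hω j)
  have hzres : res (∑ j, (n j : PadicAlgCl q) * ω j) = res y := by
    rw [res_sum_mul Finset.univ hn1 hω (fun j => res_natCast (n j)) hωres, ← coe_sum_smul]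
    simp only [n, ZMod.natCast_zmod_val, B.sum_repr, c]
  rw [hval, show (x : PadicAlgCl q) = g * y from (mul_div_cancel₀ _ hg0).symm, ← mul_sub,
    norm_mul, hgn, pow_succ]
  refine mul_le_mul_of_nonneg_left
    (norm_le_norm_unif F ?_ ((res_eq_res_iff hy hz1).mp hzres.symm))
    (pow_nonneg (norm_nonneg _) i)
  exact sub_mem hyF (sum_mem fun j _ => mul_mem (natCast_mem F _) (hωF j))

/-- A subspace approximating all elements step by step is everything. -/
private lemma eq_top_of_approx_step {V : Submodule ℚ_[q] F}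
    (hstep : ∀ (i : ℕ) (x : F), ‖(x : PadicAlgCl q)‖ ≤ ‖unif F‖ ^ i →
      ∃ w ∈ V, ‖(x : PadicAlgCl q) - (w : F)‖ ≤ ‖unif F‖ ^ (i + 1)) : V = ⊤ := by
  have := properSpace F
  have hcl : IsClosed (V : Set F) := Submodule.closed_of_finiteDimensional V
  have hmem : ∀ x : F, ‖(x : PadicAlgCl q)‖ ≤ 1 → x ∈ V := fun x hx => by
    have happ : ∀ i : ℕ, ∃ w ∈ V, ‖(x : PadicAlgCl q) - (w : F)‖ ≤ ‖unif F‖ ^ i := by
      intro i
      induction i with
      | zero => exact ⟨0, zero_mem _, by simpa using hx⟩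
      | succ i ih =>
        obtain ⟨w, hw, hwx⟩ := ih
        obtain ⟨w', hw', hwx'⟩ := hstep i (x - w) hwx
        exact ⟨w + w', add_mem hw hw', by
          rw [AddMemClass.coe_add, ← sub_sub]; exact hwx'⟩
    refine hcl.closure_subset (Metric.mem_closure_iff.mpr fun ε hε => ?_)
    obtain ⟨i, hi⟩ := exists_pow_lt_of_lt_one hε (norm_unif_lt_one F)
    obtain ⟨w, hw, hwx⟩ := happ i
    exact ⟨w, hw, by rw [dist_eq_norm]; exact lt_of_le_of_lt hwx hi⟩
  rw [Submodule.eq_top_iff']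
  intro x
  rcases eq_or_ne (x : PadicAlgCl q) 0 with h0 | h0
  · rw [show x = 0 from Subtype.ext h0]; exact zero_mem _
  obtain ⟨k, hk⟩ := exists_pow_lt_of_lt_one (inv_pos.mpr (norm_pos_iff.mpr h0))
    (norm_q_lt_one (q := q))
  have hm : ((q : ℚ_[q]) ^ k) • x ∈ V := hmem _ (by
    rw [IntermediateField.coe_smul, Algebra.smul_def, map_pow, map_natCast, norm_mul, norm_pow]
    exact (le_of_lt (by
      have := mul_lt_mul_of_pos_right hk (norm_pos_iff.mpr h0)
      rwa [inv_mul_cancel₀ (norm_pos_iff.mpr h0).ne'] at this)))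
  have := V.smul_mem ((q : ℚ_[q]) ^ k)⁻¹ hm
  rwa [inv_smul_smul₀ (pow_ne_zero _ (Nat.cast_ne_zero.mpr hq.out.ne_zero))] at this

/-- The fundamental identity. -/
theorem finrank_eq : Module.finrank ℚ_[q] F = ramIdx F * inertiaDeg F := by
  let : Algebra (ZMod q) (resField F) := ZMod.algebra _ q
  have hf : Module.finrank (ZMod q) (resField F) = inertiaDeg F := by
    have h := Module.natCard_eq_pow_finrank (K := ZMod q) (V := resField F)
    rw [Nat.card_zmod, ← resCard, resCard_eq] at h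
    exact (Nat.pow_right_injective hq.out.two_le h).symm
  let B : Module.Basis (Fin (inertiaDeg F)) (ZMod q) (resField F) :=
    Module.finBasisOfFinrankEq _ _ hf
  choose ω hωF hω hωres using fun j => (B j).2
  have hli := linearIndependent_unif_pow_mul F B.linearIndependent hωF hω hωres
  have hV := eq_top_of_approx_step F (exists_approx_step F B hωF hω hωres)
  rw [Module.finrank_eq_card_basis (Module.Basis.mk hli hV.ge), Fintype.card_prod, Fintype.card_fin,
    Fintype.card_fin]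

end FermatAgent.CFT.Local
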