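import Fermat.Agent.CFT.Local.Brauer
import Fermat.Agent.CFT.Coh.Cores

/-!
The local invariant map.
-/

set_option autoImplicit false

noncomputable section

open scoped Classical

namespace FermatAgent.CFT.Local

open Coh

/-- The group `ℚ / ℤ`. -/
abbrev QZ : Type := AddCircle (1 : ℚ)

/-- The class of a fraction. -/
def qz (a : ℤ) (m : ℕ) : QZ := (((a : ℚ) / (m : ℚ) : ℚ) : QZ)

/-- A fraction vanishes iff the numerator is divisible by the denominator. -/
lemma qz_eq_zero_iff {a : ℤ} {m : ℕ} [NeZero m] : qz a m = 0 ↔ (m : ℤ) ∣ a := by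
  have hm : (m : ℚ) ≠ 0 := Nat.cast_ne_zero.mpr (NeZero.ne m)
  rw [qz, AddCircle.coe_eq_zero_iff]
  constructor
  · rintro ⟨n, hn⟩
    rw [zsmul_eq_mul, mul_one, eq_div_iff hm] at hn
    refine ⟨n, ?_⟩
    have h : (a : ℚ) = ((m : ℤ) * n : ℤ) := by push_cast; rw [← hn]; ring
    exact_mod_cast h
  · rintro ⟨n, rfl⟩
    exact ⟨n, by rw [zsmul_eq_mul, mul_one, eq_div_iff hm]; push_cast; ring⟩

/-- Fractions add. -/
lemma qz_add (a b : ℤ) (m : ℕ) : qz (a + b) m = qz a m + qz b m := by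
  rw [qz, qz, qz, ← AddCircle.coe_add]; push_cast; rw [add_div]

/-- The fraction with numerator zero. -/
@[simp] lemma qz_zero (m : ℕ) : qz 0 m = 0 := by simp [qz]

/-- Fractions subtract. -/
lemma qz_sub (a b : ℤ) (m : ℕ) : qz (a - b) m = qz a m - qz b m := by
  rw [eq_sub_iff_add_eq, ← qz_add, sub_add_cancel]

/-- Fractions scale. -/
lemma qz_mul (n : ℤ) (a : ℤ) (m : ℕ) : qz (n * a) m = n • qz a m := by
  rw [qz, qz, ← AddCircle.coe_zsmul]; push_cast; rw [zsmul_eq_mul, mul_div_assoc]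

/-- Cancelling a common factor of a fraction. -/
lemma qz_mul_right {a : ℤ} {m d : ℕ} [NeZero d] : qz (d * a) (d * m) = qz a m := by
  rw [qz, qz]; push_cast
  rw [mul_div_mul_left _ _ (Nat.cast_ne_zero.mpr (NeZero.ne d))]

variable {q : ℕ} [hq : Fact q.Prime]
  (F : IntermediateField ℚ_[q] (PadicAlgCl q)) [FiniteDimensional ℚ_[q] F]

/-- The local invariant. -/
def inv (x : Gal' q → Gal' q → MM q) : QZ :=
  if h : x ∈ unramSub F then qz (ordUx F h.choose_spec.choose_spec.choose) h.choose else 0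

lemma inv_eq {x : Gal' q → Gal' q → MM q} {m : ℕ} [NeZero m] {b : MM q} (hb : b ∈ starF F)
    (hx : x - uCls F m b ∈ (LL q).B2 F.fixingSubgroup (MM q)) :
    inv F x = qz (ordUx F b) m := by
  have h : x ∈ unramSub F := ⟨m, inferInstance, b, hb, hx⟩
  rw [inv, dif_pos h]
  set m' := h.choose
  have hm' : NeZero m' := h.choose_spec.choose
  set b' := h.choose_spec.choose_spec.choose
  obtain ⟨hb', hx'⟩ : b' ∈ starF F ∧ x - uCls F m' b' ∈ (LL q).B2 F.fixingSubgroup (MM q) :=
    h.choose_spec.choose_spec.choose_spec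
  have : NeZero (m' * m) := ⟨mul_ne_zero (NeZero.ne m') (NeZero.ne m)⟩
  have h1 := uCls_congr F (dvd_mul_right m' m) hb'
  have h2 := uCls_congr F (dvd_mul_left m m') hb
  rw [Nat.mul_div_cancel_left _ (Nat.pos_of_ne_zero (NeZero.ne m'))] at h1
  rw [Nat.mul_div_cancel _ (Nat.pos_of_ne_zero (NeZero.ne m))] at h2
  have h3 : uCls F (m' * m) (m • b' - m' • b) ∈ (LL q).B2 F.fixingSubgroup (MM q) := by
    have h4 := add_mem (sub_mem hx hx') (sub_mem h2 h1)
    convert h4 using 1
    simp only [uCls, cyc_sub]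
    abel
  rw [uCls_mem_B2_iff F (sub_mem (nsmul_mem hb' _) (nsmul_mem hb _)),
    ordUx_sub F (nsmul_mem hb' _) (nsmul_mem hb _), ordUx_nsmul F hb', ordUx_nsmul F hb,
    ← qz_eq_zero_iff, qz_sub, sub_eq_zero] at h3
  rw [show qz ((m : ℤ) * ordUx F b') (m' * m) = qz (ordUx F b') m' by
    rw [mul_comm m' m, qz_mul_right],
    show qz ((m' : ℤ) * ordUx F b) (m' * m) = qz (ordUx F b) m from qz_mul_right] at h3
  exact h3

lemma exists_rep {x : Gal' q → Gal' q → MM q} (hx : x ∈ (LL q).Z2 F.fixingSubgroup (MM q)) :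
    ∃ (m : ℕ) (_ : NeZero m) (b : MM q), b ∈ starF F ∧
      x - uCls F m b ∈ (LL q).B2 F.fixingSubgroup (MM q) ∧ inv F x = qz (ordUx F b) m := by
  obtain ⟨m, hm, b, hb, hxb⟩ := mem_unramSub F hx
  exact ⟨m, hm, b, hb, hxb, inv_eq F hb hxb⟩

/-- The invariant of an unramified class. -/
lemma inv_uCls {m : ℕ} [NeZero m] {b : MM q} (hb : b ∈ starF F) :
    inv F (uCls F m b) = qz (ordUx F b) m :=
  inv_eq F hb (by rw [sub_self]; exact zero_mem _)

/-- The invariant is injective on classes. -/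
lemma inv_eq_zero_iff {x : Gal' q → Gal' q → MM q} (hx : x ∈ (LL q).Z2 F.fixingSubgroup (MM q)) :
    inv F x = 0 ↔ x ∈ (LL q).B2 F.fixingSubgroup (MM q) := by
  obtain ⟨m, hm, b, hb, hxb, hinv⟩ := exists_rep F hx
  rw [hinv, qz_eq_zero_iff, ← uCls_mem_B2_iff F hb]
  refine ⟨fun h => ?_, fun h => ?_⟩
  · have := add_mem hxb h; rwa [sub_add_cancel] at this
  · have := sub_mem h hxb; rwa [sub_sub_cancel] at this

/-- The invariant is additive. -/
lemma inv_add {x y : Gal' q → Gal' q → MM q} (hx : x ∈ (LL q).Z2 F.fixingSubgroup (MM q))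
    (hy : y ∈ (LL q).Z2 F.fixingSubgroup (MM q)) : inv F (x + y) = inv F x + inv F y := by
  obtain ⟨m, hm, b, hb, hxb, hxi⟩ := exists_rep F hx
  obtain ⟨m', hm', b', hb', hyb, hyi⟩ := exists_rep F hy
  have : NeZero (m * m') := ⟨mul_ne_zero (NeZero.ne m) (NeZero.ne m')⟩
  have h1 := add_mem hxb (uCls_congr F (dvd_mul_right m m') hb)
  have h2 := add_mem hyb (uCls_congr F (dvd_mul_left m' m) hb')
  rw [inv_eq F (m := m * m') (add_mem (nsmul_mem hb (m * m' / m)) (nsmul_mem hb' (m * m' / m')))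
    (by convert add_mem h1 h2 using 1; simp only [uCls, cyc_add]; abel), hxi, hyi,
    ordUx_add F (nsmul_mem hb _) (nsmul_mem hb' _), ordUx_nsmul F hb, ordUx_nsmul F hb', qz_add,
    Nat.mul_div_cancel_left _ (Nat.pos_of_ne_zero (NeZero.ne m)),
    Nat.mul_div_cancel _ (Nat.pos_of_ne_zero (NeZero.ne m')),
    show qz ((m' : ℤ) * ordUx F b) (m * m') = qz (ordUx F b) m by rw [mul_comm m m', qz_mul_right],
    show qz ((m : ℤ) * ordUx F b') (m * m') = qz (ordUx F b') m' from qz_mul_right]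

/-- The invariant depends only on the class. -/
lemma inv_congr {x y : Gal' q → Gal' q → MM q} (hy : y ∈ (LL q).Z2 F.fixingSubgroup (MM q))
    (h : x - y ∈ (LL q).B2 F.fixingSubgroup (MM q)) : inv F x = inv F y := by
  obtain ⟨m, hm, b, hb, hyb, hyi⟩ := exists_rep F hy
  rw [hyi]
  refine inv_eq F hb ?_
  rw [← sub_add_sub_cancel]
  exact add_mem h hyb

/-- The invariant commutes with natural multiples. -/
lemma inv_nsmul {x : Gal' q → Gal' q → MM q} (hx : x ∈ (LL q).Z2 F.fixingSubgroup (MM q)) (n : ℕ) :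
    inv F (n • x) = n • inv F x := by
  induction n with
  | zero =>
    rw [zero_smul, zero_smul, inv_eq_zero_iff F (zero_mem _)]
    exact zero_mem _
  | succ n ih => rw [succ_nsmul, succ_nsmul, inv_add F (nsmul_mem hx n) hx, ih]

/-- Every fraction is an invariant. -/
lemma exists_inv_eq (a : ℤ) (m : ℕ) [NeZero m] :
    ∃ x ∈ (LL q).Z2 F.fixingSubgroup (MM q), inv F x = qz a m := by
  have hb := zsmul_mem (unifUx_mem F) a
  refine ⟨uCls F m (a • unifUx F), uCls_mem_Z2 F hb, ?_⟩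
  rw [inv_uCls F hb, ordUx_zsmul F (unifUx_mem F), ordUx_unif, mul_one]

section Tower

variable {F}
variable {F' : IntermediateField ℚ_[q] (PadicAlgCl q)} [FiniteDimensional ℚ_[q] F'] (h : F ≤ F')

include h

/-- The invariant of a restriction. -/
theorem inv_restrict {x : Gal' q → Gal' q → MM q} (hx : x ∈ (LL q).Z2 F.fixingSubgroup (MM q)) :
    inv F' x = F'.fixingSubgroup.relIndex F.fixingSubgroup • inv F x := by
  obtain ⟨m, hm, b, hb, hxb, hxi⟩ := exists_rep F hx
  obtain ⟨e, f, he, hf0, hf, hord, hef⟩ := exists_ramification h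
  have h1 := add_mem (Levels.B2_mono (IntermediateField.fixingSubgroup_le h) hxb)
    (uCls_restrict h hf (M := m) hb)
  rw [sub_add_sub_cancel] at h1
  rw [inv_eq F' (nsmul_mem (starF_mono h hb) f) h1, hxi, hef, ordUx_nsmul F' (starF_mono h hb),
    hord b hb, ← natCast_zsmul, ← qz_mul]
  congr 1
  push_cast
  ring

end Tower

/-- The index as a relative index over the base. -/
lemma index_eq_relIndex_bot (U : Subgroup (Gal' q)) :
    U.index = U.relIndex (⊥ : IntermediateField ℚ_[q] (PadicAlgCl q)).fixingSubgroup := by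
  rw [IntermediateField.fixingSubgroup_bot, Subgroup.relIndex_top_right]

/-- Corestriction to `ℚ_q` preserves the invariant. -/
theorem inv_cores [F.fixingSubgroup.FiniteIndex] {x : Gal' q → Gal' q → MM q}
    (hx : x ∈ (LL q).Z2 F.fixingSubgroup (MM q)) :
    inv (⊥ : IntermediateField ℚ_[q] (PadicAlgCl q)) (cores F.fixingSubgroup x) = inv F x := by
  set B := (⊥ : IntermediateField ℚ_[q] (PadicAlgCl q))
  have hB : B.fixingSubgroup = ⊤ := IntermediateField.fixingSubgroup_bot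
  have hle : B ≤ F := bot_le
  obtain ⟨y, hyU, hy, hxy⟩ := exists_restrict_eq hle (mem_unramSub F hx)
  have hy' : y ∈ (LL q).Z2 ⊤ (MM q) := hB ▸ hy
  have h1 := cores_mem_B2 F.fixingSubgroup (fix_mem F) hxy
  rw [cores_sub] at h1
  have h2 := cores_sub_index_nsmul_mem_B2 F.fixingSubgroup (fix_mem F) smooth_ux hy'
  have h3 := add_mem h1 h2
  rw [sub_add_sub_cancel, ← hB] at h3
  rw [inv_congr B (nsmul_mem hy _) h3, inv_nsmul B hy, inv_congr F
    (Levels.Z2_mono (IntermediateField.fixingSubgroup_le hle) hy) hxy, inv_restrict hle hy,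
      index_eq_relIndex_bot]

end FermatAgent.CFT.Local
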