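import Fermat.Agent.CFT.Local.Degree
import Fermat.Agent.CFT.Coh.Lattice

/-!
Indices of `p`-th powers in the multiplicative groups of finite extensions of `ℚ_q`.

For a finite extension `F` of `ℚ_q`: `p`-th powering shifts small groups of principal units `nearF`
(`map_nsmul_nearF`), so the index of the `p`-th powers in them is `pIdx F p`, namely `q` to the
degree if `p = q` and `1` otherwise (`relIndex_pth_nearF`).
Successive quotients are counted by the residue field (`relIndex_nearF_succ`), and these groups have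
nonzero index in the units `unitsF` (`relIndex_nearF_unitsF`).
-/

set_option autoImplicit false

noncomputable section

open scoped Classical

namespace FermatAgent.CFT

open Coh

section Fixed

variable {k Ω : Type} [Field k] [Field Ω] [Algebra k Ω]

/-- The elements fixed by a subgroup. -/
def fixedUx (W : Subgroup (Ω ≃ₐ[k] Ω)) : AddSubgroup (Ux Ω) where
  carrier := {a | ∀ g ∈ W, g • a = a}
  zero_mem' g _ := smul_zero g
  add_mem' {a b} ha hb g hg := by rw [smul_add, ha g hg, hb g hg]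
  neg_mem' {a} ha g hg := by rw [smul_neg, ha g hg]

/-- Membership in the invariants. -/
lemma mem_fixedUx {W : Subgroup (Ω ≃ₐ[k] Ω)} {a : Ux Ω} :
    a ∈ fixedUx W ↔ ∀ g ∈ W, g • a = a := Iff.rfl

/-- Invariants of a field group are the elements of the field. -/
lemma mem_fixedUx_fixingSubgroup [IsGalois k Ω] {F : IntermediateField k Ω} {a : Ux Ω} :
    a ∈ fixedUx F.fixingSubgroup ↔ a.val ∈ F := by
  refine ⟨fun h => ?_,
    fun h g hg => Ux.ext ((IntermediateField.mem_fixingSubgroup_iff F g).mp hg _ h)⟩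
  rw [← InfiniteGalois.fixedField_fixingSubgroup F]
  exact mem_fixedField_of_smul h

end Fixed

namespace Local

variable {q : ℕ} [hq : Fact q.Prime]

/-- The norm as a homomorphism. -/
def normHom : Ux (PadicAlgCl q) →+ Additive ℝˣ where
  toFun a := Additive.ofMul (Units.mk0 ‖a.val‖ (norm_ne_zero_iff.mpr a.val_ne_zero))
  map_zero' := Additive.toMul.injective (Units.ext (by simp))
  map_add' a b := Additive.toMul.injective (Units.ext (by simp))

/-- Norm zero means being a unit. -/
lemma normHom_eq_zero {a : Ux (PadicAlgCl q)} : normHom a = 0 ↔ ‖a.val‖ = 1 := by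
  rw [← Additive.toMul.injective.eq_iff, Units.ext_iff]
  rfl

/-- Equal norms. -/
lemma normHom_eq_iff {a b : Ux (PadicAlgCl q)} : normHom a = normHom b ↔ ‖a.val‖ = ‖b.val‖ := by
  rw [← Additive.toMul.injective.eq_iff, Units.ext_iff]
  rfl

/-- The units. -/
def unitsUx (q : ℕ) [Fact q.Prime] : AddSubgroup (Ux (PadicAlgCl q)) := normHom.ker

/-- Membership in the units. -/
lemma mem_unitsUx {a : Ux (PadicAlgCl q)} : a ∈ unitsUx q ↔ ‖a.val‖ = 1 := normHom_eq_zero

lemma norm_eq_one_of_sub_one_lt {x : PadicAlgCl q} (h : ‖x - 1‖ < 1) : ‖x‖ = 1 := by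
  have := IsUltrametricDist.norm_add_eq_max_of_norm_ne_norm (x := x - 1) (y := (1 : PadicAlgCl q))
    (by rw [norm_one]; exact h.ne)
  rwa [sub_add_cancel, norm_one, max_eq_right h.le] at this

/-- The principal units of a given radius. -/
def nearUx (q : ℕ) [Fact q.Prime] (r : ℝ) (hr0 : 0 ≤ r) (hr : r < 1) :
    AddSubgroup (Ux (PadicAlgCl q)) where
  carrier := {a | ‖a.val - 1‖ ≤ r}
  zero_mem' := by simpa using hr0
  add_mem' {a b} ha hb := by
    have hb1 := norm_eq_one_of_sub_one_lt (lt_of_le_of_lt hb hr)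
    show ‖(a + b).val - 1‖ ≤ r
    rw [Ux.val_add, show a.val * b.val - 1 = (a.val - 1) * b.val + (b.val - 1) by ring]
    exact (IsUltrametricDist.norm_add_le_max _ _).trans
      (max_le (by rw [norm_mul, hb1, mul_one]; exact ha) hb)
  neg_mem' {a} ha := by
    have ha1 := norm_eq_one_of_sub_one_lt (lt_of_le_of_lt ha hr)
    show ‖(-a).val - 1‖ ≤ r
    rw [Ux.val_neg, show a.val⁻¹ - 1 = -((a.val - 1) * a.val⁻¹) by
      rw [sub_mul, mul_inv_cancel₀ a.val_ne_zero]; ring, norm_neg, norm_mul, norm_inv, ha1, inv_one,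
      mul_one]
    exact ha

/-- Membership in the units near one. -/
lemma mem_nearUx {r : ℝ} {hr0 : 0 ≤ r} {hr : r < 1} {a : Ux (PadicAlgCl q)} :
    a ∈ nearUx q r hr0 hr ↔ ‖a.val - 1‖ ≤ r := Iff.rfl

variable {p : ℕ} [hp : Fact p.Prime]

/-- Rational primes have positive norm. -/
lemma norm_natCast_prime_pos : 0 < ‖(p : PadicAlgCl q)‖ :=
  norm_pos_iff.mpr (Nat.cast_ne_zero.mpr hp.out.ne_zero)

omit hp in
lemma norm_one_add_pow_sub {y : PadicAlgCl q} (hy : ‖y‖ ≤ 1) :
    ‖(1 + y) ^ p - 1 - p * y‖ ≤ ‖y‖ ^ 2 := by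
  have h := (norm_prod_one_add_sub (Finset.range p) (fun _ => y) (norm_nonneg y) hy
    fun _ _ => le_rfl).1
  simpa using h

omit hp in
lemma norm_one_add_pow {y : PadicAlgCl q} (hy : ‖y‖ < ‖(p : PadicAlgCl q)‖) (hy0 : y ≠ 0) :
    ‖(1 + y) ^ p - 1‖ = ‖(p : PadicAlgCl q) * y‖ := by
  have h1 := norm_one_add_pow_sub (p := p) (hy.le.trans (IsUltrametricDist.norm_natCast_le_one _ p))
  have h2 : ‖y‖ ^ 2 < ‖(p : PadicAlgCl q) * y‖ := by
    rw [norm_mul, sq]; exact mul_lt_mul_of_pos_right hy (norm_pos_iff.mpr hy0)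
  rw [show (1 + y) ^ p - 1 = ((1 + y) ^ p - 1 - p * y) + p * y by ring,
    IsUltrametricDist.norm_add_eq_max_of_norm_ne_norm (lt_of_le_of_lt h1 h2).ne,
    max_eq_right (h1.trans h2.le)]

/-- Units close to one have no torsion. -/
lemma nearUx_torsionFree {r : ℝ} {hr0 : 0 ≤ r} {hr : r < 1} (hrp : r < ‖(p : PadicAlgCl q)‖)
    {a : Ux (PadicAlgCl q)} (ha : a ∈ nearUx q r hr0 hr) (h : p • a = 0) : a = 0 := by
  by_contra hne
  have hy0 : a.val - 1 ≠ 0 := sub_ne_zero.mpr fun h' => hne (Ux.ext h')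
  have := norm_one_add_pow (lt_of_le_of_lt ha hrp) hy0
  rw [add_sub_cancel, ← Ux.val_nsmul, h, Ux.val_zero, sub_self, norm_zero, norm_mul, eq_comm,
    mul_eq_zero] at this
  rcases this with h' | h'
  · exact norm_natCast_prime_pos.ne' h'
  · exact hy0 (norm_eq_zero.mp h')

variable (F : IntermediateField ℚ_[q] (PadicAlgCl q)) [FiniteDimensional ℚ_[q] F]

/-- Positive powers of the uniformiser are small. -/
lemma unif_pow_lt_one {a : ℕ} (ha : 1 ≤ a) : ‖unif F‖ ^ a < 1 :=
  pow_lt_one₀ (norm_nonneg _) (norm_unif_lt_one F) (by omega)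

/-- The units of `F` congruent to one modulo a power of the uniformiser. -/
def nearF (a : ℕ) : AddSubgroup (Ux (PadicAlgCl q)) :=
  fixedUx F.fixingSubgroup ⊓
    nearUx q (‖unif F‖ ^ (a + 1)) (pow_nonneg (norm_nonneg _) _) (unif_pow_lt_one F (by omega))

lemma mem_nearF {a : ℕ} {x : Ux (PadicAlgCl q)} :
    x ∈ nearF F a ↔ x.val ∈ F ∧ ‖x.val - 1‖ ≤ ‖unif F‖ ^ (a + 1) := by
  rw [nearF, AddSubgroup.mem_inf, mem_fixedUx_fixingSubgroup, mem_nearUx]

/-- The group of units of `F`. -/
def unitsF : AddSubgroup (Ux (PadicAlgCl q)) := fixedUx F.fixingSubgroup ⊓ unitsUx q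

omit [FiniteDimensional ℚ_[q] ↥F] in
/-- Membership in the units of the field. -/
lemma mem_unitsF {x : Ux (PadicAlgCl q)} : x ∈ unitsF F ↔ x.val ∈ F ∧ ‖x.val‖ = 1 := by
  rw [unitsF, AddSubgroup.mem_inf, mem_fixedUx_fixingSubgroup, mem_unitsUx]

/-- Units near one are units. -/
lemma nearF_le_unitsF (a : ℕ) : nearF F a ≤ unitsF F := fun x hx => by
  rw [mem_nearF] at hx
  exact (mem_unitsF F).mpr ⟨hx.1,
    norm_eq_one_of_sub_one_lt (lt_of_le_of_lt hx.2 (unif_pow_lt_one F (by omega)))⟩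

lemma nearF_succ_le (a : ℕ) : nearF F (a + 1) ≤ nearF F a := fun x hx => by
  rw [mem_nearF] at hx ⊢
  exact ⟨hx.1, hx.2.trans (pow_le_pow_of_le_one (norm_nonneg _) (norm_unif_lt_one F).le (by omega))⟩

lemma relIndex_nearF_succ (a : ℕ) : (nearF F (a + 1)).relIndex (nearF F a) = resCard F := by
  set π := unif F
  have hdiv : ∀ x : nearF F a, ‖((x : Ux (PadicAlgCl q)).val - 1) / π ^ (a + 1)‖ ≤ 1 ∧
      ((x : Ux (PadicAlgCl q)).val - 1) / π ^ (a + 1) ∈ F := fun x => by
    obtain ⟨h1, h2⟩ := (mem_nearF F).mp x.2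
    refine ⟨?_, div_mem (sub_mem h1 (one_mem F)) (pow_mem (unif_mem F) _)⟩
    rw [norm_div, norm_pow, div_le_one (pow_pos (norm_unif_pos F) _)]
    exact h2
  let φ : nearF F a →+ resField F := AddMonoidHom.mk'
    (fun x => ⟨_, res_mem_resField F (hdiv x).2 (hdiv x).1⟩) fun x y => Subtype.ext (by
      show res _ = res _ + res _
      rw [← res_add (hdiv x).1 (hdiv y).1, res_eq_res_iff (hdiv (x + y)).1
        ((IsUltrametricDist.norm_add_le_max _ _).trans (max_le (hdiv x).1 (hdiv y).1))]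
      simp only [AddSubgroup.coe_add, Ux.val_add]
      rw [show ((x : Ux (PadicAlgCl q)).val * (y : Ux (PadicAlgCl q)).val - 1) / π ^ (a + 1) -
          (((x : Ux (PadicAlgCl q)).val - 1) / π ^ (a + 1) +
            ((y : Ux (PadicAlgCl q)).val - 1) / π ^ (a + 1)) =
          ((x : Ux (PadicAlgCl q)).val - 1) *
            (((y : Ux (PadicAlgCl q)).val - 1) / π ^ (a + 1)) by ring, norm_mul]
      exact lt_of_le_of_lt (mul_le_of_le_one_right (norm_nonneg _) (hdiv y).1)
        (lt_of_le_of_lt ((mem_nearF F).mp x.2).2 (unif_pow_lt_one F (by omega))))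
  have hsurj : Function.Surjective φ := by
    rintro ⟨_, y, hy, hy1, rfl⟩
    have hsmall : ‖π ^ (a + 1) * y‖ ≤ ‖π‖ ^ (a + 1) := by
      rw [norm_mul, norm_pow]; exact mul_le_of_le_one_right (pow_nonneg (norm_nonneg _) _) hy1
    have hne : 1 + π ^ (a + 1) * y ≠ 0 := fun h => by
      have := lt_of_le_of_lt hsmall (unif_pow_lt_one F (show 1 ≤ a + 1 by omega))
      rw [eq_neg_of_add_eq_zero_right h, norm_neg, norm_one] at this
      exact lt_irrefl _ this
    refine
      ⟨⟨Ux.mk _ hne, (mem_nearF F).mpr ⟨add_mem (one_mem F) (mul_mem (pow_mem (unif_mem F) _) hy),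
      by rw [Ux.val_mk, add_sub_cancel_left]; exact hsmall⟩⟩, Subtype.ext ?_⟩
    show res _ = res y
    rw [Ux.val_mk, add_sub_cancel_left, mul_div_cancel_left₀ _ (pow_ne_zero _ (unif_ne_zero F))]
  have hker : φ.ker = (nearF F (a + 1)).addSubgroupOf (nearF F a) := by
    ext x
    rw [AddMonoidHom.mem_ker, AddSubgroup.mem_addSubgroupOf, mem_nearF, Subtype.ext_iff]
    show res _ = 0 ↔ _
    rw [res_eq_zero_iff (hdiv x).1]
    obtain ⟨h1, h2⟩ := (mem_nearF F).mp x.2
    constructor
    · intro h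
      refine ⟨h1, ?_⟩
      have := norm_le_norm_unif F (hdiv x).2 h
      rw [norm_div, norm_pow, div_le_iff₀ (pow_pos (norm_unif_pos F) _), ← pow_succ'] at this
      exact this
    · intro h
      rw [norm_div, norm_pow, div_lt_one (pow_pos (norm_unif_pos F) _)]
      exact lt_of_le_of_lt h.2
        (pow_lt_pow_right_of_lt_one₀ (norm_unif_pos F) (norm_unif_lt_one F) (by omega))
  rw [AddSubgroup.relIndex, ← hker, AddSubgroup.index_ker,
    AddMonoidHom.range_eq_top.mpr hsurj, AddSubgroup.card_top, resCard]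

lemma relIndex_nearF_add (a c : ℕ) : (nearF F (a + c)).relIndex (nearF F a) = resCard F ^ c := by
  induction c with
  | zero => simp [AddSubgroup.relIndex_self]
  | succ c ih =>
    have hle : nearF F (a + c) ≤ nearF F a := by
      clear ih
      induction c with
      | zero => exact le_rfl
      | succ c ih' => exact (nearF_succ_le F (a + c)).trans ih'
    rw [pow_succ, ← ih, mul_comm, ← relIndex_nearF_succ F (a + c),
      AddSubgroup.relIndex_mul_relIndex _ _ _ (nearF_succ_le F (a + c)) hle, add_assoc]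

/-- The order of the `p`-th power quotient of small principal units. -/
def pIdx (p : ℕ) : ℕ := if p = q then q ^ Module.finrank ℚ_[q] F else 1

/-- The norm of a prime as a power of the uniformiser. -/
lemma exists_ord_natCast :
    ∃ c : ℕ, ‖(p : PadicAlgCl q)‖ = ‖unif F‖ ^ c ∧ resCard F ^ c = pIdx F p := by
  by_cases h : p = q
  · subst h
    refine ⟨ramIdx F, norm_q_eq F, ?_⟩
    rw [pIdx, if_pos rfl, finrank_eq, resCard_eq, ← pow_mul, mul_comm]
  · refine ⟨0, ?_, by rw [pIdx, if_neg h, pow_zero]⟩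
    rw [pow_zero, ← map_natCast (algebraMap ℚ_[q] (PadicAlgCl q)), PadicAlgCl.norm_extends,
      Padic.norm_natCast_eq_one_iff]
    exact (Nat.coprime_primes hq.out hp.out).mpr (Ne.symm h)

/-- Taking `p`-th powers shifts small balls of units. -/
lemma map_nsmul_nearF {a c : ℕ} (hc : ‖(p : PadicAlgCl q)‖ = ‖unif F‖ ^ c) (hac : c < a + 1) :
    (nearF F a).map (nsmulAddMonoidHom p) = nearF F (a + c) := by
  set r := ‖unif F‖ ^ (a + 1) with hrdef
  have hr0 : 0 < r := pow_pos (norm_unif_pos F) _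
  have hrp : r < ‖(p : PadicAlgCl q)‖ := by
    rw [hc]; exact pow_lt_pow_right_of_lt_one₀ (norm_unif_pos F) (norm_unif_lt_one F) hac
  have htarget : ‖unif F‖ ^ (a + c + 1) = r * ‖(p : PadicAlgCl q)‖ := by
    rw [hc, hrdef, ← pow_add]; congr 1; omega
  refine le_antisymm ?_ fun w hw => ?_
  · rintro _ ⟨x, hx, rfl⟩
    obtain ⟨h1, h2⟩ := (mem_nearF F).mp hx
    show p • x ∈ _
    refine (mem_nearF F).mpr ⟨by rw [Ux.val_nsmul]; exact pow_mem h1 p, ?_⟩
    rw [Ux.val_nsmul, htarget]
    rcases eq_or_ne (x.val - 1) 0 with h0 | h0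
    · rw [sub_eq_zero.mp h0, one_pow, sub_self, norm_zero]; positivity
    · have := norm_one_add_pow (lt_of_le_of_lt h2 hrp) h0
      rw [add_sub_cancel] at this
      rw [this, norm_mul, mul_comm r]
      exact mul_le_mul_of_nonneg_left h2 (norm_nonneg _)
  · obtain ⟨hwF, hw1⟩ := (mem_nearF F).mp hw
    rw [htarget] at hw1
    have := properSpace F
    set K : Set F := Metric.closedBall 1 r
    have hK : IsClosed ((fun z : F => (z : PadicAlgCl q) ^ p) '' K) :=
      ((isCompact_closedBall (1 : F) r).image (by fun_prop)).isClosed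
    set θ := r / ‖(p : PadicAlgCl q)‖
    have hθ : θ < 1 := (div_lt_one norm_natCast_prime_pos).mpr hrp
    have hθ0 : 0 ≤ θ := div_nonneg hr0.le (norm_nonneg _)
    have hr1 : r < 1 := unif_pow_lt_one F (by omega)
    have happ : ∀ n : ℕ, ∃ z : F, ‖(z : PadicAlgCl q) - 1‖ ≤ r ∧
        ‖(z : PadicAlgCl q) ^ p - w.val‖ ≤ r * ‖(p : PadicAlgCl q)‖ * θ ^ n := by
      intro n
      induction n with
      | zero =>
        exact ⟨1, by simpa using hr0.le, by simpa [norm_sub_rev] using hw1⟩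
      | succ n ih =>
        obtain ⟨z, hz1, hz⟩ := ih
        have hzn : ‖(z : PadicAlgCl q)‖ = 1 := norm_eq_one_of_sub_one_lt (lt_of_le_of_lt hz1 hr1)
        have hz0 : (z : PadicAlgCl q) ≠ 0 := norm_pos_iff.mp (hzn ▸ one_pos)
        set v := w.val / (z : PadicAlgCl q) ^ p
        set y := (v - 1) / (p : PadicAlgCl q)
        have hyF : y ∈ F :=
          div_mem (sub_mem (div_mem hwF (pow_mem z.2 p)) (one_mem F)) (natCast_mem F p)
        have hy : ‖y‖ ≤ r * θ ^ n := by
          rw [norm_div, div_le_iff₀ norm_natCast_prime_pos,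
            div_sub_one (pow_ne_zero p hz0), norm_div,
            norm_pow, hzn, one_pow, div_one, norm_sub_rev]
          linarith [mul_right_comm r ‖(p : PadicAlgCl q)‖ (θ ^ n)]
        have hyr : ‖y‖ ≤ r := hy.trans (mul_le_of_le_one_right hr0.le (pow_le_one₀ hθ0 hθ.le))
        refine ⟨z * (1 + ⟨y, hyF⟩), ?_, ?_⟩
        · show ‖(z : PadicAlgCl q) * (1 + y) - 1‖ ≤ r
          rw [show (z : PadicAlgCl q) * (1 + y) - 1 = ((z : PadicAlgCl q) - 1) +
              (z : PadicAlgCl q) * y by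
            ring]
          exact (IsUltrametricDist.norm_add_le_max _ _).trans
            (max_le hz1 (by rw [norm_mul, hzn, one_mul]; exact hyr))
        · show ‖((z : PadicAlgCl q) * (1 + y)) ^ p - w.val‖ ≤ _
          have e : ((z : PadicAlgCl q) * (1 + y)) ^ p - w.val =
              (z : PadicAlgCl q) ^ p * ((1 + y) ^ p - 1 - (p : PadicAlgCl q) * y) := by
            rw [show (p : PadicAlgCl q) * y = v - 1 from
              mul_div_cancel₀ _ (Nat.cast_ne_zero.mpr hp.out.ne_zero)]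
            rw [mul_pow, show (1 + y) ^ p - 1 - (v - 1) = (1 + y) ^ p - v by ring, mul_sub,
              show (z : PadicAlgCl q) ^ p * v = w.val from mul_div_cancel₀ _ (pow_ne_zero p hz0)]
          rw [e, norm_mul, norm_pow, hzn, one_pow, one_mul]
          refine (norm_one_add_pow_sub (hyr.trans hr1.le)).trans
            ((pow_le_pow_left₀ (norm_nonneg y) hy 2).trans ?_)
          have e2 : r * ‖(p : PadicAlgCl q)‖ * θ ^ (n + 1) = r ^ 2 * θ ^ n := by
            rw [pow_succ θ, ← mul_div_cancel₀ r (norm_natCast_prime_pos (q := q) (p := p)).ne']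
            simp only [θ]
            field_simp
          rw [e2, mul_pow, ← pow_mul θ]
          exact mul_le_mul_of_nonneg_left (pow_le_pow_of_le_one hθ0 hθ.le (by omega)) (sq_nonneg r)
    have hmem : w.val ∈ closure ((fun z : F => (z : PadicAlgCl q) ^ p) '' K) := by
      rw [Metric.mem_closure_iff]
      intro ε hε
      obtain ⟨n, hn⟩ := exists_pow_lt_of_lt_one (div_pos hε (mul_pos hr0 (norm_natCast_prime_pos
        (q := q) (p := p)))) hθ
      obtain ⟨z, hz1, hz⟩ := happ n
      refine ⟨_, ⟨z, by rw [Metric.mem_closedBall, dist_eq_norm]; exact hz1, rfl⟩, ?_⟩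
      rw [dist_comm, dist_eq_norm]
      refine lt_of_le_of_lt hz ?_
      rwa [lt_div_iff₀' (mul_pos hr0 norm_natCast_prime_pos)] at hn
    rw [hK.closure_eq] at hmem
    obtain ⟨z, hz, hzw⟩ := hmem
    rw [Metric.mem_closedBall, dist_eq_norm] at hz
    change ‖(z : PadicAlgCl q) - 1‖ ≤ r at hz
    have hz0 : (z : PadicAlgCl q) ≠ 0 :=
      norm_pos_iff.mp (norm_eq_one_of_sub_one_lt (lt_of_le_of_lt hz hr1) ▸ one_pos)
    exact ⟨Ux.mk _ hz0, (mem_nearF F).mpr ⟨z.2, hz⟩, Ux.ext (by
      show (p • Ux.mk _ hz0).val = _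
      rw [Ux.val_nsmul, Ux.val_mk]; exact hzw)⟩

/-- The index of `p`-th powers among small principal units. -/
lemma relIndex_pth_nearF {a : ℕ} (h : ‖unif F‖ ^ (a + 1) < ‖(p : PadicAlgCl q)‖) :
    ((nearF F a).map (nsmulAddMonoidHom p)).relIndex (nearF F a) = pIdx F p := by
  obtain ⟨c, hc, hcard⟩ := exists_ord_natCast (p := p) F
  have hac : c < a + 1 := by
    rw [hc] at h
    exact (pow_lt_pow_iff_right_of_lt_one₀ (norm_unif_pos F) (norm_unif_lt_one F)).mp h
  rw [map_nsmul_nearF F hc hac, relIndex_nearF_add, hcard]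

/-- Small principal units have finite index in the units. -/
lemma relIndex_nearF_unitsF (a : ℕ) : (nearF F a).relIndex (unitsF F) ≠ 0 := by
  have h0 : (nearF F 0).relIndex (unitsF F) ≠ 0 := by
    let φ : unitsF F →+ Additive (resField F)ˣ := AddMonoidHom.mk'
      (fun x => Additive.ofMul (Units.mk0
        ⟨res (x : Ux (PadicAlgCl q)).val,
          res_mem_resField F ((mem_unitsF F).mp x.2).1 ((mem_unitsF F).mp x.2).2.le⟩
        (fun h => by
          have h' := (res_eq_zero_iff ((mem_unitsF F).mp x.2).2.le).mp (congrArg Subtype.val h)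
          rw [((mem_unitsF F).mp x.2).2] at h'
          exact lt_irrefl _ h')))
      fun x y => Additive.toMul.injective (Units.ext (Subtype.ext (by
        show res _ = res _ * res _
        rw [AddSubgroup.coe_add, Ux.val_add,
          res_mul ((mem_unitsF F).mp x.2).2.le ((mem_unitsF F).mp y.2).2.le])))
    have hker : φ.ker = (nearF F 0).addSubgroupOf (unitsF F) := by
      ext x
      obtain ⟨hxF, hx1⟩ := (mem_unitsF F).mp x.2
      rw [AddMonoidHom.mem_ker, AddSubgroup.mem_addSubgroupOf, mem_nearF,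
        ← Additive.toMul.injective.eq_iff, Units.ext_iff, Subtype.ext_iff]
      show res _ = 1 ↔ _
      rw [← res_one, res_eq_res_iff hx1.le norm_one.le, zero_add, pow_one]
      exact ⟨fun h => ⟨hxF, norm_le_norm_unif F (sub_mem hxF (one_mem F)) h⟩,
        fun h => lt_of_le_of_lt h.2 (norm_unif_lt_one F)⟩
    rw [AddSubgroup.relIndex, ← hker, AddSubgroup.index_ker]
    exact Nat.card_pos.ne'
  have h1 := relIndex_nearF_add F 0 a
  rw [zero_add] at h1
  rw [← AddSubgroup.relIndex_mul_relIndex (nearF F a) (nearF F 0) (unitsF F) ?_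
    (nearF_le_unitsF F 0),
    h1]
  · exact mul_ne_zero (pow_ne_zero _ (one_lt_resCard F).ne_bot) h0
  · intro x hx
    obtain ⟨hx1, hx2⟩ := (mem_nearF F).mp hx
    exact (mem_nearF F).mpr
      ⟨hx1, hx2.trans (pow_le_pow_of_le_one (norm_nonneg _) (norm_unif_lt_one F).le (by omega))⟩

end Local

end FermatAgent.CFT
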