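import Fermat.Agent.CFT.Field.Hilbert
import Fermat.Agent.CFT.Local.UnitIndex

/-!
The norm index of a cyclic extension of prime degree of local fields, and the index of `p`-th
powers.
-/

set_option autoImplicit false

noncomputable section

open scoped Classical

namespace FermatAgent.CFT

open Coh

namespace Coh

variable {Γ : Type*} [Group Γ] {L : Levels Γ} {W : Subgroup Γ} {n : ℕ}

/-- The kernel of a surjective character has index `n`. -/
lemma CycChar.relIndex_ker [NeZero n] (χ : CycChar L W n) {σ : Γ} (hσ : σ ∈ W) (hσ1 : χ σ = 1) :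
    χ.ker.relIndex W = n := by
  let φ : W →* Multiplicative (ZMod n) := MonoidHom.mk' (fun g => Multiplicative.ofAdd (χ g))
    fun g h => congrArg Multiplicative.ofAdd (χ.map_mul g.2 h.2)
  have hker : φ.ker = χ.ker.subgroupOf W := by
    ext g
    rw [MonoidHom.mem_ker, Subgroup.mem_subgroupOf, CycChar.mem_ker]
    exact ⟨fun h => ⟨g.2, h⟩, fun h => congrArg Multiplicative.ofAdd h.2⟩
  have hsurj : Function.Surjective φ := fun z =>
      ⟨⟨σ ^ (Multiplicative.toAdd z).val, pow_mem hσ _⟩, by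
    show Multiplicative.ofAdd (χ (σ ^ _)) = z
    rw [χ.map_pow hσ, hσ1, mul_one, ZMod.natCast_zmod_val]
    rfl⟩
  rw [Subgroup.relIndex, ← hker, Subgroup.index_ker, MonoidHom.range_eq_top.mpr hsurj,
    Subgroup.card_top, Nat.card_congr Multiplicative.toAdd, Nat.card_zmod]

variable {A : Type*} [AddCommGroup A] {f g : A →+ A} {B X : AddSubgroup A}

lemma qIdx_ne_zero (h : B.relIndex X ≠ 0) : qIdx f g B X ≠ 0 := by
  have h1 : B.relIndex (X ⊓ B.comap f) ≠ 0 :=
    fun h0 => h (AddSubgroup.relIndex_eq_zero_of_le_right inf_le_left h0)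
  exact fun h0 => h1 (AddSubgroup.relIndex_eq_zero_of_le_left le_sup_right h0)

lemma hIdx_dvd_of_fixed {p : ℕ} (h : (X ⊓ f.ker).map (nsmulAddMonoidHom p) ≤ X.map g) :
    hIdx f g X ∣ ((X ⊓ f.ker).map (nsmulAddMonoidHom p)).relIndex (X ⊓ f.ker) :=
  AddSubgroup.relIndex_dvd_of_le_left _ h

lemma hIdx_zero_left (g : A →+ A) (X : AddSubgroup A) :
    hIdx 0 g X = (X.map g).relIndex X := by
  rw [hIdx, AddMonoidHom.ker_zero, inf_top_eq]

lemma hIdx_zero_right (f : A →+ A) (X : AddSubgroup A) :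
    hIdx f 0 X = Nat.card ↥(X ⊓ f.ker) := by
  rw [hIdx, AddSubgroup.map_zero_eq_bot, AddSubgroup.relIndex_bot_left]

variable {p : ℕ} [hp : Fact p.Prime]

omit [AddCommGroup A] hp in
/-- Multiples of `p` have index `p` in an infinite cyclic group. -/
lemma relIndex_zmultiples_nsmul {C : Type*} [AddCommGroup C] {c : C}
    (hc : ∀ n : ℤ, n • c = 0 → n = 0) :
    ((AddSubgroup.zmultiples c).map (nsmulAddMonoidHom p)).relIndex
      (AddSubgroup.zmultiples c) = p := by
  have hinj : Function.Injective (zmultiplesHom C c) := (injective_iff_map_eq_zero _).mpr hc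
  have e1 : AddSubgroup.zmultiples c = (⊤ : AddSubgroup ℤ).map (zmultiplesHom C c) := by
    ext x; simp [AddSubgroup.mem_zmultiples_iff]
  have e2 : (AddSubgroup.zmultiples c).map (nsmulAddMonoidHom p) =
      (AddSubgroup.zmultiples (p : ℤ)).map (zmultiplesHom C c) := by
    rw [AddMonoidHom.map_zmultiples, AddMonoidHom.map_zmultiples]
    congr 1
    simp
  rw [e2, e1, AddSubgroup.relIndex_map_map_of_injective _ _ hinj, AddSubgroup.relIndex_top_right,
    Int.index_zmultiples, Int.natAbs_natCast]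

end Coh

namespace Local

variable {q : ℕ} [hq : Fact q.Prime] {p : ℕ} [hp : Fact p.Prime]
  (F : IntermediateField ℚ_[q] (PadicAlgCl q)) [FiniteDimensional ℚ_[q] F]

/-- The multiplicative group of `F`. -/
abbrev starF : AddSubgroup (Ux (PadicAlgCl q)) := fixedUx F.fixingSubgroup

/-- The uniformiser as an element of the module. -/
def unifUx : Ux (PadicAlgCl q) := Ux.mk (unif F) (unif_ne_zero F)

/-- The norms of the field are the powers of that of the uniformiser. -/
lemma map_normHom_starF : (starF F).map normHom = AddSubgroup.zmultiples (normHom (unifUx F)) := by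
  refine le_antisymm ?_ ((AddSubgroup.zmultiples_le).mpr
    ⟨unifUx F, mem_fixedUx_fixingSubgroup.mpr (unif_mem F), rfl⟩)
  rintro _ ⟨a, ha, rfl⟩
  refine AddSubgroup.mem_zmultiples_iff.mpr ⟨ord F a.val, ?_⟩
  rw [← map_zsmul, normHom_eq_iff, Ux.val_zsmul, norm_zpow]
  exact (norm_eq_zpow_ord F (mem_fixedUx_fixingSubgroup.mp ha) a.val_ne_zero).symm

/-- The uniformiser has infinite order in norms. -/
lemma zsmul_normHom_unif (n : ℤ) (h : n • normHom (unifUx F) = 0) : n = 0 := by
  rw [← map_zsmul, normHom_eq_zero, Ux.val_zsmul, norm_zpow] at h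
  exact (zpow_eq_one_iff_right₀ (norm_nonneg _) (norm_unif_lt_one F).ne).mp h

omit [FiniteDimensional ℚ_[q] ↥F] in
/-- Units are the kernel of the norm. -/
lemma unitsF_eq : unitsF F = starF F ⊓ (normHom (q := q)).ker := rfl

/-- Some power of the uniformiser is smaller than `p`. -/
lemma exists_small (p : ℕ) [Fact p.Prime] :
    ∃ a : ℕ, ‖unif F‖ ^ (a + 1) < ‖(p : PadicAlgCl q)‖ := by
  obtain ⟨a, ha⟩ := exists_pow_lt_of_lt_one (norm_natCast_prime_pos (q := q) (p := p))
    (norm_unif_lt_one F)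
  exact ⟨a, lt_of_le_of_lt (pow_le_pow_of_le_one (norm_nonneg _) (norm_unif_lt_one F).le
    (Nat.le_succ a)) ha⟩

omit hp [FiniteDimensional ℚ_[q] ↥F] in
/-- The index of `p` is not zero. -/
lemma pIdx_ne_zero : pIdx F p ≠ 0 := by
  rw [pIdx]; split_ifs
  · exact pow_ne_zero _ hq.out.ne_zero
  · exact one_ne_zero

omit hp in
lemma normHom_nsmulHom (a : Ux (PadicAlgCl q)) :
    normHom ((nsmulAddMonoidHom p : Ux (PadicAlgCl q) →+ _) a) =
      (nsmulAddMonoidHom p : Additive ℝˣ →+ _) (normHom a) := by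
  simp only [nsmulAddMonoidHom_apply, map_nsmul]

omit hp in
lemma map_nsmul_le (Y : AddSubgroup (Ux (PadicAlgCl q))) : Y.map (nsmulAddMonoidHom p) ≤ Y := by
  rintro _ ⟨a, ha, rfl⟩; exact nsmul_mem ha p

omit hq hp in
/-- Units have finitely many elements killed by `p`. -/
lemma finite_pTorsion {Ω : Type} [Field Ω] {p : ℕ} [Fact p.Prime] (Y : AddSubgroup (Ux Ω)) :
    Finite ↥(Y ⊓ (nsmulAddMonoidHom p : Ux Ω →+ Ux Ω).ker) := by
  set S : AddSubgroup (Ux Ω) := Y ⊓ (nsmulAddMonoidHom p : Ux Ω →+ Ux Ω).ker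
  have hsub : Set.InjOn (Ux.val (Ω := Ω)) (S : Set (Ux Ω)) := fun x _ y _ hxy => Ux.ext hxy
  refine (Set.Finite.of_finite_image ?_ hsub).to_subtype
  refine (Polynomial.nthRootsFinset p (1 : Ω)).finite_toSet.subset ?_
  rintro _ ⟨x, hx, rfl⟩
  rw [Finset.mem_coe, Polynomial.mem_nthRootsFinset (Fact.out : p.Prime).pos, ← Ux.val_nsmul,
    show p • x = 0 from hx.2, Ux.val_zero]

/-- The index of `p`-th powers in the units of `F`. -/
lemma relIndex_pth_unitsF : ((unitsF F).map (nsmulAddMonoidHom p)).relIndex (unitsF F) =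
    pIdx F p * Nat.card ↥(unitsF F ⊓ (nsmulAddMonoidHom p : Ux (PadicAlgCl q) →+ _).ker) := by
  obtain ⟨a, ha⟩ := exists_small F p
  set P : Ux (PadicAlgCl q) →+ Ux (PadicAlgCl q) := nsmulAddMonoidHom p
  have hB : hIdx P 0 (nearF F a) = 1 := by
    rw [hIdx_zero_right, AddSubgroup.card_eq_one, AddSubgroup.eq_bot_iff_forall]
    exact fun x hx => nearUx_torsionFree ha hx.1.2 hx.2
  have hB' : hIdx 0 P (nearF F a) = pIdx F p := by
    rw [hIdx_zero_left, relIndex_pth_nearF F ha]
  have hfin := relIndex_nearF_unitsF F a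
  have h := hIdx_mul (f := P) (g := 0) (B := nearF F a) (X := unitsF F)
    (fun _ _ => map_zero P) (fun _ _ => rfl) (map_nsmul_le _)
    (by rw [AddSubgroup.map_zero_eq_bot]; exact bot_le) (map_nsmul_le _)
    (by rw [AddSubgroup.map_zero_eq_bot]; exact bot_le) (nearF_le_unitsF F a)
  rw [qIdx_eq_qIdx_swap (f := P) (g := 0) (fun _ _ => map_zero P) (fun _ _ => rfl) (map_nsmul_le _)
    (by rw [AddSubgroup.map_zero_eq_bot]; exact bot_le) (map_nsmul_le _)
    (by rw [AddSubgroup.map_zero_eq_bot]; exact bot_le) (nearF_le_unitsF F a) hfin,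
    hB, hB', one_mul,
    hIdx_zero_left, hIdx_zero_right] at h
  refine Nat.eq_of_mul_eq_mul_left (Nat.pos_of_ne_zero (qIdx_ne_zero hfin)) (h.trans ?_)
  ring

/-- The index of `p`-th powers in the multiplicative group of `F`. -/
theorem relIndex_pth_starF : ((starF F).map (nsmulAddMonoidHom p)).relIndex (starF F) =
    p * pIdx F p * Nat.card ↥(starF F ⊓ (nsmulAddMonoidHom p : Ux (PadicAlgCl q) →+ _).ker) := by
  set P : Ux (PadicAlgCl q) →+ Ux (PadicAlgCl q) := nsmulAddMonoidHom p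
  have h := hIdx_mul (f := P) (g := 0) (B := unitsF F) (X := starF F)
    (fun _ _ => map_zero P) (fun _ _ => rfl) (map_nsmul_le _)
    (by rw [AddSubgroup.map_zero_eq_bot]; exact bot_le) (map_nsmul_le _)
    (by rw [AddSubgroup.map_zero_eq_bot]; exact bot_le) inf_le_left
  have q1 : qIdx P 0 (unitsF F) (starF F) = 1 := by
    rw [qIdx_eq_of_map (f := P) (g := 0) normHom (nsmulAddMonoidHom p) 0
      (fun a _ => normHom_nsmulHom a)
      (fun a _ => by simp only [AddMonoidHom.zero_apply, map_zero])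
      (by rw [AddSubgroup.map_zero_eq_bot]; exact bot_le)
      (unitsF_eq F) (map_nsmul_le _), hIdx_zero_right, AddSubgroup.card_eq_one,
      AddSubgroup.eq_bot_iff_forall, map_normHom_starF]
    rintro x ⟨hx, hx'⟩
    obtain ⟨n, rfl⟩ := AddSubgroup.mem_zmultiples_iff.mp hx
    have h0 := zsmul_normHom_unif F ((p : ℤ) * n) (by
      rw [mul_smul, natCast_zsmul]; exact hx')
    rw [(mul_eq_zero.mp h0).resolve_left (Nat.cast_ne_zero.mpr hp.out.ne_zero), zero_smul]
  have q2 : qIdx 0 P (unitsF F) (starF F) = p := by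
    rw [qIdx_eq_of_map (f := 0) (g := P) normHom 0 (nsmulAddMonoidHom p)
      (fun a _ => by simp only [AddMonoidHom.zero_apply, map_zero])
      (fun a _ => normHom_nsmulHom a) (map_nsmul_le _) (unitsF_eq F)
      (by rw [AddSubgroup.map_zero_eq_bot]; exact bot_le), hIdx_zero_left, map_normHom_starF,
      relIndex_zmultiples_nsmul (zsmul_normHom_unif F)]
  rw [q1, q2, hIdx_zero_left, hIdx_zero_left, hIdx_zero_right, hIdx_zero_right, mul_one,
    relIndex_pth_unitsF] at h
  refine Nat.eq_of_mul_eq_mul_left (Nat.pos_of_ne_zero (n := Nat.card ↥(unitsF F ⊓ P.ker)) ?_)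
    (h.trans (by ring))
  intro h0
  have : Finite ↥(unitsF F ⊓ P.ker) := finite_pTorsion (unitsF F)
  exact (Nat.card_pos (α := ↥(unitsF F ⊓ P.ker))).ne' h0

section Cyclic

variable {F} (χ : CycChar (galLevels ℚ_[q] (PadicAlgCl q)) F.fixingSubgroup p)
  {σ : Gal' q}

/-- The action of an element on the module. -/
abbrev actHom (σ : Gal' q) : Ux (PadicAlgCl q) →+ Ux (PadicAlgCl q) :=
  DistribSMul.toAddMonoidHom _ σ

omit hp in
lemma iterate_actHom (σ : Gal' q) (i : ℕ) (a : Ux (PadicAlgCl q)) :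
    (actHom σ)^[i] a = σ ^ i • a :=
  smul_iterate_apply σ i a

omit hp in
lemma traceEnd_actHom (σ : Gal' q) (n : ℕ) (a : Ux (PadicAlgCl q)) :
    traceEnd (actHom σ) n a = cycNorm σ n a := by
  rw [traceEnd_apply, cycNorm_apply]
  exact Finset.sum_congr rfl fun i _ => iterate_actHom σ i a

variable (hσ : σ ∈ F.fixingSubgroup) (hσ1 : χ σ = 1)

omit [FiniteDimensional ℚ_[q] ↥F] hp in
lemma actHom_mem {a : Ux (PadicAlgCl q)} (ha : a ∈ fixedUx χ.ker) (hσ : σ ∈ F.fixingSubgroup) :
    actHom σ a ∈ fixedUx χ.ker :=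
  smul_ker_fixed χ ha hσ

omit [FiniteDimensional ℚ_[q] ↥F] in
include hσ hσ1 in
lemma fixed_inf_ker_diffEnd :
    fixedUx χ.ker ⊓ (diffEnd (actHom σ)).ker = starF F := by
  refine le_antisymm ?_ fun a ha => ⟨fun s hs => ha s hs.1, ?_⟩
  · rintro a ⟨ha, ha'⟩ g hg
    rw [smul_eq_pow_smul χ hσ hσ1 ha hg, ← iterate_actHom]
    exact Function.iterate_fixed (sub_eq_zero.mp ha') _
  · show σ • a - a = 0
    rw [ha σ hσ, sub_self]

include hσ hσ1 in
/-- Elements of norm zero are `σ b - b`. -/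
lemma exists_smul_sub_of_norm_eq_zero {a : Ux (PadicAlgCl q)} (ha : a ∈ fixedUx χ.ker)
    (hn : cycNorm σ p a = 0) : ∃ b ∈ fixedUx χ.ker, σ • b - b = a := by
  have : Fact (1 < p) := ⟨hp.out.one_lt⟩
  exact Ux.exists_smul_sub χ (fixingSubgroup_mem_galLevels F) hσ hσ1 ha hn

include hσ hσ1 in
lemma finrank_fixedField_ker :
    Module.finrank ℚ_[q] (IntermediateField.fixedField χ.ker) = p * Module.finrank ℚ_[q] F := by
  rw [IntermediateField.finrank_eq_fixingSubgroup_index,
    IntermediateField.finrank_eq_fixingSubgroup_index,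
    fixingSubgroup_fixedField_of_mem (χ.ker_mem (fixingSubgroup_mem_galLevels F))]
  rw [← Subgroup.relIndex_mul_index χ.ker_le, χ.relIndex_ker hσ hσ1]

omit hp in
/-- A stable subgroup is mapped into itself by the difference. -/
private lemma map_diffEnd_le {Y : AddSubgroup (Ux (PadicAlgCl q))}
    (hY : ∀ a ∈ Y, actHom σ a ∈ Y) : Y.map (diffEnd (actHom σ)) ≤ Y := by
  rintro _ ⟨a, ha, rfl⟩; exact sub_mem (hY a ha) ha

omit hp in
/-- A stable subgroup is mapped into itself by the trace. -/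
private lemma map_traceEnd_le {Y : AddSubgroup (Ux (PadicAlgCl q))}
    (hY : ∀ a ∈ Y, actHom σ a ∈ Y) : Y.map (traceEnd (actHom σ) p) ≤ Y := by
  rintro _ ⟨a, ha, rfl⟩
  rw [traceEnd_apply]
  exact sum_mem fun i _ => iterate_mem hY ha i

omit hp in
/-- On fixed elements the trace is multiplication by `p`. -/
private lemma map_nsmul_fixed_le (Y : AddSubgroup (Ux (PadicAlgCl q))) :
    (Y ⊓ (diffEnd (actHom σ)).ker).map (nsmulAddMonoidHom p) ≤
      Y.map (traceEnd (actHom σ) p) := by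
  rintro _ ⟨b, ⟨hb, hb'⟩, rfl⟩
  refine ⟨b, hb, ?_⟩
  rw [traceEnd_apply]
  simp only [Function.iterate_fixed (sub_eq_zero.mp hb'), Finset.sum_const, Finset.card_range]
  rfl

omit hp in
/-- The action preserves the valuation. -/
private lemma normHom_actHom (a : Ux (PadicAlgCl q)) : normHom (actHom σ a) = normHom a :=
  normHom_eq_iff.mpr (by
    show ‖(σ • a).val‖ = _
    rw [Ux.val_smul, norm_apply])

include hσ hσ1 in
/-- Small units of the extension: a stable subgroup with trivial Herbrand quotient. -/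
private lemma exists_small_units [FiniteDimensional ℚ_[q] (IntermediateField.fixedField χ.ker)]
    (hX : starF (IntermediateField.fixedField χ.ker) = fixedUx χ.ker)
    (hper : ∀ a ∈ starF (IntermediateField.fixedField χ.ker), (actHom σ)^[p] a = a)
    (hσX : ∀ a ∈ starF (IntermediateField.fixedField χ.ker),
      actHom σ a ∈ starF (IntermediateField.fixedField χ.ker)) :
    ∃ a' : ℕ,
      (∀ x ∈ nearF (IntermediateField.fixedField χ.ker) a',
        actHom σ x ∈ nearF (IntermediateField.fixedField χ.ker) a') ∧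
      hIdx (diffEnd (actHom σ)) (traceEnd (actHom σ) p)
          (nearF (IntermediateField.fixedField χ.ker) a') =
        hIdx (traceEnd (actHom σ) p) (diffEnd (actHom σ))
          (nearF (IntermediateField.fixedField χ.ker) a') ∧
      hIdx (diffEnd (actHom σ)) (traceEnd (actHom σ) p)
          (nearF (IntermediateField.fixedField χ.ker) a') ≠ 0 := by
  set F' := IntermediateField.fixedField χ.ker
  set D := diffEnd (actHom σ)
  set T := traceEnd (actHom σ) p
  obtain ⟨a, ha⟩ := exists_small F p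
  have hπF' : unif F ∈ F' := fun g =>
    (IntermediateField.mem_fixingSubgroup_iff F g.1).mp (χ.ker_le g.2) _ (unif_mem F)
  set e := (ord F' (unif F)).toNat
  have he : ‖unif F‖ = ‖unif F'‖ ^ e ∧ 1 ≤ e := by
    have h1 := (one_le_ord_iff F' hπF' (unif_ne_zero F)).mpr (norm_unif_lt_one F)
    refine ⟨?_, by omega⟩
    rw [norm_eq_zpow_ord F' hπF' (unif_ne_zero F), ← zpow_natCast, Int.toNat_of_nonneg (by omega)]
  obtain ⟨a', ha'⟩ : ∃ a', a' + 1 = e * (a + 1) :=
    ⟨e * (a + 1) - 1, Nat.sub_add_cancel (Nat.mul_pos he.2 (Nat.succ_pos a))⟩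
  have hr : ‖unif F'‖ ^ (a' + 1) = ‖unif F‖ ^ (a + 1) := by rw [ha', pow_mul, ← he.1]
  set Y := nearF F' a'
  have hσY : ∀ x ∈ Y, actHom σ x ∈ Y := fun x hx => by
    obtain ⟨h1, h2⟩ := hx
    refine ⟨hσX x h1, ?_⟩
    show ‖(σ • x).val - 1‖ ≤ _
    rw [Ux.val_smul, ← map_one σ, ← map_sub, norm_apply]
    exact h2
  have hYle : Y ≤ starF F' := inf_le_left
  have hYfix : Y ⊓ D.ker = nearF F a := by
    ext x
    constructor
    · rintro ⟨⟨h1, h2⟩, h3⟩
      refine ⟨?_, ?_⟩
      · show x ∈ starF F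
        rw [← fixed_inf_ker_diffEnd χ hσ hσ1, ← hX]
        exact ⟨h1, h3⟩
      · show ‖x.val - 1‖ ≤ _
        rw [← hr]; exact h2
    · rintro ⟨h1, h2⟩
      have h1' : x ∈ fixedUx χ.ker ⊓ (diffEnd (actHom σ)).ker := by
        rw [fixed_inf_ker_diffEnd χ hσ hσ1]; exact h1
      refine ⟨⟨?_, ?_⟩, h1'.2⟩
      · show x ∈ starF F'
        rw [hX]; exact h1'.1
      · show ‖x.val - 1‖ ≤ _
        rw [hr]; exact h2
  have hsmall : ‖unif F'‖ ^ (a' + 1) < ‖(p : PadicAlgCl q)‖ := hr ▸ ha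
  have hpidx : pIdx F' p = pIdx F p ^ p := by
    unfold pIdx
    split_ifs with h
    · rw [finrank_fixedField_ker χ hσ hσ1, ← pow_mul, mul_comm]
    · rw [one_pow]
  have hlat := hIdx_lattice (σ := actHom σ) (p := p) hσY (fun x hx => hper x (hYle hx))
    (fun x hx h => nearUx_torsionFree hsmall hx.2 h)
    (by rw [relIndex_pth_nearF F' hsmall]; exact pIdx_ne_zero F')
  rw [relIndex_pth_nearF F' hsmall, hYfix, relIndex_pth_nearF F ha, hpidx] at hlat
  have hY : hIdx D T Y = hIdx T D Y :=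
    Nat.pow_left_injective (by have := hp.out.two_le; omega)
      (Nat.eq_of_mul_eq_mul_right (Nat.pos_of_ne_zero (pow_ne_zero _ (pIdx_ne_zero F))) hlat)
  have hY0 : hIdx D T Y ≠ 0 := by
    refine ne_zero_of_dvd_ne_zero ?_ (hIdx_dvd_of_fixed (p := p) (map_nsmul_fixed_le Y))
    rw [hYfix, relIndex_pth_nearF F ha]
    exact pIdx_ne_zero F
  exact ⟨a', hσY, hY, hY0⟩

/-- Indices of the units in the multiplicative group for the two Herbrand maps. -/
private lemma qIdx_units_starF (F' : IntermediateField ℚ_[q] (PadicAlgCl q))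
    [FiniteDimensional ℚ_[q] F'] (hσX : ∀ a ∈ starF F', actHom σ a ∈ starF F') :
    qIdx (diffEnd (actHom σ)) (traceEnd (actHom σ) p) (unitsF F') (starF F') = p ∧
      qIdx (traceEnd (actHom σ) p) (diffEnd (actHom σ)) (unitsF F') (starF F') = 1 := by
  set D := diffEnd (actHom σ)
  set T := traceEnd (actHom σ) p
  have hTY := map_traceEnd_le (p := p) hσX
  have hDY := map_diffEnd_le hσX
  have hD0 : ∀ x ∈ starF F', normHom (D x) = (0 : Additive ℝˣ →+ Additive ℝˣ) (normHom x) :=
    fun x _ => by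
      rw [diffEnd_apply, map_sub, normHom_actHom, sub_self]; rfl
  have hTp : ∀ x ∈ starF F', normHom (T x) = (nsmulAddMonoidHom p) (normHom x) := fun x _ => by
    rw [traceEnd_apply, map_sum]
    have : ∀ i, normHom ((actHom σ)^[i] x) = normHom x := fun i => by
      induction i with
      | zero => rfl
      | succ i ih => rw [Function.iterate_succ_apply', normHom_actHom, ih]
    simp [this]
  constructor
  · rw [qIdx_eq_of_map normHom 0 (nsmulAddMonoidHom p) hD0 hTp hTY (unitsF_eq F')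
      hDY, hIdx_zero_left, map_normHom_starF, relIndex_zmultiples_nsmul (zsmul_normHom_unif F')]
  · rw [qIdx_eq_of_map normHom (nsmulAddMonoidHom p) 0 hTp hD0 hDY (unitsF_eq F')
      hTY, hIdx_zero_right, AddSubgroup.card_eq_one, AddSubgroup.eq_bot_iff_forall,
      map_normHom_starF]
    rintro x ⟨hx, hx'⟩
    obtain ⟨n, rfl⟩ := AddSubgroup.mem_zmultiples_iff.mp hx
    have h0 := zsmul_normHom_unif F' ((p : ℤ) * n) (by
      rw [mul_smul, natCast_zsmul]; exact hx')
    rw [(mul_eq_zero.mp h0).resolve_left (Nat.cast_ne_zero.mpr hp.out.ne_zero), zero_smul]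

include hσ hσ1 in
/-- The norm index of a cyclic extension of prime degree. -/
theorem norm_index :
    ((fixedUx χ.ker).map (cycNorm σ p)).relIndex (starF F) = p := by
  have hWk := χ.ker_mem (fixingSubgroup_mem_galLevels F)
  set F' := IntermediateField.fixedField χ.ker
  have : FiniteDimensional ℚ_[q] F' := finiteDimensional_fixedField hWk
  have hker : F'.fixingSubgroup = χ.ker := fixingSubgroup_fixedField_of_mem hWk
  have hX : starF F' = fixedUx χ.ker := by rw [starF, hker]
  set D := diffEnd (actHom σ)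
  set T := traceEnd (actHom σ) p
  set P : Ux (PadicAlgCl q) →+ Ux (PadicAlgCl q) := nsmulAddMonoidHom p
  have hT : T = cycNorm σ p := AddMonoidHom.ext (traceEnd_actHom σ p)
  have hper : ∀ a ∈ starF F', (actHom σ)^[p] a = a := fun a ha => by
    rw [iterate_actHom]
    exact (hX ▸ ha) _ (pow_period_mem_ker χ hσ hσ1)
  have hσX : ∀ a ∈ starF F', actHom σ a ∈ starF F' := fun a ha => by
    rw [hX] at ha ⊢
    exact actHom_mem χ ha hσ
  have hσU : ∀ a ∈ unitsF F', actHom σ a ∈ unitsF F' := fun a ha => ⟨hσX a ha.1, by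
    show normHom (actHom σ a) = 0
    rw [normHom_actHom]; exact ha.2⟩
  have hDT : ∀ Y, Y ≤ starF F' → ∀ a ∈ Y, D (T a) = 0 := fun Y hY a ha => by
    rw [diffEnd_traceEnd, hper a (hY ha), sub_self]
  have hTD : ∀ Y, Y ≤ starF F' → ∀ a ∈ Y, T (D a) = 0 := fun Y hY a ha => by
    rw [traceEnd_diffEnd, hper a (hY ha), sub_self]
  -- the small units
  obtain ⟨a', hσY, hY, hY0⟩ := exists_small_units χ hσ hσ1 hX hper hσX
  set Y := nearF F' a'
  -- the units
  set U := unitsF F'
  have hUle : U ≤ starF F' := inf_le_left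
  have hfin := relIndex_nearF_unitsF F' a'
  have hDU := map_diffEnd_le hσU
  have hTU := map_traceEnd_le (p := p) hσU
  have hDY := map_diffEnd_le hσY
  have hTY := map_traceEnd_le (p := p) hσY
  have hU := hIdx_mul (hDT U hUle) (hTD U hUle) hDU hTU hDY hTY
    (nearF_le_unitsF F' a')
  rw [← qIdx_eq_qIdx_swap (hDT U hUle) (hTD U hUle) hDU hTU hDY hTY
    (nearF_le_unitsF F' a') hfin, ← hY] at hU
  have hUeq : hIdx T D U = hIdx D T U :=
    Nat.eq_of_mul_eq_mul_left (Nat.pos_of_ne_zero (mul_ne_zero hY0 (qIdx_ne_zero hfin))) hU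
  have hU0 : hIdx D T U ≠ 0 := by
    refine ne_zero_of_dvd_ne_zero ?_ (hIdx_dvd_of_fixed (p := p) (map_nsmul_fixed_le U))
    have : U ⊓ D.ker = unitsF F := by
      show starF F' ⊓ unitsUx q ⊓ D.ker = starF F ⊓ unitsUx q
      rw [inf_right_comm, hX, fixed_inf_ker_diffEnd χ hσ hσ1]
    rw [this, relIndex_pth_unitsF]
    refine mul_ne_zero (pIdx_ne_zero F) ?_
    have : Finite ↥(unitsF F ⊓ P.ker) := finite_pTorsion (unitsF F)
    exact Nat.card_pos.ne'
  -- the valuation
  have hS := hIdx_mul (hDT (starF F') le_rfl) (hTD (starF F') le_rfl) (map_diffEnd_le hσX)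
    (map_traceEnd_le hσX) hDU hTU hUle
  obtain ⟨q1, q2⟩ := qIdx_units_starF (p := p) F' hσX
  have h90 : hIdx T D (starF F') = 1 := by
    rw [hIdx, AddSubgroup.relIndex_eq_one]
    rintro x ⟨hx, hx'⟩
    obtain ⟨b, hb, hbx⟩ := exists_smul_sub_of_norm_eq_zero χ hσ hσ1 (hX ▸ hx)
      (by rw [← hT]; exact hx')
    exact ⟨b, hX.symm ▸ hb, hbx⟩
  rw [q1, q2, h90, mul_one, mul_one, hUeq] at hS
  have hfinal : hIdx D T (starF F') = p :=
    (Nat.eq_of_mul_eq_mul_left (Nat.pos_of_ne_zero hU0) hS).symm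
  rw [hIdx, hX, hT, fixed_inf_ker_diffEnd χ hσ hσ1] at hfinal
  exact hfinal

end Cyclic

end Local

end FermatAgent.CFT
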