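import Fermat.Agent.CFT.Field.GaloisModule

/-!
Norms, uniformisers and residues of finite extensions of `ℚ_q` inside the algebraic closure.

For a finite extension `F` of `ℚ_q` inside `PadicAlgCl q`: the residue map `res` on the algebraic
closure, a uniformiser `unif F`, the normalised valuation `ord` with `norm_eq_zpow_ord`, and the
residue field `resField F` of cardinality `resCard F`, a power of `q` (`exists_resCard_eq_pow`), cut
out by Frobenius (`mem_resField_iff`).
Galois elements preserve norms and orders (`norm_apply`, `ord_apply`).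
-/

set_option autoImplicit false

noncomputable section

open scoped Classical

namespace FermatAgent.CFT.Local

variable {q : ℕ} [hq : Fact q.Prime]

/-- The Galois group of `ℚ_q`. -/
abbrev Gal' (q : ℕ) [Fact q.Prime] : Type := PadicAlgCl q ≃ₐ[ℚ_[q]] PadicAlgCl q

/-- Galois elements preserve the norm. -/
lemma norm_apply (σ : Gal' q) (x : PadicAlgCl q) : ‖σ x‖ = ‖x‖ :=
  (spectralNorm_eq_of_equiv σ x).symm

/-- The norm of the prime. -/
lemma norm_q : ‖(q : PadicAlgCl q)‖ = (q : ℝ)⁻¹ := by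
  rw [← map_natCast (algebraMap ℚ_[q] (PadicAlgCl q)), PadicAlgCl.norm_extends, Padic.norm_p]

/-- The norm of the prime is positive. -/
lemma norm_q_pos : 0 < ‖(q : PadicAlgCl q)‖ := by
  rw [norm_q]; exact inv_pos.mpr (Nat.cast_pos.mpr hq.out.pos)

/-- The norm of the prime is less than one. -/
lemma norm_q_lt_one : ‖(q : PadicAlgCl q)‖ < 1 := by
  rw [norm_q]; exact inv_lt_one_of_one_lt₀ (by exact_mod_cast hq.out.one_lt)

/-! ### Residues -/

/-- The ring of integers of the algebraic closure. -/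
abbrev intRing (q : ℕ) [Fact q.Prime] : ValuationSubring (PadicAlgCl q) :=
  (PadicAlgCl.valued q).v.valuationSubring

/-- The residue field of the algebraic closure. -/
abbrev Res' (q : ℕ) [Fact q.Prime] : Type := IsLocalRing.ResidueField (intRing q)

/-- Membership in the ring of integers. -/
lemma mem_intRing {x : PadicAlgCl q} : x ∈ intRing q ↔ ‖x‖ ≤ 1 := by
  rw [Valuation.mem_valuationSubring_iff, PadicAlgCl.valuation_def, ← NNReal.coe_le_coe, coe_nnnorm,
    NNReal.coe_one]

/-- The residue of an element, and zero for a non integral element. -/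
def res (x : PadicAlgCl q) : Res' q :=
  if h : x ∈ intRing q then IsLocalRing.residue _ ⟨x, h⟩ else 0

/-- The residue of an integral element. -/
lemma res_def {x : PadicAlgCl q} (h : x ∈ intRing q) : res x = IsLocalRing.residue _ ⟨x, h⟩ :=
  dif_pos h

/-- The residue vanishes iff the norm is less than one. -/
lemma res_eq_zero_iff {x : PadicAlgCl q} (hx : ‖x‖ ≤ 1) : res x = 0 ↔ ‖x‖ < 1 := by
  have h := mem_intRing.mpr hx
  rw [res_def h, IsLocalRing.residue_eq_zero_iff,
    ← ValuationSubring.coe_mem_nonunits_iff]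
  show x ∈ (intRing q).nonunits ↔ _
  rcases eq_or_ne x 0 with rfl | h0
  · simp
  · rw [ValuationSubring.mem_nonunits_iff, ← not_le, ← not_le]
    refine not_congr ?_
    rw [← inv_le_one₀ (zero_lt_iff.mpr ((Valuation.ne_zero_iff _).mpr h0)), ← map_inv₀,
      ValuationSubring.valuation_le_one_iff, mem_intRing, norm_inv,
      inv_le_one₀ (norm_pos_iff.mpr h0)]

/-- Residues add. -/
lemma res_add {x y : PadicAlgCl q} (hx : ‖x‖ ≤ 1) (hy : ‖y‖ ≤ 1) : res (x + y) = res x + res y := by
  rw [res_def (mem_intRing.mpr hx), res_def (mem_intRing.mpr hy),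
    res_def (add_mem (mem_intRing.mpr hx) (mem_intRing.mpr hy)), ← map_add]
  rfl

/-- Residues multiply. -/
lemma res_mul {x y : PadicAlgCl q} (hx : ‖x‖ ≤ 1) (hy : ‖y‖ ≤ 1) : res (x * y) = res x * res y := by
  rw [res_def (mem_intRing.mpr hx), res_def (mem_intRing.mpr hy),
    res_def (mul_mem (mem_intRing.mpr hx) (mem_intRing.mpr hy)), ← map_mul]
  rfl

/-- The residue of zero. -/
@[simp] lemma res_zero : res (0 : PadicAlgCl q) = 0 :=
  (res_eq_zero_iff (by simp)).mpr (by simp)

/-- The residue of one. -/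
@[simp] lemma res_one : res (1 : PadicAlgCl q) = 1 := by
  rw [res_def (one_mem _)]
  exact map_one (IsLocalRing.residue (intRing q))

lemma res_sub {x y : PadicAlgCl q} (hx : ‖x‖ ≤ 1) (hy : ‖y‖ ≤ 1) : res (x - y) = res x - res y := by
  rw [res_def (mem_intRing.mpr hx), res_def (mem_intRing.mpr hy),
    res_def (sub_mem (mem_intRing.mpr hx) (mem_intRing.mpr hy)), ← map_sub]
  rfl

/-- Residues agree iff the elements are close. -/
lemma res_eq_res_iff {x y : PadicAlgCl q} (hx : ‖x‖ ≤ 1) (hy : ‖y‖ ≤ 1) :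
    res x = res y ↔ ‖x - y‖ < 1 := by
  rw [← sub_eq_zero, ← res_sub hx hy, res_eq_zero_iff]
  exact mem_intRing.mp (sub_mem (mem_intRing.mpr hx) (mem_intRing.mpr hy))

/-- Residues of powers. -/
lemma res_pow {x : PadicAlgCl q} (hx : ‖x‖ ≤ 1) (n : ℕ) : res (x ^ n) = res x ^ n := by
  induction n with
  | zero => simp
  | succ n ih =>
    rw [pow_succ, pow_succ, res_mul _ hx, ih]
    rw [norm_pow]
    exact pow_le_one₀ (norm_nonneg x) hx

/-- Every residue is a residue of an integer. -/
lemma exists_res_eq (c : Res' q) : ∃ x : PadicAlgCl q, ‖x‖ ≤ 1 ∧ res x = c := by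
  obtain ⟨⟨x, hx⟩, rfl⟩ := IsLocalRing.residue_surjective c
  exact ⟨x, mem_intRing.mp hx, res_def hx⟩

instance : CharP (Res' q) q := by
  refine (CharP.charP_iff_prime_eq_zero hq.out).mpr ?_
  rw [← map_natCast (IsLocalRing.residue (intRing q))]
  have h : (q : PadicAlgCl q) ∈ intRing q := natCast_mem _ q
  have : res (q : PadicAlgCl q) = 0 := (res_eq_zero_iff norm_q_lt_one.le).mpr norm_q_lt_one
  rwa [res_def h] at this

/-! ### Finite subextensions -/

variable (F : IntermediateField ℚ_[q] (PadicAlgCl q)) [FiniteDimensional ℚ_[q] F]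

/-- Finite extensions are proper spaces. -/
lemma properSpace : ProperSpace F := FiniteDimensional.proper ℚ_[q] F

lemma exists_uniformiser :
    ∃ π ∈ F, 0 < ‖π‖ ∧ ‖π‖ < 1 ∧ ∀ x ∈ F, ‖x‖ < 1 → ‖x‖ ≤ ‖π‖ := by
  have := properSpace F
  have hcomp : IsCompact (Metric.ball (0 : F) 1) :=
    (isCompact_closedBall (0 : F) 1).of_isClosed_subset
      (IsUltrametricDist.isClosed_ball _ _) Metric.ball_subset_closedBall
  obtain ⟨π, hπ, hmax⟩ := hcomp.exists_isMaxOn ⟨0, by simp⟩ continuous_norm.continuousOn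
  have hmem : ∀ x : F, x ∈ Metric.ball (0 : F) 1 ↔ ‖(x : PadicAlgCl q)‖ < 1 := fun x => by
    rw [mem_ball_zero_iff]; rfl
  have hle : ∀ y : F, ‖(y : PadicAlgCl q)‖ < 1 → ‖(y : PadicAlgCl q)‖ ≤ ‖(π : PadicAlgCl q)‖ :=
    fun y hy => isMaxOn_iff.mp hmax y ((hmem y).mpr hy)
  refine ⟨π, π.2, lt_of_lt_of_le (norm_q_pos (q := q)) ?_, (hmem π).mp hπ, fun x hx h => ?_⟩
  · exact hle ⟨(q : PadicAlgCl q), natCast_mem F q⟩ norm_q_lt_one
  · exact hle ⟨x, hx⟩ h

/-- A uniformiser. -/
def unif : PadicAlgCl q := (exists_uniformiser F).choose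

/-- The uniformiser lies in the field. -/
lemma unif_mem : unif F ∈ F := (exists_uniformiser F).choose_spec.1

/-- The uniformiser has positive norm. -/
lemma norm_unif_pos : 0 < ‖unif F‖ := (exists_uniformiser F).choose_spec.2.1

/-- The uniformiser has norm less than one. -/
lemma norm_unif_lt_one : ‖unif F‖ < 1 := (exists_uniformiser F).choose_spec.2.2.1

/-- The uniformiser is nonzero. -/
lemma unif_ne_zero : unif F ≠ 0 := norm_pos_iff.mp (norm_unif_pos F)

/-- The uniformiser has the largest norm less than one. -/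
lemma norm_le_norm_unif {x : PadicAlgCl q} (hx : x ∈ F) (h : ‖x‖ < 1) : ‖x‖ ≤ ‖unif F‖ :=
  (exists_uniformiser F).choose_spec.2.2.2 x hx h

lemma exists_norm_eq_zpow {x : PadicAlgCl q} (hx : x ∈ F) (h0 : x ≠ 0) :
    ∃ m : ℤ, ‖x‖ = ‖unif F‖ ^ m := by
  obtain ⟨n, hn, hn'⟩ := exists_mem_Ico_zpow (norm_pos_iff.mpr h0)
    ((one_lt_inv₀ (norm_unif_pos F)).mpr (norm_unif_lt_one F))
  rw [inv_zpow'] at hn hn'
  refine ⟨-n, le_antisymm ?_ hn⟩
  by_contra hlt
  rw [not_le] at hlt
  set y := (x * unif F ^ (n + 1))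
  have hy : y ∈ F := mul_mem hx (zpow_mem (unif_mem F) _)
  have hyn : ‖y‖ = ‖x‖ * ‖unif F‖ ^ (n + 1) := by rw [norm_mul, norm_zpow]
  have hlt1 : ‖y‖ < 1 := by
    rw [hyn]
    have := mul_lt_mul_of_pos_right hn' (zpow_pos (norm_unif_pos F) (n + 1))
    rwa [← zpow_add₀ (norm_unif_pos F).ne', neg_add_cancel, zpow_zero] at this
  have h2 := norm_le_norm_unif F hy hlt1
  rw [hyn] at h2
  have h3 := mul_lt_mul_of_pos_right hlt (zpow_pos (norm_unif_pos F) (n + 1))
  rw [← zpow_add₀ (norm_unif_pos F).ne', neg_add_cancel_left, zpow_one] at h3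
  exact absurd h2 (not_le.mpr h3)

/-- The normalised valuation. -/
def ord (x : PadicAlgCl q) : ℤ :=
  if h : x ∈ F ∧ x ≠ 0 then (exists_norm_eq_zpow F h.1 h.2).choose else 0

/-- The norm through the order. -/
lemma norm_eq_zpow_ord {x : PadicAlgCl q} (hx : x ∈ F) (h0 : x ≠ 0) :
    ‖x‖ = ‖unif F‖ ^ ord F x := by
  rw [ord, dif_pos ⟨hx, h0⟩]
  exact (exists_norm_eq_zpow F hx h0).choose_spec

/-- The order is determined by the norm. -/
lemma ord_unique {x : PadicAlgCl q} (hx : x ∈ F) (h0 : x ≠ 0) {m : ℤ}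
    (h : ‖x‖ = ‖unif F‖ ^ m) : ord F x = m :=
  (zpow_right_injective₀ (norm_unif_pos F) (norm_unif_lt_one F).ne)
    ((norm_eq_zpow_ord F hx h0).symm.trans h)

/-- The order of a product. -/
lemma ord_mul {x y : PadicAlgCl q} (hx : x ∈ F) (hy : y ∈ F) (hx0 : x ≠ 0) (hy0 : y ≠ 0) :
    ord F (x * y) = ord F x + ord F y :=
  ord_unique F (mul_mem hx hy) (mul_ne_zero hx0 hy0) (by
    rw [norm_mul, norm_eq_zpow_ord F hx hx0, norm_eq_zpow_ord F hy hy0,
      zpow_add₀ (norm_unif_pos F).ne'])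

/-- The order of the uniformiser. -/
lemma ord_unif : ord F (unif F) = 1 := ord_unique F (unif_mem F) (unif_ne_zero F) (zpow_one _).symm

/-- Order zero means norm one. -/
lemma ord_eq_zero_iff {x : PadicAlgCl q} (hx : x ∈ F) (h0 : x ≠ 0) : ord F x = 0 ↔ ‖x‖ = 1 := by
  refine ⟨fun h => by rw [norm_eq_zpow_ord F hx h0, h, zpow_zero],
    fun h => ord_unique F hx h0 (by rw [h, zpow_zero])⟩

/-- Positive order means norm less than one. -/
lemma one_le_ord_iff {x : PadicAlgCl q} (hx : x ∈ F) (h0 : x ≠ 0) : 1 ≤ ord F x ↔ ‖x‖ < 1 := by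
  rw [norm_eq_zpow_ord F hx h0,
    zpow_lt_one_iff_right_of_lt_one₀ (norm_unif_pos F) (norm_unif_lt_one F)]
  omega

/-- Galois elements preserve the order. -/
lemma ord_apply (σ : Gal' q) {x : PadicAlgCl q} (hx : x ∈ F) (hσx : σ x ∈ F) (h0 : x ≠ 0) :
    ord F (σ x) = ord F x :=
  ord_unique F hσx ((map_ne_zero σ).mpr h0) (by rw [norm_apply, norm_eq_zpow_ord F hx h0])

/-! ### The residue field of a finite subextension -/

/-- The residue field of `F` inside that of the algebraic closure. -/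
def resField : Subfield (Res' q) where
  carrier := {c | ∃ x ∈ F, ‖x‖ ≤ 1 ∧ res x = c}
  one_mem' := ⟨1, one_mem F, by simp, res_one⟩
  zero_mem' := ⟨0, zero_mem F, by simp, res_zero⟩
  mul_mem' := by
    rintro _ _ ⟨x, hx, hx1, rfl⟩ ⟨y, hy, hy1, rfl⟩
    exact ⟨x * y, mul_mem hx hy,
      by rw [norm_mul]; exact mul_le_one₀ hx1 (norm_nonneg y) hy1, res_mul hx1 hy1⟩
  add_mem' := by
    rintro _ _ ⟨x, hx, hx1, rfl⟩ ⟨y, hy, hy1, rfl⟩
    exact ⟨x + y, add_mem hx hy, (IsUltrametricDist.norm_add_le_max x y).trans (max_le hx1 hy1),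
      res_add hx1 hy1⟩
  neg_mem' := by
    rintro _ ⟨x, hx, hx1, rfl⟩
    refine ⟨-x, neg_mem hx, by rwa [norm_neg], ?_⟩
    have h := res_sub (q := q) (by simp : ‖(0 : PadicAlgCl q)‖ ≤ 1) hx1
    simpa using h
  inv_mem' := by
    rintro _ ⟨x, hx, hx1, rfl⟩
    rcases eq_or_ne (res x) 0 with h0 | h0
    · exact ⟨0, zero_mem F, by simp, by rw [res_zero, h0, inv_zero]⟩
    · have hn : ‖x‖ = 1 := le_antisymm hx1 (not_lt.mp fun h => h0 ((res_eq_zero_iff hx1).mpr h))
      have hi : ‖x⁻¹‖ ≤ 1 := by rw [norm_inv, hn, inv_one]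
      refine ⟨x⁻¹, inv_mem hx, hi, eq_inv_of_mul_eq_one_left ?_⟩
      rw [← res_mul hi hx1, inv_mul_cancel₀ (norm_pos_iff.mp (hn.symm ▸ one_pos)), res_one]

omit [FiniteDimensional ℚ_[q] ↥F] in
/-- Residues of integers lie in the residue field. -/
lemma res_mem_resField {x : PadicAlgCl q} (hx : x ∈ F) (h1 : ‖x‖ ≤ 1) : res x ∈ resField F :=
  ⟨x, hx, h1, rfl⟩

instance finite_resField : Finite (resField F) := by
  have := properSpace F
  obtain ⟨t, -, htfin, hcov⟩ := Metric.finite_approx_of_totallyBounded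
    (isCompact_closedBall (0 : F) 1).totallyBounded 1 one_pos
  have hsub : (resField F : Set (Res' q)) ⊆ (fun y : F => res (y : PadicAlgCl q)) '' t := by
    rintro _ ⟨x, hx, hx1, rfl⟩
    obtain ⟨y, hy, hxy⟩ := Set.mem_iUnion₂.mp (hcov (show (⟨x, hx⟩ : F) ∈ Metric.closedBall 0 1 by
      rw [mem_closedBall_zero_iff]; exact hx1))
    rw [mem_ball_iff_norm] at hxy
    change ‖x - (y : PadicAlgCl q)‖ < 1 at hxy
    have hy1 : ‖(y : PadicAlgCl q)‖ ≤ 1 := by
      have := IsUltrametricDist.norm_add_le_max (-(x - (y : PadicAlgCl q))) x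
      rw [neg_sub, sub_add_cancel, norm_sub_rev] at this
      exact this.trans (max_le hxy.le hx1)
    exact ⟨y, hy, ((res_eq_res_iff hx1 hy1).mpr hxy).symm⟩
  exact ((htfin.image _).subset hsub).to_subtype

/-- The cardinality of the residue field. -/
def resCard : ℕ := Nat.card (resField F)

/-- The residue field has more than one element. -/
lemma one_lt_resCard : 1 < resCard F := Finite.one_lt_card

/-- The residue field has a power of `q` elements. -/
lemma exists_resCard_eq_pow : ∃ f : ℕ, 0 < f ∧ resCard F = q ^ f := by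
  have := Fintype.ofFinite (resField F)
  obtain ⟨f, -, hf⟩ := FiniteField.card (resField F) q
  exact ⟨f, f.pos, (Nat.card_eq_fintype_card).trans hf⟩

/-- The residue field is cut out by Frobenius. -/
lemma mem_resField_iff {c : Res' q} : c ∈ resField F ↔ c ^ resCard F = c := by
  have := Fintype.ofFinite (resField F)
  have hpow : ∀ d : resField F, d ^ resCard F = d := fun d => by
    rw [resCard, Nat.card_eq_fintype_card, FiniteField.pow_card]
  refine ⟨fun h => congrArg Subtype.val (hpow ⟨c, h⟩), fun h => ?_⟩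
  by_contra hc
  have hN := one_lt_resCard F
  have hP : (Polynomial.X ^ resCard F - Polynomial.X : Polynomial (Res' q)) ≠ 0 :=
    FiniteField.X_pow_card_sub_X_ne_zero _ hN
  have hsub : insert c ((Finset.univ.image fun d : resField F => (d : Res' q))) ⊆
      (Polynomial.X ^ resCard F - Polynomial.X : Polynomial (Res' q)).roots.toFinset := by
    intro d hd
    rw [Multiset.mem_toFinset, Polynomial.mem_roots hP]
    rcases Finset.mem_insert.mp hd with rfl | hd
    · simp [h]
    · obtain ⟨d, -, rfl⟩ := Finset.mem_image.mp hd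
      have := congrArg Subtype.val (hpow d)
      simp only [SubmonoidClass.coe_pow] at this
      simp [this]
  have h1 := (Finset.card_le_card hsub).trans ((Multiset.toFinset_card_le _).trans
    ((Polynomial.card_roots' _).trans_eq (FiniteField.X_pow_card_sub_X_natDegree_eq _ hN)))
  rw [Finset.card_insert_of_notMem, Finset.card_image_of_injective _ Subtype.val_injective,
    Finset.card_univ, ← Nat.card_eq_fintype_card] at h1
  · simp [resCard] at h1
  · intro hmem
    obtain ⟨d, -, rfl⟩ := Finset.mem_image.mp hmem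
    exact hc d.2

end FermatAgent.CFT.Local
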