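import Fermat.Agent.CFT.Local.CycEval
import Fermat.Agent.CFT.Local.Degree
import Fermat.Agent.CFT.Field.Hilbert

/-!
Invariants at the ramified place of the cyclotomic extension of prime conductor.

Over `ℚ_q`, for a character `χ` of order `N = q - 1`: the invariant of the cyclic class of the prime
is zero (`inv_cyc_prime`), of a root of unity it is the tame symbol (`inv_cyc_root`), of a principal
unit zero (`inv_cyc_principal`), and of a unit it is read from the residue (`inv_cyc_unit`).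
The method: `1 - ζ` is a uniformiser of the tame cyclotomic extension (`norm_one_sub_zeta`), a
Kummer generator of `χ` has order one modulo `N` (`dvd_one_sub_ord`), and the classes of two Kummer
characters are antisymmetric (`cyc_add_cyc_swap_mem_B2`).
-/

set_option autoImplicit false

noncomputable section

open scoped Classical
open IntermediateField

namespace FermatAgent.CFT

open Coh

namespace Coh

variable {Γ : Type*} [Group Γ] {L : Levels Γ} {W : Subgroup Γ} {A : Type*} [AddCommGroup A]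
  [DistribMulAction Γ A] {n : ℕ} [NeZero n]

/-- The symmetry of the classes attached to two Kummer characters. -/
theorem cyc_add_cyc_swap_mem_B2 (χ ψ : CycChar L W n) {ω x z : A} (hω : n • ω = 0)
    (hωfix : ∀ g ∈ W, g • ω = ω) (hx : ∀ g ∈ W, g • x - x = (χ g).val • ω)
    (hz : ∀ g ∈ W, g • z - z = (ψ g).val • ω) :
    cyc χ (n • z) + cyc ψ (n • x) ∈ L.B2 W A := by
  refine ⟨fun g => (χ g).val • z + (ψ g).val • x + ((χ g).val * (ψ g).val) • ω,
    (χ.const'.op ψ.const' fun a b => a.val • z + b.val • x + (a.val * b.val) • ω),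
    fun g hg h hh => ?_⟩
  have hgx : g • x = (χ g).val • ω + x := sub_eq_iff_eq_add.mp (hx g hg)
  have hgz : g • z = (ψ g).val • ω + z := sub_eq_iff_eq_add.mp (hz g hg)
  have hsm : ∀ (k : ℕ) (a : A), g • (k • a) = k • (g • a) :=
    map_nsmul (DistribSMul.toAddMonoidHom A g)
  simp only [d1, Pi.add_apply, cyc_apply, χ.map_mul hg hh, ψ.map_mul hg hh, smul_add, hsm, hgx, hgz,
    hωfix g hg]
  simp only [← natCast_zsmul]
  have e1 := val_add_val (χ g) (χ h)
  have e2 := val_add_val (ψ g) (ψ h)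
  have hωz : (n : ℤ) • ω = 0 := by rw [natCast_zsmul, hω]
  push_cast
  rw [eq_sub_of_add_eq e1.symm, eq_sub_of_add_eq e2.symm]
  set a := ((χ g).val : ℤ)
  set a' := ((χ h).val : ℤ)
  set b := ((ψ g).val : ℤ)
  set b' := ((ψ h).val : ℤ)
  set c := carry (χ g) (χ h)
  set c' := carry (ψ g) (ψ h)
  linear_combination (norm := module)
    (-((a + a') * c' + c * (b + b') - n * c * c')) • hωz

end Coh

namespace Local

variable {q : ℕ} [hq : Fact q.Prime]

/-- The base field. -/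
abbrev botF (q : ℕ) [Fact q.Prime] : IntermediateField ℚ_[q] (PadicAlgCl q) := ⊥

/-- The residue field of the base has `q` elements. -/
lemma resCard_bot : resCard (botF q) = q := by
  have h := finrank_eq (botF q)
  rw [IntermediateField.finrank_bot] at h
  rw [resCard_eq, (mul_eq_one.mp h.symm).2, pow_one]

/-- Every element fixes the base. -/
lemma mem_fix_bot (d : Gal' q) : d ∈ ((botF q)).fixingSubgroup := by
  rw [IntermediateField.fixingSubgroup_bot]; exact Subgroup.mem_top d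

instance finiteDimensional_adjoinOne (x : PadicAlgCl q) : FiniteDimensional ℚ_[q] ℚ_[q]⟮x⟯ :=
  adjoin.finiteDimensional (Algebra.IsIntegral.isIntegral x)

variable (q) in
/-- The residue of a unit, as a homomorphism. -/
def resHom : ↥(unitsUx q) →+ Additive (Res' q)ˣ where
  toFun x := Additive.ofMul (Units.mk0 (res x.1.val) (by
    rw [Ne, res_eq_zero_iff (mem_unitsUx.mp x.2).le, mem_unitsUx.mp x.2]; exact lt_irrefl 1))
  map_zero' := by
    refine congrArg Additive.ofMul (Units.ext ?_)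
    simp [res_one]
  map_add' x y := by
    refine congrArg Additive.ofMul (Units.ext ?_)
    exact res_mul (mem_unitsUx.mp x.2).le (mem_unitsUx.mp y.2).le

lemma resHom_eq_iff {x y : ↥(unitsUx q)} : resHom q x = resHom q y ↔ res x.1.val = res y.1.val :=
  ⟨fun h => congrArg (fun a : Additive (Res' q)ˣ => ((Additive.toMul a : (Res' q)ˣ) : Res' q)) h,
   fun h => congrArg Additive.ofMul (Units.ext h)⟩

variable {N : ℕ} [NeZero N] {ζ : PadicAlgCl q} (hζ : IsPrimitiveRoot ζ q) (hN : N + 1 = q)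

include hζ

lemma one_sub_zeta_ne_zero : (1 : PadicAlgCl q) - ζ ≠ 0 :=
  sub_ne_zero.mpr (hζ.ne_one hq.out.one_lt).symm

section
omit [NeZero N]

lemma res_zeta_eq_one : res ζ = 1 := by
  have h1 : ‖ζ‖ = 1 := norm_eq_one_of_pow_eq_one hq.out.ne_zero hζ.pow_eq_one
  have hp := res_pow h1.le q
  rw [hζ.pow_eq_one, res_one] at hp
  refine sub_eq_zero.mp (pow_eq_zero_iff hq.out.ne_zero |>.mp ?_)
  rw [sub_pow_char, ← hp, one_pow, sub_self]

/-- Conjugate `1 - ζ^j` have equal norm. -/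
lemma norm_one_sub_zeta_pow {j : ℕ} (hj : ¬ q ∣ j) : ‖1 - ζ ^ j‖ = ‖1 - ζ‖ := by
  have h1 : ‖ζ‖ = 1 := norm_eq_one_of_pow_eq_one hq.out.ne_zero hζ.pow_eq_one
  have hle : ‖1 - ζ‖ < 1 := by
    rw [norm_sub_rev, ← res_eq_res_iff h1.le norm_one.le, res_one]
    exact res_zeta_eq_one hζ
  rw [← geom_sum_mul_neg ζ j, norm_mul]
  have hres : ‖(∑ i ∈ Finset.range j, ζ ^ i) - (j : PadicAlgCl q)‖ < 1 := by
    have : (∑ i ∈ Finset.range j, ζ ^ i) - (j : PadicAlgCl q) =
        ∑ i ∈ Finset.range j, (ζ ^ i - 1) := by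
      rw [Finset.sum_sub_distrib]; simp
    rw [this]
    refine (IsUltrametricDist.norm_sum_le_of_forall_le_of_nonneg (norm_nonneg (1 - ζ))
      fun i _ => ?_).trans_lt hle
    rw [norm_sub_rev, ← geom_sum_mul_neg ζ i, norm_mul]
    exact mul_le_of_le_one_left (norm_nonneg _)
      (IsUltrametricDist.norm_sum_le_of_forall_le_of_nonneg
      zero_le_one fun k _ => by rw [norm_pow, h1, one_pow])
  have hj1 : ‖(j : PadicAlgCl q)‖ = 1 := by
    refine le_antisymm (IsUltrametricDist.norm_natCast_le_one _ j) (not_lt.mp fun hlt => hj ?_)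
    have h3 := (res_eq_zero_iff (q := q) (IsUltrametricDist.norm_natCast_le_one _ j)).mpr hlt
    rwa [res_natCast, CharP.cast_eq_zero_iff (Res' q) q] at h3
  have hs : ‖∑ i ∈ Finset.range j, ζ ^ i‖ = 1 := by
    have hne : ‖(∑ i ∈ Finset.range j, ζ ^ i) - (j : PadicAlgCl q)‖ ≠ ‖(j : PadicAlgCl q)‖ := by
      rw [hj1]; exact hres.ne
    have := IsUltrametricDist.norm_add_eq_max_of_norm_ne_norm hne
    rwa [sub_add_cancel, hj1, max_eq_right hres.le] at this
  rw [hs, one_mul]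

include hN

lemma prod_one_sub_zeta : ∏ k ∈ Finset.range N, (1 - ζ ^ (k + 1)) = (q : PadicAlgCl q) := by
  subst hN
  rw [hζ.prod_one_sub_pow_eq_order]
  push_cast
  rfl

/-- The norm of `1 - ζ` in a totally ramified extension. -/
lemma norm_one_sub_zeta : ‖1 - ζ‖ ^ N = ‖(q : PadicAlgCl q)‖ := by
  rw [← prod_one_sub_zeta hζ hN, norm_prod, Finset.prod_congr rfl fun k hk =>
    norm_one_sub_zeta_pow hζ (j := k + 1) fun h => ?_]
  · simp
  · have := Nat.le_of_dvd (Nat.succ_pos k) h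
    have := Finset.mem_range.mp hk
    omega

end

include hN

/-- The degree and residue degree of the tame cyclotomic extension. -/
lemma finrank_adjoin_zeta :
    Module.finrank ℚ_[q] ℚ_[q]⟮ζ⟯ = N ∧ inertiaDeg ℚ_[q]⟮ζ⟯ = 1 := by
  have : FiniteDimensional ℚ_[q] ℚ_[q]⟮ζ⟯ :=
    adjoin.finiteDimensional (Algebra.IsIntegral.isIntegral ζ)
  have hle : Module.finrank ℚ_[q] ℚ_[q]⟮ζ⟯ ≤ N := by
    rw [adjoin.finrank (Algebra.IsIntegral.isIntegral ζ)]
    refine (Polynomial.natDegree_le_of_dvd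
      (minpoly.dvd ℚ_[q] ζ (p := Polynomial.cyclotomic q ℚ_[q]) ?_)
      (Polynomial.cyclotomic_ne_zero q ℚ_[q])).trans ?_
    · rw [Polynomial.aeval_def, Polynomial.eval₂_eq_eval_map, Polynomial.map_cyclotomic]
      exact hζ.isRoot_cyclotomic hq.out.pos
    · rw [Polynomial.natDegree_cyclotomic, Nat.totient_prime hq.out]
      omega
  set E := ℚ_[q]⟮ζ⟯
  have hπ : 1 - ζ ∈ E := sub_mem (one_mem E) (mem_adjoin_simple_self ℚ_[q] ζ)
  have h0 := one_sub_zeta_ne_zero hζ
  have hn := norm_one_sub_zeta hζ hN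
  have hlt : ‖1 - ζ‖ < 1 := by
    by_contra h
    have := one_le_pow₀ (n := N) (not_lt.mp h)
    rw [hn] at this
    exact absurd norm_q_lt_one (not_lt.mpr this)
  have hk := (one_le_ord_iff E hπ h0).mpr hlt
  have hord : ord E (q : PadicAlgCl q) = N * ord E (1 - ζ) := by
    refine ord_unique E (q_mem E) q_ne_zero ?_
    rw [← hn, norm_eq_zpow_ord E hπ h0, ← zpow_natCast, ← zpow_mul, mul_comm]
  rw [ord_q] at hord
  have hNe : (N : ℤ) ≤ ramIdx E := by rw [hord]; exact le_mul_of_one_le_right (by positivity) hk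
  have hf := inertiaDeg_pos E
  have hef : Module.finrank ℚ_[q] ℚ_[q]⟮ζ⟯ = ramIdx E * inertiaDeg E := finrank_eq E
  have hle' : Module.finrank ℚ_[q] ℚ_[q]⟮ζ⟯ ≤ N := hle
  have h1 : ramIdx E ≤ ramIdx E * inertiaDeg E := Nat.le_mul_of_pos_right _ hf
  have h2 : ramIdx E = N := by omega
  refine ⟨by omega, ?_⟩
  rw [h2] at hef
  have h3 : N * inertiaDeg E ≤ N * 1 := by omega
  have := Nat.le_of_mul_le_mul_left h3 (Nat.pos_of_ne_zero (NeZero.ne N))
  exact le_antisymm this hf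

lemma exists_conjugate {j : ℕ} (hj : ¬ q ∣ j) : ∃ d : Gal' q, d ζ = ζ ^ j := by
  have hdeg := (finrank_adjoin_zeta hζ hN).1
  rw [adjoin.finrank (Algebra.IsIntegral.isIntegral ζ)] at hdeg
  have heq : minpoly ℚ_[q] ζ = Polynomial.cyclotomic q ℚ_[q] := by
    refine (Polynomial.eq_of_monic_of_dvd_of_natDegree_le
      (minpoly.monic (Algebra.IsIntegral.isIntegral ζ))
      (Polynomial.cyclotomic.monic q ℚ_[q]) (minpoly.dvd ℚ_[q] ζ ?_) ?_).symm
    · rw [Polynomial.aeval_def, Polynomial.eval₂_eq_eval_map, Polynomial.map_cyclotomic]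
      exact hζ.isRoot_cyclotomic hq.out.pos
    · rw [hdeg, Polynomial.natDegree_cyclotomic, Nat.totient_prime hq.out]
      omega
  have hroot : Polynomial.aeval (ζ ^ j) (minpoly ℚ_[q] ζ) = 0 := by
    rw [heq, Polynomial.aeval_def, Polynomial.eval₂_eq_eval_map, Polynomial.map_cyclotomic]
    exact (hζ.pow_of_coprime j ((hq.out.coprime_iff_not_dvd.mpr hj).symm))
      |>.isRoot_cyclotomic hq.out.pos
  exact minpoly.exists_algEquiv_of_root' (Algebra.IsAlgebraic.isAlgebraic ζ) hroot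

lemma smul_res_eq {d : Gal' q} {u : PadicAlgCl q} (hu : u ∈ ℚ_[q]⟮ζ⟯) (h1 : ‖u‖ = 1) :
    res (d u) = res u := by
  have : FiniteDimensional ℚ_[q] ℚ_[q]⟮ζ⟯ :=
    adjoin.finiteDimensional (Algebra.IsIntegral.isIntegral ζ)
  have h := (mem_resField_iff _).mp (res_mem_resField ℚ_[q]⟮ζ⟯ hu h1.le)
  rw [resCard_eq, (finrank_adjoin_zeta hζ hN).2, pow_one] at h
  obtain ⟨c, hc, hc1, hcu⟩ : res u ∈ resField (botF q) :=
    (mem_resField_iff _).mpr (by rwa [resCard_bot])
  have h2 := (res_eq_res_iff h1.le hc1).mp hcu.symm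
  rw [← hcu, res_eq_res_iff (by rw [norm_apply, h1]) hc1,
    ← (IntermediateField.mem_fixingSubgroup_iff (botF q) d).mp (mem_fix_bot d) c hc, ← map_sub,
    norm_apply]
  exact h2

variable (χ : CycChar (LL q) ((botF q)).fixingSubgroup N) {g₀ : (ZMod q)ˣ} (hg₀ : orderOf g₀ = N)
  (hχ : ∀ d, d ζ = ζ ^ (((g₀ ^ (χ d).val : (ZMod q)ˣ) : ZMod q)).val)

include hg₀ hχ

omit [NeZero N] in
lemma exists_char_one : ∃ σ ∈ ((botF q)).fixingSubgroup, χ σ = 1 := by
  have : NeZero N := ⟨by have := hq.out.two_le; omega⟩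
  obtain ⟨σ, hσ⟩ := exists_conjugate hζ hN (j := ((g₀ : ZMod q)).val) (fun h => by
    have h' := Nat.eq_zero_of_dvd_of_lt h (ZMod.val_lt _)
    exact g₀.ne_zero ((ZMod.val_eq_zero _).mp h'))
  refine ⟨σ, mem_fix_bot σ, ?_⟩
  have h := hχ σ
  rw [hσ] at h
  have h2 : ((g₀ : ZMod q)).val = (((g₀ ^ (χ σ).val : (ZMod q)ˣ) : ZMod q)).val :=
    hζ.pow_inj (ZMod.val_lt _) (ZMod.val_lt _) h
  have h3 : g₀ ^ (χ σ).val = g₀ ^ 1 := by
    rw [pow_one]; exact Units.ext (ZMod.val_injective q h2).symm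
  rw [pow_eq_pow_iff_modEq, hg₀, ← ZMod.natCast_eq_natCast_iff, ZMod.natCast_zmod_val,
    Nat.cast_one] at h3
  exact h3

omit hN in
lemma mem_ker_iff_fix {d : Gal' q} : d ∈ χ.ker ↔ d ζ = ζ := by
  rw [CycChar.mem_ker, and_iff_right (mem_fix_bot d), hχ d]
  have : Fact (1 < q) := ⟨hq.out.one_lt⟩
  refine ⟨fun h => by rw [h, ZMod.val_zero, pow_zero, Units.val_one, ZMod.val_one, pow_one],
    fun h => ?_⟩
  have h2 := hζ.pow_inj (ZMod.val_lt _) (hq.out.one_lt) (h.trans (pow_one ζ).symm)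
  have h3 : g₀ ^ (χ d).val = g₀ ^ 0 := by
    rw [pow_zero]
    refine Units.ext (ZMod.val_injective q ?_)
    rw [h2, Units.val_one, ZMod.val_one]
  rw [pow_eq_pow_iff_modEq, hg₀, ← ZMod.natCast_eq_natCast_iff, ZMod.natCast_zmod_val,
    Nat.cast_zero] at h3
  exact h3

/-- The invariant of the uniformiser vanishes. -/
theorem inv_cyc_prime : inv (botF q) (cyc χ (Ux.mk (q : PadicAlgCl q) q_ne_zero)) = 0 := by
  obtain ⟨σ, hσ, hσ1⟩ := exists_char_one hζ hN χ hg₀ hχ
  set π : MM q := Ux.mk (1 - ζ) (one_sub_zeta_ne_zero hζ)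
  have hπ : π ∈ fixedUx χ.ker := fun d hd => Ux.ext (by
    rw [Ux.val_smul, Ux.val_mk, map_sub, map_one, (mem_ker_iff_fix hζ χ hg₀ hχ).mp hd])
  suffices e : cycNorm σ N π = Ux.mk (q : PadicAlgCl q) q_ne_zero by
    rw [← e]; exact inv_cyc_cycNorm (botF q) χ hσ hσ1 hπ
  refine Ux.ext ?_
  rw [Ux.val_cycNorm, Ux.val_mk, Ux.val_mk, ← prod_one_sub_zeta hζ hN]
  have hval : ∀ i ∈ Finset.range N, (σ ^ i) (1 - ζ) =
      1 - ζ ^ (((g₀ ^ i : (ZMod q)ˣ) : ZMod q)).val := fun i hi => by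
    rw [map_sub, map_one, hχ (σ ^ i), χ.map_pow hσ, hσ1, mul_one,
      ZMod.val_natCast_of_lt (Finset.mem_range.mp hi)]
  rw [Finset.prod_congr rfl hval]
  have hinj : Set.InjOn (fun i => (((g₀ ^ i : (ZMod q)ˣ) : ZMod q)).val) (Finset.range N) :=
    fun i hi j hj h => by
      have h' := pow_eq_pow_iff_modEq.mp (Units.ext (ZMod.val_injective q h) : g₀ ^ i = g₀ ^ j)
      rw [hg₀, Nat.ModEq, Nat.mod_eq_of_lt (Finset.mem_range.mp hi),
        Nat.mod_eq_of_lt (Finset.mem_range.mp hj)] at h'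
      exact h'
  have himg : (Finset.range N).image (fun i => (((g₀ ^ i : (ZMod q)ˣ) : ZMod q)).val) =
      (Finset.range N).image (· + 1) := by
    refine Finset.eq_of_subset_of_card_le ?_ ?_
    · intro x hx
      obtain ⟨i, -, rfl⟩ := Finset.mem_image.mp hx
      have h1 := ZMod.val_lt (((g₀ ^ i : (ZMod q)ˣ) : ZMod q))
      have h0 : (((g₀ ^ i : (ZMod q)ˣ) : ZMod q)).val ≠ 0 := fun h =>
        (g₀ ^ i).ne_zero ((ZMod.val_eq_zero _).mp h)
      exact Finset.mem_image.mpr ⟨(((g₀ ^ i : (ZMod q)ˣ) : ZMod q)).val - 1,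
        Finset.mem_range.mpr (by omega), by omega⟩
    · rw [Finset.card_image_of_injOn hinj, Finset.card_image_of_injective _ (add_left_injective 1)]
  rw [← Finset.prod_image (f := fun k => 1 - ζ ^ k) hinj, himg,
    Finset.prod_image (fun i _ j _ h => add_left_injective 1 h)]

omit [NeZero N] hg₀ hN in
/-- The residue of the conjugate quotient of the uniformiser `1 - ζ`. -/
private lemma norm_res_smul_sub_uniformizer [Fact (1 < N)] {σ : Gal' q} (hσ1 : χ σ = 1) :
    let π : MM q := Ux.mk (1 - ζ) (one_sub_zeta_ne_zero hζ)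
    ‖(σ • π - π).val‖ = 1 ∧ res (σ • π - π).val = ((g₀ : ZMod q).val : Res' q) := by
  intro π
  set c := σ • π - π
  refine ⟨?_, ?_⟩
  · rw [Ux.val_sub, Ux.val_smul, norm_div, norm_apply, div_self]
    exact (norm_pos_iff.mpr (Ux.val_ne_zero π)).ne'
  · have h1 : ‖ζ‖ = 1 := norm_eq_one_of_pow_eq_one hq.out.ne_zero hζ.pow_eq_one
    have hζ1 : res ζ = 1 := res_zeta_eq_one hζ
    set m := ((g₀ : ZMod q)).val
    have hσζ : σ ζ = ζ ^ m := by
      have := hχ σ
      rwa [hσ1, ZMod.val_one, pow_one] at this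
    have hval : c.val = ∑ i ∈ Finset.range m, ζ ^ i := by
      rw [Ux.val_sub, Ux.val_smul, Ux.val_mk, map_sub, map_one, hσζ, ← geom_sum_mul_neg ζ m,
        mul_div_assoc, div_self (one_sub_zeta_ne_zero hζ), mul_one]
    have key : ∀ k : ℕ, res (∑ i ∈ Finset.range k, ζ ^ i) = (k : Res' q) ∧
        ‖∑ i ∈ Finset.range k, ζ ^ i‖ ≤ 1 := fun k => by
      induction k with
      | zero => simp [res_zero]
      | succ k ih =>
        have hp : ‖ζ ^ k‖ ≤ 1 := by rw [norm_pow, h1, one_pow]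
        rw [Finset.sum_range_succ]
        refine ⟨?_, (IsUltrametricDist.norm_add_le_max _ _).trans (max_le ih.2 hp)⟩
        rw [res_add ih.2 hp, ih.1, res_pow h1.le, hζ1, one_pow, Nat.cast_succ]
    rw [hval]
    exact (key m).1

omit hg₀ hχ in
/-- The norm of an element whose `N`-th power lies in the base field. -/
private lemma norm_eq_zpow_of_nsmul_mem {y : MM q} (ha : N • y ∈ starF (botF q)) :
    ‖y.val‖ = ‖1 - ζ‖ ^ ordUx (botF q) (N • y) := by
  have hpos : 0 < ‖1 - ζ‖ := norm_pos_iff.mpr (one_sub_zeta_ne_zero hζ)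
  set t := ordUx (botF q) (N • y)
  refine (pow_left_inj₀ (norm_nonneg _) (zpow_nonneg hpos.le t) (NeZero.ne N)).mp ?_
  have h1 := norm_eq_zpow_ord (botF q) (mem_fixedUx_fixingSubgroup.mp ha) (Ux.val_ne_zero _)
  rw [Ux.val_nsmul, norm_pow] at h1
  have he : ‖unif (botF q)‖ = ‖(q : PadicAlgCl q)‖ := by
    have h2 := norm_q_eq (botF q)
    have h3 := finrank_eq (botF q)
    rw [IntermediateField.finrank_bot] at h3
    rw [(mul_eq_one.mp h3.symm).1, pow_one] at h2
    exact h2.symm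
  rw [h1, he, ← norm_one_sub_zeta hζ hN, ← zpow_natCast, ← zpow_mul, ← zpow_natCast (‖1 - ζ‖ ^ t),
    ← zpow_mul, mul_comm]
  rfl

variable {ω : MM q} (hω : ω ∈ starF (botF q)) (hωN : N • ω = 0)
  (hωres : res ω.val = ((g₀ : ZMod q).val : Res' q))

omit hζ hN hg₀ hχ in
include hω hωN in
/-- A Kummer generator for the character. -/
private lemma exists_kummer_generator [Fact (1 < N)] {σ : Gal' q}
    (hσ : σ ∈ (botF q).fixingSubgroup) (hσ1 : χ σ = 1) :
    ∃ y ∈ fixedUx χ.ker, σ • y - y = ω ∧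
      (∀ d ∈ (botF q).fixingSubgroup, d • y - y = (χ d).val • ω) ∧ N • y ∈ starF (botF q) := by
  have hωfix : ∀ d : Gal' q, d • ω = ω := fun d => hω d (mem_fix_bot d)
  obtain ⟨y, hy, hyσ, hkum⟩ :=
    Ux.exists_smul_sub_val χ (fix_mem (botF q)) hσ hσ1 (fun d _ => hωfix d) hωN
  have ha : N • y ∈ starF (botF q) := fun d hd => by
    rw [← sub_eq_zero, show d • (N • y) = N • (d • y) from
      map_nsmul (DistribSMul.toAddMonoidHom (MM q) d) N y, ← nsmul_sub, hkum d hd, smul_comm,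
      hωN, smul_zero]
  exact ⟨y, hy, hyσ, hkum, ha⟩

include hωN hωres in
/-- The order of the Kummer generator is one modulo `N`. -/
private lemma dvd_one_sub_ord [Fact (1 < N)] {σ : Gal' q} (hσ1 : χ σ = 1) {y : MM q}
    (hy : y ∈ fixedUx χ.ker) (hyσ : σ • y - y = ω) (ha : N • y ∈ starF (botF q)) :
    (N : ℤ) ∣ 1 - ordUx (botF q) (N • y) := by
  have hω1 : ‖ω.val‖ = 1 := norm_eq_one_of_pow_eq_one (NeZero.ne N)
    (by rw [← Ux.val_nsmul, hωN, Ux.val_zero])
  set t := ordUx (botF q) (N • y)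
  set π : MM q := Ux.mk (1 - ζ) (one_sub_zeta_ne_zero hζ)
  set E := ℚ_[q]⟮ζ⟯
  have hker : ∀ z : MM q, z ∈ fixedUx χ.ker → z.val ∈ E := fun z hz => by
    refine exists_apply_eq_of_mem E fun d hd => ?_
    have hd' : d ∈ χ.ker := (mem_ker_iff_fix hζ χ hg₀ hχ).mpr
      ((IntermediateField.mem_fixingSubgroup_iff E d).mp hd ζ (mem_adjoin_simple_self ℚ_[q] ζ))
    exact congrArg Ux.val (hz d hd')
  have hπfix : π ∈ fixedUx χ.ker := fun d hd => Ux.ext (by
    rw [Ux.val_smul, Ux.val_mk, map_sub, map_one, (mem_ker_iff_fix hζ χ hg₀ hχ).mp hd])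
  set u := y - t • π
  have hufix : u ∈ fixedUx χ.ker := sub_mem hy (zsmul_mem hπfix t)
  have hpos : 0 < ‖1 - ζ‖ := norm_pos_iff.mpr (one_sub_zeta_ne_zero hζ)
  have hu1 : ‖u.val‖ = 1 := by
    have hyn : ‖y.val‖ = ‖1 - ζ‖ ^ t := norm_eq_zpow_of_nsmul_mem hζ hN ha
    rw [Ux.val_sub, Ux.val_zsmul, Ux.val_mk, norm_div, norm_zpow, hyn,
      div_self (zpow_ne_zero _ hpos.ne')]
  set c := σ • π - π
  have hd : (σ • u : MM q) - u = ω - t • c := by
    simp only [u, c, smul_sub, smul_zsmul_comm, ← hyσ]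
    abel
  have hσu : ‖(σ • u : MM q).val‖ = 1 := by rw [Ux.val_smul, norm_apply, hu1]
  obtain ⟨hc1, hres_c⟩ : ‖c.val‖ = 1 ∧ res c.val = ((g₀ : ZMod q).val : Res' q) :=
    norm_res_smul_sub_uniformizer hζ χ hχ hσ1
  set ω' : ↥(unitsUx q) := ⟨ω, mem_unitsUx.mpr hω1⟩
  set c' : ↥(unitsUx q) := ⟨c, mem_unitsUx.mpr hc1⟩
  set u' : ↥(unitsUx q) := ⟨u, mem_unitsUx.mpr hu1⟩
  set v' : ↥(unitsUx q) := ⟨σ • u, mem_unitsUx.mpr hσu⟩
  have hv : resHom q v' = resHom q u' :=
    resHom_eq_iff.mpr (by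
      show res (σ • u : MM q).val = res u.val
      rw [Ux.val_smul]
      exact smul_res_eq hζ hN (hker u hufix) hu1)
  have hcω : resHom q c' = resHom q ω' := resHom_eq_iff.mpr (hres_c.trans hωres.symm)
  have hzero : (1 - t) • resHom q ω' = 0 := by
    have e : ω' - t • c' = v' - u' := Subtype.ext (by
      simp only [AddSubgroup.coe_sub, AddSubgroup.coe_zsmul, ω', c', v', u', hd])
    have := congrArg (resHom q) e
    rw [map_sub, map_zsmul, map_sub, hv, sub_self, hcω] at this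
    rwa [sub_smul, one_smul]
  have hord : addOrderOf (resHom q ω') = N := by
    rw [← hg₀, ← orderOf_units (y := g₀)]
    have hcast : ((Additive.toMul (resHom q ω') : (Res' q)ˣ) : Res' q) =
        ZMod.castHom (dvd_refl q) (Res' q) (g₀ : ZMod q) := by
      show res ω.val = _
      rw [hωres, ← map_natCast (ZMod.castHom (dvd_refl q) (Res' q)), ZMod.natCast_zmod_val]
    rw [← orderOf_injective (ZMod.castHom (dvd_refl q) (Res' q)).toMonoidHom
      (ZMod.castHom_injective (Res' q)) (g₀ : ZMod q)]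
    rw [show (ZMod.castHom (dvd_refl q) (Res' q)).toMonoidHom (g₀ : ZMod q) =
      ((Additive.toMul (resHom q ω') : (Res' q)ˣ) : Res' q) from hcast.symm, orderOf_units,
      ← addOrderOf_ofMul_eq_orderOf]
    rfl
  rw [← hord]
  exact addOrderOf_dvd_iff_zsmul_eq_zero.mpr hzero

omit hζ hg₀ hχ in
include hN hωN in
/-- An `N`-th root of `ω` is a Kummer generator for the unramified character. -/
private lemma exists_unram_kummer_generator :
    ∃ μ : MM q, N • μ = ω ∧ ∀ d ∈ (botF q).fixingSubgroup,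
      d • μ - μ = (unramChar (botF q) N d).val • ω := by
  obtain ⟨z, hz⟩ := IsAlgClosed.exists_pow_nat_eq ω.val (Nat.pos_of_ne_zero (NeZero.ne N))
  have hz0 : z ≠ 0 := fun h => ω.val_ne_zero (by rw [← hz, h, zero_pow (NeZero.ne N)])
  let μ : MM q := Ux.mk z hz0
  have hμ : N • μ = ω := Ux.ext (by rw [Ux.val_nsmul, Ux.val_mk, hz])
  have hQ : resCard (botF q) = q := resCard_bot
  have hq1 : (q : ZMod N) = 1 := by rw [← hN]; push_cast; rw [ZMod.natCast_self, zero_add]
  have hsum : ∀ i, ((∑ k ∈ Finset.range i, q ^ k : ℕ) : ZMod N) = i := fun i => by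
    simp [hq1]
  have hgeom : ∀ i, q ^ i = (∑ k ∈ Finset.range i, q ^ k) * N + 1 := fun i => by
    have h := geom_sum_mul_add N i
    rw [hN] at h
    exact h.symm
  have hzpow : z ^ unramOrder (botF q) N = 1 := by
    obtain ⟨r, hr⟩ := (ZMod.natCast_eq_zero_iff _ N).mp ((hsum N).trans (ZMod.natCast_self N))
    have hu : unramOrder (botF q) N = (N * r) * N := by
      rw [unramOrder, hQ, hgeom N, hr, Nat.add_sub_cancel]
    rw [hu, mul_assoc, mul_comm r, ← mul_assoc, pow_mul, pow_mul, hz, ← Ux.val_nsmul, hωN,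
      Ux.val_zero, one_pow]
  have hkμ : ∀ d ∈ ((botF q)).fixingSubgroup, d • μ - μ = (unramChar (botF q) N d).val • ω :=
      fun d hd => by
    rw [unramChar_apply]
    set i := (frobExp (botF q) N d).val
    have happ : d • μ = (q ^ i) • μ := Ux.ext (by
      rw [Ux.val_smul, Ux.val_nsmul, Ux.val_mk, apply_root (botF q) N hd hzpow, hQ])
    have hS : ((∑ k ∈ Finset.range i, q ^ k : ℕ)) • ω = i • ω := by
      obtain ⟨m, hm⟩ := (ZMod.intCast_zmod_eq_zero_iff_dvd
        (((∑ k ∈ Finset.range i, q ^ k : ℕ) : ℤ) - i) N).mp (by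
          rw [Int.cast_sub, Int.cast_natCast, Int.cast_natCast, hsum i, sub_self])
      rw [← natCast_zsmul, ← natCast_zsmul ω i, sub_eq_iff_eq_add.mp hm, add_smul, mul_comm,
        mul_smul, natCast_zsmul ω N, hωN, smul_zero, zero_add]
    rw [happ, hgeom i, add_smul, one_smul, add_sub_cancel_right, mul_smul, hμ, hS]
  exact ⟨μ, hμ, hkμ⟩

include hω hωN hωres

/-- The tame symbol. -/
theorem inv_cyc_root : inv (botF q) (cyc χ ω) = qz (-1) N := by
  obtain ⟨σ, hσ, hσ1⟩ := exists_char_one hζ hN χ hg₀ hχ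
  rcases eq_or_ne N 1 with hN1 | hN1
  · subst hN1
    have h0 : ω = 0 := by rwa [one_smul] at hωN
    rw [h0, cyc_zero, (inv_eq_zero_iff (botF q) (zero_mem _)).mpr (zero_mem _), eq_comm,
      qz_eq_zero_iff]
    simp
  have : Fact (1 < N) := ⟨by have := NeZero.ne N; omega⟩
  have hωfix : ∀ d : Gal' q, d • ω = ω := fun d => hω d (mem_fix_bot d)
  obtain ⟨y, hy, hyσ, hkum, ha⟩ := exists_kummer_generator χ hω hωN hσ hσ1
  obtain ⟨μ, hμ, hkμ⟩ := exists_unram_kummer_generator hN hωN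
  set t := ordUx (botF q) (N • y)
  have hdvd : (N : ℤ) ∣ 1 - t := dvd_one_sub_ord hζ hN χ hg₀ hχ hωN hωres hσ1 hy hyσ ha
  have hB2 := cyc_add_cyc_swap_mem_B2 χ (unramChar (botF q) N) hωN (fun d _ => hωfix d) hkum hkμ
  rw [hμ] at hB2
  have hadd := inv_add (botF q) (cyc_mem_Z2' (botF q) χ hω)
    (cyc_mem_Z2' (botF q) (unramChar (botF q) N) ha)
  rw [(inv_eq_zero_iff (botF q) (add_mem (cyc_mem_Z2' (botF q) χ hω)
      (cyc_mem_Z2' (botF q) (unramChar (botF q) N) ha))).mpr hB2,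
    show cyc (unramChar (botF q) N) (N • y) = uCls (botF q) N (N • y) from rfl,
    inv_uCls (botF q) ha] at hadd
  rw [eq_neg_of_add_eq_zero_left hadd.symm]
  have hneg : qz (-1) N + qz t N = 0 := by
    rw [← qz_add, qz_eq_zero_iff, show (-1 + t) = -(1 - t) by ring]
    exact dvd_neg.mpr hdvd
  exact (eq_neg_of_add_eq_zero_left hneg).symm

omit hζ hχ hω hωN hωres in
/-- The invariant of a principal unit vanishes. -/
theorem inv_cyc_principal {u : MM q} (hu : u ∈ starF (botF q)) (hu1 : ‖u.val‖ = 1)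
    (hres : res u.val = 1) :
    inv (botF q) (cyc χ u) = 0 := by
  have hNq : ¬ q ∣ N := fun h => by
    have := Nat.le_of_dvd (Nat.pos_of_ne_zero (NeZero.ne N)) h
    omega
  obtain ⟨z, hz⟩ := IsAlgClosed.exists_pow_nat_eq u.val (Nat.pos_of_ne_zero (NeZero.ne N))
  have hz1 : ‖z‖ = 1 := by
    rw [← hz, norm_pow] at hu1
    exact (pow_eq_one_iff_of_nonneg (norm_nonneg z) (NeZero.ne N)).mp hu1
  have hN1 : unramOrder (botF q) 1 = N := by rw [unramOrder, resCard_bot, pow_one]; omega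
  have hrz : res z ^ unramOrder (botF q) 1 = 1 := by rw [hN1, ← res_pow hz1.le, hz, hres]
  have : NeZero (unramOrder (botF q) 1) := ⟨(unramOrder_pos (botF q) 1).ne'⟩
  obtain ⟨j, -, hj⟩ := (res_unramRoot_spec (botF q) 1).eq_pow_of_pow_eq_one hrz
  rw [← res_pow (norm_unramRoot (botF q) 1).le] at hj
  set ρ := unramRoot (botF q) 1 ^ j
  have hρN : ρ ^ N = 1 := by
    rw [← hN1, ← pow_mul, mul_comm, pow_mul, (unramRoot_spec (botF q) 1).pow_eq_one, one_pow]
  have hρfix : ∀ d : Gal' q, d ρ = ρ := fun d => by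
    rw [map_pow, apply_root (botF q) 1 (mem_fix_bot d) (unramRoot_spec (botF q) 1).pow_eq_one,
      Subsingleton.elim (frobExp (botF q) 1 d) 0, ZMod.val_zero, pow_zero, pow_one]
  have hρ1 : ‖ρ‖ = 1 := norm_eq_one_of_pow_eq_one (NeZero.ne N) hρN
  have hρ0 : ρ ≠ 0 := norm_pos_iff.mp (hρ1.symm ▸ one_pos)
  have hz0 : z ≠ 0 := norm_pos_iff.mp (hz1.symm ▸ one_pos)
  set w : MM q := Ux.mk (z / ρ) (div_ne_zero hz0 hρ0)
  have hw : N • w = u := Ux.ext (by
    rw [Ux.val_nsmul, Ux.val_mk, div_pow, hz, hρN, div_one])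
  have hwF : w ∈ starF (botF q) := fun d hd => by
    refine Ux.ext ?_
    rw [Ux.val_smul]
    set x := w.val
    have hx1 : ‖x‖ = 1 := by
      show ‖z / ρ‖ = 1
      rw [norm_div, hz1, hρ1, div_one]
    have hxN : (d x / x) ^ N = 1 := by
      rw [div_pow, ← map_pow, ← Ux.val_nsmul, hw,
        (IntermediateField.mem_fixingSubgroup_iff (botF q) d).mp hd _
          (mem_fixedUx_fixingSubgroup.mp hu),
        div_self u.val_ne_zero]
    have hx0 : x ≠ 0 := Ux.val_ne_zero w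
    have hres1 : res x = 1 := by
      have h := res_mul (q := q) (x := z / ρ) (y := ρ) hx1.le hρ1.le
      rw [div_mul_cancel₀ z hρ0, ← hj] at h
      refine mul_right_cancel₀ ?_ (h.symm.trans (one_mul _).symm)
      rw [Ne, res_eq_zero_iff hρ1.le, hρ1]
      exact lt_irrefl 1
    have hdx : ‖d x‖ = 1 := by rw [norm_apply, hx1]
    have hres2 : res (d x) = 1 := by
      rw [← res_one, res_eq_res_iff hdx.le norm_one.le, ← map_one d, ← map_sub, norm_apply,
        ← res_eq_res_iff hx1.le norm_one.le, hres1, res_one]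
    have h := eq_of_res_eq hNq hxN (one_pow N) (by
      rw [res_eq_res_iff (norm_eq_one_of_pow_eq_one (NeZero.ne N) hxN).le norm_one.le,
        div_sub_one hx0, norm_div, hx1, div_one]
      exact (res_eq_res_iff hdx.le hx1.le).mp (hres2.trans hres1.symm))
    exact (div_eq_one_iff_eq hx0).mp h
  rw [← hw, inv_cyc_nsmul (botF q) χ hwF]

/-- The invariant of a unit with residue a power of the generator. -/
theorem inv_cyc_unit {u : MM q} (hu : u ∈ starF (botF q)) (hu1 : ‖u.val‖ = 1) (i : ℕ)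
    (hres : res u.val = ((g₀ : ZMod q).val : Res' q) ^ i) :
    inv (botF q) (cyc χ u) = qz (-i) N := by
  have hω1 : ‖ω.val‖ = 1 := norm_eq_one_of_pow_eq_one (NeZero.ne N)
    (by rw [← Ux.val_nsmul, hωN, Ux.val_zero])
  set r := u - i • ω
  have hr : r ∈ starF (botF q) := sub_mem hu (nsmul_mem hω i)
  have hr1 : ‖r.val‖ = 1 := by rw [Ux.val_sub, Ux.val_nsmul, norm_div, norm_pow, hu1, hω1]; simp
  have hir : res r.val = 1 := by
    have e : r.val * ω.val ^ i = u.val := by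
      rw [Ux.val_sub, Ux.val_nsmul, div_mul_cancel₀ _ (pow_ne_zero _ ω.val_ne_zero)]
    have hp : ‖ω.val ^ i‖ ≤ 1 := by rw [norm_pow, hω1, one_pow]
    have h := congrArg res e
    rw [res_mul hr1.le hp, res_pow hω1.le, hωres, hres] at h
    refine mul_right_cancel₀ ?_ (h.trans (one_mul _).symm)
    rw [← hωres, ← res_pow hω1.le, Ne, res_eq_zero_iff hp, norm_pow, hω1, one_pow]
    exact lt_irrefl 1
  rw [show u = r + i • ω by simp [r], inv_cyc_add (botF q) χ hr (nsmul_mem hω i),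
    inv_cyc_principal hN χ hg₀ hr hr1 hir, zero_add]
  have hcyc : cyc χ (i • ω) = i • cyc χ ω := by
    rw [← natCast_zsmul, cyc_zsmul, natCast_zsmul]
  rw [hcyc, inv_nsmul (botF q) (cyc_mem_Z2' (botF q) χ hω),
    inv_cyc_root hζ hN χ hg₀ hχ hω hωN hωres,
    ← natCast_zsmul, ← qz_mul]
  simp

end Local

end FermatAgent.CFT
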