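import Fermat.Agent.CFT.Local.Unramified

/-!
Norms from unramified extensions.
-/

set_option autoImplicit false

noncomputable section

open scoped Classical
open Polynomial

namespace FermatAgent.CFT.Local

open Coh

variable {q : ℕ} [hq : Fact q.Prime]

lemma continuous_apply' (σ : Gal' q) : Continuous σ :=
  (AddMonoidHomClass.isometry_of_norm σ (norm_apply σ)).continuous

/-- Products near one are sums up to second order. -/
lemma norm_prod_one_add_sub {ι : Type*} (s : Finset ι) (x : ι → PadicAlgCl q) {r : ℝ} (hr0 : 0 ≤ r)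
    (hr : r ≤ 1) (hx : ∀ i ∈ s, ‖x i‖ ≤ r) :
    ‖∏ i ∈ s, (1 + x i) - 1 - ∑ i ∈ s, x i‖ ≤ r ^ 2 ∧ ‖∏ i ∈ s, (1 + x i) - 1‖ ≤ r := by
  induction s using Finset.induction with
  | empty => simpa using And.intro (sq_nonneg r) hr0
  | insert a s ha ih =>
    obtain ⟨h1, h2⟩ := ih fun i hi => hx i (Finset.mem_insert_of_mem hi)
    have hxa := hx a (Finset.mem_insert_self a s)
    rw [Finset.prod_insert ha, Finset.sum_insert ha]
    set P := ∏ i ∈ s, (1 + x i)
    set S := ∑ i ∈ s, x i
    have e : (1 + x a) * P - 1 - (x a + S) = (P - 1 - S) + (P - 1) * x a := by ring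
    have e' : (1 + x a) * P - 1 = (P - 1) + x a + (P - 1) * x a := by ring
    have hm : ‖(P - 1) * x a‖ ≤ r ^ 2 := by
      rw [norm_mul, sq]; exact mul_le_mul h2 hxa (norm_nonneg _) hr0
    refine ⟨?_, ?_⟩
    · rw [e]
      exact (IsUltrametricDist.norm_add_le_max _ _).trans (max_le h1 hm)
    · rw [e']
      refine (IsUltrametricDist.norm_add_le_max _ _).trans (max_le
        ((IsUltrametricDist.norm_add_le_max _ _).trans (max_le h2 hxa)) (hm.trans ?_))
      rw [sq]; exact mul_le_of_le_one_left hr0 hr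

variable (F : IntermediateField ℚ_[q] (PadicAlgCl q)) [FiniteDimensional ℚ_[q] F] (m : ℕ) [NeZero m]

/-- The exponent of powers of Frobenius. -/
lemma frobExp_frob_pow (i : ℕ) : frobExp F m (frob F m ^ i) = i := by
  have h := (unramChar F m).map_pow (frob_mem F m) i
  rw [unramChar_apply, unramChar_apply, frobExp_frob, mul_one] at h
  exact h

lemma frob_pow_root (i : ℕ) :
    (frob F m ^ i) (unramRoot F m) = unramRoot F m ^ resCard F ^ i := by
  have hω := (unramRoot_spec F m).pow_eq_one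
  rw [apply_root F m (pow_mem (frob_mem F m) i) hω, frobExp_frob_pow, ZMod.val_natCast,
    pow_resCard_pow_mod F m hω]

/-- The kernel fixes the unramified extension. -/
lemma smul_unramField {y : PadicAlgCl q} (hy : y ∈ unramField F m) :
    ∀ s ∈ (unramChar F m).ker, s • y = y := fun s hs => by
  rw [ker_unramChar] at hs
  exact (IntermediateField.mem_fixingSubgroup_iff _ s).mp hs y hy

lemma sum_frob_mem {y : PadicAlgCl q} (hy : y ∈ unramField F m) :
    ∑ i ∈ Finset.range m, (frob F m ^ i) y ∈ F := by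
  refine exists_apply_eq_of_mem F fun g hg => ?_
  have h := cycNorm_fixed (unramChar F m) (frob_mem F m) (frobExp_frob F m) (smul_unramField F m hy)
    g hg
  rw [cycNorm_apply] at h
  exact h

lemma prod_frob_mem {y : PadicAlgCl q} (hy : y ∈ unramField F m) :
    ∏ i ∈ Finset.range m, (frob F m ^ i) y ∈ F := by
  refine exists_apply_eq_of_mem F fun g hg => ?_
  rcases eq_or_ne y 0 with rfl | h0
  · simp [Finset.prod_const, zero_pow (NeZero.ne m)]
  have hyf : ∀ s ∈ (unramChar F m).ker, s • Ux.mk y h0 = Ux.mk y h0 := fun s hs =>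
    Ux.ext (smul_unramField F m hy s hs)
  have h := cycNorm_fixed (unramChar F m) (frob_mem F m) (frobExp_frob F m) hyf g hg
  have := congrArg Ux.val h
  rw [Ux.val_smul, Ux.val_cycNorm, Ux.val_mk] at this
  exact this

/-- Some trace of a multiple of an element has the same norm. -/
lemma exists_trace {y : PadicAlgCl q} (hy : y ∈ unramField F m) :
    ∃ j : ℕ, ∃ t ∈ F, t = ∑ i ∈ Finset.range m, (frob F m ^ i) (unramRoot F m ^ j * y) ∧
      ‖t‖ = ‖y‖ := by
  set ζ := unramRoot F m
  set σ := frob F m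
  set t : ℕ → PadicAlgCl q := fun j => ∑ i ∈ Finset.range m, (σ ^ i) (ζ ^ j * y)
  have hle : ∀ j, ‖t j‖ ≤ ‖y‖ := fun j =>
    IsUltrametricDist.norm_sum_le_of_forall_le_of_nonneg (norm_nonneg y) fun i _ => by
      rw [norm_apply, norm_mul, norm_pow, norm_unramRoot, one_pow, one_mul]
  have hζint : ∀ i : ℕ, ζ ^ resCard F ^ i ∈ intRing q := fun i =>
    mem_intRing.mpr (by rw [norm_pow, norm_unramRoot, one_pow])
  set L₀ : (intRing q)[X] := ∏ i ∈ Finset.Ico 1 m, (X - C ⟨_, hζint i⟩)
  set L : (PadicAlgCl q)[X] := ∏ i ∈ Finset.Ico 1 m, (X - C (ζ ^ resCard F ^ i))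
  have hL : L₀.map (intRing q).subtype = L := by
    simp only [L₀, L, Polynomial.map_prod, Polynomial.map_sub, map_X, map_C]
    rfl
  have hcoef : ∀ j, ‖L.coeff j‖ ≤ 1 := fun j => by
    rw [← hL, coeff_map]; exact mem_intRing.mp (L₀.coeff j).2
  have hLζ : ‖L.eval ζ‖ = 1 := by
    rw [eval_prod, norm_prod]
    refine Finset.prod_eq_one fun i hi => ?_
    rw [eval_sub, eval_X, eval_C]
    have hpow : ‖ζ ^ resCard F ^ i‖ ≤ 1 := mem_intRing.mp (hζint i)
    have hζ1 : ‖ζ‖ ≤ 1 := (norm_unramRoot F m).le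
    refine le_antisymm ((IsUltrametricDist.norm_add_le_max ζ (-ζ ^ resCard F ^ i) |>.trans
      (max_le hζ1 (by rwa [norm_neg]))).trans_eq' (by rw [sub_eq_add_neg])) (not_lt.mp fun h => ?_)
    have he := eq_of_res_eq (not_dvd_unramOrder F m) (unramRoot_spec F m).pow_eq_one
      (by rw [← pow_mul, mul_comm, pow_mul, (unramRoot_spec F m).pow_eq_one, one_pow])
      ((res_eq_res_iff hζ1 hpow).mpr h)
    have := exponent_unique F m (i := 0) (j := i) (by rw [pow_zero, pow_one]; exact he)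
    rw [Nat.cast_zero, eq_comm, ZMod.natCast_eq_zero_iff] at this
    obtain ⟨h1, h2⟩ := Finset.mem_Ico.mp hi
    exact absurd (Nat.le_of_dvd (by omega) this) (by omega)
  have key : ∑ j ∈ Finset.range (L.natDegree + 1), L.coeff j * t j = L.eval ζ * y := by
    simp only [t, Finset.mul_sum, map_mul, map_pow, σ, ζ, frob_pow_root]
    rw [Finset.sum_comm]
    simp only [← mul_assoc, ← Finset.sum_mul, ← eval_eq_sum_range]
    rw [Finset.sum_eq_single 0]
    · simp
    · intro i hi hi0
      rw [show L.eval (unramRoot F m ^ resCard F ^ i) = 0 by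
        rw [eval_prod]
        exact Finset.prod_eq_zero (Finset.mem_Ico.mpr ⟨by omega, Finset.mem_range.mp hi⟩)
          (by simp [ζ]),
        zero_mul]
    · simp [NeZero.ne m]
  obtain ⟨j, -, hj⟩ := IsUltrametricDist.exists_norm_finsetSum_le
    (Finset.range (L.natDegree + 1)) (fun j => L.coeff j * t j)
  rw [key, norm_mul, hLζ, one_mul, norm_mul] at hj
  exact ⟨j, t j, sum_frob_mem F m (mul_mem (pow_mem (unramRoot_mem F m) j) hy), rfl,
    le_antisymm (hle j) (hj.trans (mul_le_of_le_one_left (norm_nonneg _) (hcoef j)))⟩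

/-- The norm of an element of the unramified extension is in the value group of `F`. -/
lemma exists_norm_eq_of_unramField {y : PadicAlgCl q} (hy : y ∈ unramField F m) :
    ∃ t ∈ F, ‖t‖ = ‖y‖ := by
  obtain ⟨-, t, ht, -, hn⟩ := exists_trace F m hy
  exact ⟨t, ht, hn⟩

lemma norm_prod_frob (y : PadicAlgCl q) :
    ‖∏ i ∈ Finset.range m, (frob F m ^ i) y‖ = ‖y‖ ^ m := by
  rw [norm_prod]
  simp only [norm_apply, Finset.prod_const, Finset.card_range]

/-- Every unit of `F` is a norm from the unramified extension. -/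
theorem exists_unit_norm {u : PadicAlgCl q} (hu : u ∈ F) (h1 : ‖u‖ = 1) :
    ∃ y ∈ unramField F m, ‖y‖ = 1 ∧ ∏ i ∈ Finset.range m, (frob F m ^ i) y = u := by
  set U := unramField F m
  set σ := frob F m
  set ζ := unramRoot F m
  set S : Set (PadicAlgCl q) := (fun y : U => ∏ i ∈ Finset.range m, (σ ^ i) (y : PadicAlgCl q)) ''
    Metric.sphere 0 1
  have := properSpace U
  have hS : IsClosed S := ((isCompact_sphere (0 : U) 1).image
    (continuous_finsetProd _ fun i _ =>
      (continuous_apply' (σ ^ i)).comp continuous_subtype_val)).isClosed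
  suffices happ : ∀ n : ℕ, 1 ≤ n → ∃ y : U, ‖(y : PadicAlgCl q)‖ = 1 ∧
      ‖∏ i ∈ Finset.range m, (σ ^ i) (y : PadicAlgCl q) - u‖ ≤ ‖unif F‖ ^ n by
    have humem : u ∈ closure S := by
      rw [Metric.mem_closure_iff]
      intro ε hε
      obtain ⟨n, hn⟩ := exists_pow_lt_of_lt_one hε (norm_unif_lt_one F)
      obtain ⟨y, hy, hyn⟩ := happ (n + 1) (Nat.le_add_left 1 n)
      refine ⟨_, ⟨y, by rw [mem_sphere_zero_iff_norm]; exact hy, rfl⟩, ?_⟩
      rw [dist_comm, dist_eq_norm]
      exact lt_of_le_of_lt (hyn.trans (pow_le_pow_of_le_one (norm_nonneg _) (norm_unif_lt_one F).le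
        (Nat.le_succ n))) hn
    rw [hS.closure_eq] at humem
    obtain ⟨y, hy, hyu⟩ := humem
    exact ⟨y, y.2, mem_sphere_zero_iff_norm.mp hy, hyu⟩
  intro n hn
  induction n, hn using Nat.le_induction with
  | base =>
    -- a root of unity with the residue of `u`
    have hN := one_lt_resCard F
    have hc : res u ^ (resCard F - 1) = 1 := by
      have h := (mem_resField_iff F).mp (res_mem_resField F hu h1.le)
      rw [← Nat.sub_add_cancel hN.le, pow_succ] at h
      refine mul_right_cancel₀ ?_ (h.trans (one_mul _).symm)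
      rw [Ne, res_eq_zero_iff h1.le, h1]
      exact lt_irrefl 1
    have hgeom : (∑ i ∈ Finset.range m, resCard F ^ i) * (resCard F - 1) = unramOrder F m := by
      have h := geom_sum_mul_add (resCard F - 1) m
      rw [Nat.sub_add_cancel hN.le] at h
      rw [unramOrder, ← h, Nat.add_sub_cancel]
    set S' := ∑ i ∈ Finset.range m, resCard F ^ i
    have hS0 : 0 < S' := Nat.pos_of_mul_pos_right (hgeom.symm ▸ unramOrder_pos F m)
    have : NeZero (unramOrder F m) := ⟨(unramOrder_pos F m).ne'⟩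
    obtain ⟨s, -, hs⟩ := (res_unramRoot_spec F m).eq_pow_of_pow_eq_one (ξ := res u) (by
      rw [← hgeom, mul_comm, pow_mul, hc, one_pow])
    obtain ⟨s', rfl⟩ : S' ∣ s := by
      have : res ζ ^ (s * (resCard F - 1)) = 1 := by rw [pow_mul, hs, hc]
      have hd := (res_unramRoot_spec F m).dvd_of_pow_eq_one _ this
      rw [← hgeom] at hd
      exact Nat.dvd_of_mul_dvd_mul_right (by omega) hd
    refine ⟨⟨ζ ^ s', pow_mem (unramRoot_mem F m) s'⟩, ?_, ?_⟩
    · show ‖ζ ^ s'‖ = 1
      rw [norm_pow, norm_unramRoot, one_pow]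
    · have hprod : ∏ i ∈ Finset.range m, (σ ^ i) (ζ ^ s') = ζ ^ (S' * s') := by
        simp only [map_pow, σ, ζ, frob_pow_root, ← pow_mul, Finset.prod_pow_eq_pow_sum,
          ← Finset.sum_mul, S']
      show ‖∏ i ∈ Finset.range m, (σ ^ i) (ζ ^ s') - u‖ ≤ _
      rw [hprod, pow_one]
      refine norm_le_norm_unif F (sub_mem (hprod ▸ prod_frob_mem F m
        (pow_mem (unramRoot_mem F m) s')) hu) ?_
      have hn1 : ‖ζ ^ (S' * s')‖ ≤ 1 := by rw [norm_pow, norm_unramRoot, one_pow]
      rw [← res_eq_res_iff hn1 h1.le, res_pow (norm_unramRoot F m).le, hs]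
  | succ n hn ih =>
    obtain ⟨y, hy1, hy⟩ := ih
    set P := ∏ i ∈ Finset.range m, (σ ^ i) (y : PadicAlgCl q)
    have hP1 : ‖P‖ = 1 := by rw [norm_prod_frob, hy1, one_pow]
    have hP0 : P ≠ 0 := norm_pos_iff.mp (hP1 ▸ one_pos)
    have hdF : u / P - 1 ∈ F := sub_mem (div_mem hu (prod_frob_mem F m y.2)) (one_mem F)
    have hd : ‖u / P - 1‖ ≤ ‖unif F‖ ^ n := by
      rw [div_sub_one hP0, norm_div, hP1, div_one, norm_sub_rev]
      exact hy
    obtain ⟨j, τ, hτF, hτ, hτ1⟩ := exists_trace F m (one_mem U)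
    rw [norm_one] at hτ1
    have hτ0 : τ ≠ 0 := norm_pos_iff.mp (hτ1 ▸ one_pos)
    set d := u / P - 1
    set x : PadicAlgCl q := d / τ * ζ ^ j
    have hxU : x ∈ U :=
      mul_mem (le_unramField F m (div_mem hdF hτF)) (pow_mem (unramRoot_mem F m) j)
    have hxn : ∀ i ∈ Finset.range m, ‖(σ ^ i) x‖ ≤ ‖unif F‖ ^ n := fun i _ => by
      rw [norm_apply, norm_mul, norm_div, hτ1, div_one, norm_pow, norm_unramRoot, one_pow, mul_one]
      exact hd
    have hsum : ∑ i ∈ Finset.range m, (σ ^ i) x = d := by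
      have hfix : ∀ i, (σ ^ i) (d / τ) = d / τ := fun i =>
        (IntermediateField.mem_fixingSubgroup_iff F _).mp (pow_mem (frob_mem F m) i) _
          (div_mem hdF hτF)
      simp only [x, map_mul, hfix, ← Finset.mul_sum]
      simp only [mul_one] at hτ
      rw [← hτ, div_mul_cancel₀ d hτ0]
    obtain ⟨h2, h3⟩ := norm_prod_one_add_sub (Finset.range m) (fun i => (σ ^ i) x)
      (pow_nonneg (norm_nonneg (unif F)) n)
      (pow_le_one₀ (norm_nonneg _) (norm_unif_lt_one F).le) hxn
    rw [hsum] at h2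
    refine ⟨⟨y * (1 + x), mul_mem y.2 (add_mem (one_mem U) hxU)⟩, ?_, ?_⟩
    · show ‖(y : PadicAlgCl q) * (1 + x)‖ = 1
      have hx : ‖x‖ < 1 := by
        have := hxn 0 (Finset.mem_range.mpr (Nat.pos_of_ne_zero (NeZero.ne m)))
        rw [norm_apply] at this
        exact lt_of_le_of_lt this (pow_lt_one₀ (norm_nonneg _) (norm_unif_lt_one F) (by omega))
      rw [norm_mul, hy1, one_mul, IsUltrametricDist.norm_add_eq_max_of_norm_ne_norm
        (by rw [norm_one]; exact hx.ne'), norm_one, max_eq_left hx.le]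
    · show ‖∏ i ∈ Finset.range m, (σ ^ i) ((y : PadicAlgCl q) * (1 + x)) - u‖ ≤ _
      simp only [map_mul, map_add, map_one, Finset.prod_mul_distrib]
      set Q := ∏ i ∈ Finset.range m, (1 + (σ ^ i) x)
      rw [show P * Q - u = P * (Q - 1 - d) by
        simp only [d]; field_simp; ring, norm_mul, hP1, one_mul]
      refine h2.trans ?_
      rw [← pow_mul]
      exact pow_le_pow_of_le_one (norm_nonneg _) (norm_unif_lt_one F).le (by omega)

/-- The norm group of the unramified extension. -/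
theorem exists_norm_iff {b : PadicAlgCl q} (hb : b ∈ F) (hb0 : b ≠ 0) :
    (∃ y ∈ unramField F m, y ≠ 0 ∧ ∏ i ∈ Finset.range m, (frob F m ^ i) y = b) ↔
      (m : ℤ) ∣ ord F b := by
  constructor
  · rintro ⟨y, hy, hy0, rfl⟩
    obtain ⟨t, ht, hn⟩ := exists_norm_eq_of_unramField F m hy
    have ht0 : t ≠ 0 := norm_pos_iff.mp (hn ▸ norm_pos_iff.mpr hy0)
    refine ⟨ord F t, ord_unique F hb hb0 ?_⟩
    rw [norm_prod_frob, ← hn, norm_eq_zpow_ord F ht ht0, ← zpow_natCast, ← zpow_mul, mul_comm]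
  · rintro ⟨k, hk⟩
    have hπ := unif_mem F
    have hπ0 := unif_ne_zero F
    set u := b / (unif F ^ k) ^ m
    have huF : u ∈ F := div_mem hb (pow_mem (zpow_mem hπ k) m)
    have hu : ‖u‖ = 1 := by
      rw [norm_div, norm_pow, norm_zpow, norm_eq_zpow_ord F hb hb0, hk, ← zpow_natCast, ← zpow_mul,
        mul_comm, div_self (zpow_ne_zero _ (norm_unif_pos F).ne')]
    obtain ⟨y, hy, hy1, hyu⟩ := exists_unit_norm F m huF hu
    refine ⟨unif F ^ k * y, mul_mem (zpow_mem (le_unramField F m hπ) k) hy,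
      mul_ne_zero (zpow_ne_zero k hπ0) (norm_pos_iff.mp (hy1 ▸ one_pos)), ?_⟩
    have hfix : ∀ i, (frob F m ^ i) (unif F ^ k) = unif F ^ k := fun i =>
      (IntermediateField.mem_fixingSubgroup_iff F _).mp (pow_mem (frob_mem F m) i) _
        (zpow_mem hπ k)
    simp only [map_mul, hfix, Finset.prod_mul_distrib, hyu, Finset.prod_const, Finset.card_range]
    exact mul_div_cancel₀ b (pow_ne_zero m (zpow_ne_zero k hπ0))

end FermatAgent.CFT.Local
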